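import Fermat.Agent.H05_Unram
import Fermat.Prelude.Def_GaloisRep_LocalConditions

/-!
# Algebraic endgame for the local statements at `q ∥ N` (S34, S35)
-/

set_option autoImplicit false
set_option linter.style.haveILetI false

namespace Fermat.Agent.H05

open Polynomial Module

/-- The absolute Galois group of `ℚ`. -/
local notation "Γℚ" => AlgebraicClosure ℚ ≃ₐ[ℚ] AlgebraicClosure ℚ

theorem charpoly_eq_trace_det {T V : Type*} [CommRing T] [Nontrivial T] [AddCommGroup V]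
    [Module T V] [Module.Free T V] [Module.Finite T V] (hV : Module.finrank T V = 2)
    (f : Module.End T V) :
    f.charpoly = X ^ 2 - C (LinearMap.trace T V f) * X + C (LinearMap.det f) := by
  classical
  let e : Basis (Fin 2) T V := (Module.finBasis T V).reindex (finCongr hV)
  rw [LinearMap.trace_eq_matrix_trace T e, ← LinearMap.det_toMatrix e, ← LinearMap.charpoly_toMatrix f e,
    Matrix.charpoly_fin_two]

theorem det_eq_of_charpoly {T V : Type*} [CommRing T] [Nontrivial T] [AddCommGroup V]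
    [Module T V] [Module.Free T V] [Module.Finite T V] (hV : Module.finrank T V = 2)
    (f : Module.End T V) (a b : T) (hf : f.charpoly = X ^ 2 - C a * X + C b) :
    LinearMap.det f = b := by
  have h := charpoly_eq_trace_det hV f
  rw [hf] at h
  have := congrArg (fun P : T[X] => P.coeff 0) h
  simpa using this.symm

/-- If `f ≡ 1` modulo an ideal `I` then `det f ≡ 1` modulo `I`. -/
theorem det_sub_one_mem {T V : Type*} [CommRing T] [AddCommGroup V]
    [Module T V] [Module.Free T V] [Module.Finite T V] (I : Ideal T) (f : Module.End T V)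
    (hf : ∀ v, f v - v ∈ I • (⊤ : Submodule T V)) : LinearMap.det f - 1 ∈ I := by
  classical
  nontriviality T
  let e := Module.Free.chooseBasis T V
  have hmem : ∀ x ∈ I • (⊤ : Submodule T V), ∀ i, e.repr x i ∈ I := by
    intro x hx i
    refine Submodule.smul_induction_on (p := fun x => e.repr x i ∈ I) hx ?_ ?_
    · intro r hr w _
      rw [map_smul, Finsupp.smul_apply, smul_eq_mul]
      exact Ideal.mul_mem_right _ _ hr
    · intro x y hx hy
      rw [map_add, Finsupp.add_apply]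
      exact add_mem hx hy
  rw [← Ideal.Quotient.eq_zero_iff_mem, map_sub, map_one, ← LinearMap.det_toMatrix e,
    RingHom.map_det]
  have : (Ideal.Quotient.mk I).mapMatrix (LinearMap.toMatrix e e f) = 1 := by
    ext i j
    rw [RingHom.mapMatrix_apply, Matrix.map_apply, LinearMap.toMatrix_apply]
    have h1 := hmem _ (hf (e j)) i
    rw [map_sub, Finsupp.sub_apply, ← Ideal.Quotient.eq_zero_iff_mem, map_sub, sub_eq_zero] at h1
    rw [h1, Basis.repr_self, Finsupp.single_apply, Matrix.one_apply]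
    by_cases hij : i = j
    · subst hij; simp
    · rw [if_neg (Ne.symm hij), if_neg hij]
      simp
  rw [this, Matrix.det_one, sub_self]

/-- For every element `g` of the Galois group, a Hecke operator which approximates the trace of
`g`, acts as `g + χ(g) g⁻¹` on the geometric module; the determinant is cyclotomic. -/
theorem exists_hecke_trace_det (hCheb : WeakChebotarev) {p N : ℕ} [NeZero N] (hp : p.Prime)
    {S : Finset ℕ} (hpS : p ∈ S) (hNS : ∀ q : ℕ, q.Prime → q ∣ N → q ∈ S)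
    {T : Type} [CommRing T] [IsLocalRing T] (ρ : GaloisRepAdic T)
    (π : CuspForm.heckeAlgebra N 2 (↑S : Set ℕ) →+* T)
    (hfrob : ∀ (ℓ : ℕ) (hℓ : ℓ.Prime) (hℓN : ¬ ℓ ∣ N) (hℓS : ℓ ∉ (↑S : Set ℕ)),
      ∀ A : ValuationSubring (AlgebraicClosure ℚ), A.LiesOverPrime ℓ →
        ∀ σ : Γℚ, A.IsFrobeniusAt σ ℓ → LinearMap.charpoly (ρ.ρ σ) =
          X ^ 2 - C (π (CuspForm.heckeAlgebra.T hℓ hℓN hℓS)) * X + C ((ℓ : T)))
    {W : Type} [AddCommGroup W]
    (act : CuspForm.heckeAlgebra N 2 (↑S : Set ℕ) →+* Module.End ℤ W)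
    (r : Γℚ →* Module.End ℤ W) (hr : GaloisFactorsThroughFiniteLevel r)
    (hES : ∀ (ℓ : ℕ) (hℓ : ℓ.Prime) (hℓN : ¬ ℓ ∣ N) (hℓS : ℓ ∉ (↑S : Set ℕ)), ℓ ≠ p →
      ∀ A : ValuationSubring (AlgebraicClosure ℚ), A.LiesOverPrime ℓ →
      ∀ φ : Γℚ, A.IsFrobeniusAt φ ℓ → ∀ w : W,
        r φ (r φ w) - act (CuspForm.heckeAlgebra.T hℓ hℓN hℓS) (r φ w) + ℓ • w = 0)
    (n m : ℕ) (ζ : AlgebraicClosure ℚ) (hζ : ζ ^ (p ^ m) = 1) (g : Γℚ) :
    ∃ (s : CuspForm.heckeAlgebra N 2 (↑S : Set ℕ)) (c : ℕ),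
      LinearMap.trace T ρ.V (ρ.ρ g) - π s ∈ IsLocalRing.maximalIdeal T ^ n ∧
      LinearMap.det (ρ.ρ g) - (c : T) ∈ IsLocalRing.maximalIdeal T ^ n ∧
      (∀ w, act s w = r g w + c • r g⁻¹ w) ∧ g ζ = ζ ^ c := by
  obtain ⟨L₁, hL₁, h1⟩ := ρ.isAdicContinuous n
  obtain ⟨L₂, hL₂, h2⟩ := hr
  let L₃ : IntermediateField ℚ (AlgebraicClosure ℚ) := IntermediateField.adjoin ℚ {ζ}
  haveI hL₃ : FiniteDimensional ℚ L₃ := by
    apply IntermediateField.adjoin.finiteDimensional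
    apply IsIntegral.of_pow (pow_pos hp.pos m)
    rw [hζ]
    exact isIntegral_one
  haveI : FiniteDimensional ℚ (L₁ ⊔ L₂ : IntermediateField ℚ (AlgebraicClosure ℚ)) :=
    IntermediateField.finiteDimensional_sup L₁ L₂
  haveI : FiniteDimensional ℚ (L₁ ⊔ L₂ ⊔ L₃ : IntermediateField ℚ (AlgebraicClosure ℚ)) :=
    IntermediateField.finiteDimensional_sup (L₁ ⊔ L₂) L₃
  obtain ⟨ℓ, hℓ, hℓS, A, hA, φ, hφ, j, hj⟩ := hCheb (L₁ ⊔ L₂ ⊔ L₃) inferInstance S g
  have hℓN : ¬ ℓ ∣ N := fun h => hℓS (hNS ℓ hℓ h)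
  have hℓS' : ℓ ∉ (↑S : Set ℕ) := fun h => hℓS (by exact_mod_cast h)
  have hℓp : ℓ ≠ p := fun h => hℓS (h ▸ hpS)
  -- `u` fixes the three fields
  let u : Γℚ := (φ ^ j)⁻¹ * g
  have hu : ∀ x ∈ (L₁ ⊔ L₂ ⊔ L₃ : IntermediateField ℚ (AlgebraicClosure ℚ)), u x = x := by
    intro x hx
    change (φ ^ j)⁻¹ (g x) = x
    rw [hj x hx]
    change ((φ ^ j)⁻¹ * (φ ^ j)) x = x
    rw [inv_mul_cancel]
    rfl
  have hg : g = φ ^ j * u := by
    change g = φ ^ j * ((φ ^ j)⁻¹ * g)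
    rw [mul_inv_cancel_left]
  have hu1 : ∀ x ∈ L₁, u x = x :=
    fun x hx => hu x (le_sup_left (a := L₁ ⊔ L₂) (le_sup_left (a := L₁) hx))
  have hu2 : ∀ x ∈ L₂, u x = x :=
    fun x hx => hu x (le_sup_left (a := L₁ ⊔ L₂) (le_sup_right (a := L₁) hx))
  have hu3 : ∀ x ∈ L₃, u x = x := fun x hx => hu x (le_sup_right (a := L₁ ⊔ L₂) hx)
  refine ⟨lucas (CuspForm.heckeAlgebra.T hℓ hℓN hℓS')
    (ℓ : CuspForm.heckeAlgebra N 2 (↑S : Set ℕ)) j, ℓ ^ j, ?_, ?_, ?_, ?_⟩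
  · have h3 : LinearMap.trace T ρ.V (ρ.ρ φ ^ j) =
        π (lucas (CuspForm.heckeAlgebra.T hℓ hℓN hℓS')
          (ℓ : CuspForm.heckeAlgebra N 2 (↑S : Set ℕ)) j) := by
      rw [map_lucas, map_natCast]
      exact trace_pow_eq_lucas ρ.finrank_eq _ _ _ (hfrob ℓ hℓ hℓN hℓS' A hA φ hφ) j
    rw [← h3, ← map_pow, ← map_sub]
    apply trace_mem_of_forall_mem
    intro v
    have h4 : (ρ.ρ g - ρ.ρ (φ ^ j)) v = ρ.ρ (φ ^ j) (ρ.ρ u v - v) := by
      have : ρ.ρ g = ρ.ρ (φ ^ j) * ρ.ρ u := by rw [← map_mul, ← hg]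
      rw [LinearMap.sub_apply, this, map_sub, Module.End.mul_apply]
    rw [h4]
    exact Submodule.smul_top_le_comap_smul_top _ (ρ.ρ (φ ^ j)) (h1 u hu1 v)
  · have h3 : LinearMap.det (ρ.ρ φ) = (ℓ : T) :=
      det_eq_of_charpoly ρ.finrank_eq _ _ _ (hfrob ℓ hℓ hℓN hℓS' A hA φ hφ)
    have h4 : ρ.ρ g = ρ.ρ φ ^ j * ρ.ρ u := by rw [← map_pow, ← map_mul, ← hg]
    rw [h4, map_mul, map_pow, h3]
    have h5 := det_sub_one_mem (IsLocalRing.maximalIdeal T ^ n) (ρ.ρ u) (h1 u hu1)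
    have h6 : (ℓ : T) ^ j * LinearMap.det (ρ.ρ u) - ((ℓ ^ j : ℕ) : T) =
        (ℓ : T) ^ j * (LinearMap.det (ρ.ρ u) - 1) := by
      push_cast; ring
    rw [h6]
    exact Ideal.mul_mem_left _ _ h5
  · intro w
    rw [act_lucas act r φ _ ℓ (hES ℓ hℓ hℓN hℓS' hℓp A hA φ hφ)]
    have hru : r u = 1 := h2 u hu2
    have h5 : r g = r (φ ^ j) := by
      have : r g = r (φ ^ j) * r u := by rw [← map_mul, ← hg]
      rw [this, hru, mul_one]
    have hru' : r u⁻¹ = 1 := by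
      have : r u * r u⁻¹ = 1 := by rw [← map_mul, mul_inv_cancel, map_one]
      rwa [hru, one_mul] at this
    have h6 : r g⁻¹ = r ((φ ^ j)⁻¹) := by
      have : r g⁻¹ = r u⁻¹ * r ((φ ^ j)⁻¹) := by rw [← map_mul, ← mul_inv_rev, ← hg]
      rw [this, hru', one_mul]
    rw [h5, h6]
  · have h7 : g ζ = (φ ^ j) ζ :=
      hj ζ (le_sup_right (a := L₁ ⊔ L₂) (IntermediateField.mem_adjoin_simple_self ℚ ζ))
    rw [h7]
    have hℓm : ¬ ℓ ∣ p ^ m :=
      fun h => hℓp ((Nat.prime_dvd_prime_iff_eq hℓ hp).mp (hℓ.dvd_of_dvd_pow h))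
    have hpow : ∀ j : ℕ, (φ ^ j) ζ = ζ ^ ℓ ^ j := by
      intro j
      induction j with
      | zero => simp
      | succ j ih =>
        have h8 : (φ ^ (j + 1)) ζ = φ ((φ ^ j) ζ) := by rw [pow_succ']; rfl
        rw [h8, ih, map_pow, IsFrobeniusAt.apply_rootOfUnity hℓ hA hℓm hφ hζ, ← pow_mul,
          pow_succ']
    exact hpow j

/-- The weakest geometric input for unipotence of inertia at `q`: for every `n` a Galois module
with Eichler–Shimura relation such that any Hecke operator acting as `τ + τ⁻¹`, for `τ` in the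
inertia group at `q`, is congruent to `2` modulo `p ^ n`. -/
def UnipotentInput (p N : ℕ) [NeZero N] (S : Set ℕ) (q : ℕ) : Prop :=
  ∀ n : ℕ, ∃ (W : Type) (_ : AddCommGroup W)
    (act : CuspForm.heckeAlgebra N 2 S →+* Module.End ℤ W) (r : Γℚ →* Module.End ℤ W) (m : ℕ),
    (∀ w : W, (p ^ m) • w = 0) ∧
    GaloisFactorsThroughFiniteLevel r ∧
    (∀ (ℓ : ℕ) (hℓ : ℓ.Prime) (hℓN : ¬ ℓ ∣ N) (hℓS : ℓ ∉ S), ℓ ≠ p →
      ∀ A : ValuationSubring (AlgebraicClosure ℚ), A.LiesOverPrime ℓ →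
      ∀ φ : Γℚ, A.IsFrobeniusAt φ ℓ → ∀ w : W,
        r φ (r φ w) - act (CuspForm.heckeAlgebra.T hℓ hℓN hℓS) (r φ w) + ℓ • w = 0) ∧
    (∀ A : ValuationSubring (AlgebraicClosure ℚ), A.LiesOverPrime q →
      ∀ τ ∈ A.inertiaSubgroupIn ℚ, ∀ t : CuspForm.heckeAlgebra N 2 S,
        (∀ w, act t w = r τ w + r τ⁻¹ w) → ∃ s, t - 2 = (p ^ n) • s)

/-- `UnipotentInput` from faithful modules on which inertia at `q` acts unipotently. -/
theorem UnipotentInput.of_sq {p N : ℕ} [NeZero N] {S : Set ℕ} {q : ℕ}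
    (h : ∀ n : ℕ, ∃ (W : Type) (_ : AddCommGroup W)
      (act : CuspForm.heckeAlgebra N 2 S →+* Module.End ℤ W) (r : Γℚ →* Module.End ℤ W) (m : ℕ),
      (∀ w : W, (p ^ m) • w = 0) ∧
      GaloisFactorsThroughFiniteLevel r ∧
      (∀ t : CuspForm.heckeAlgebra N 2 S, act t = 0 → ∃ s, t = (p ^ n) • s) ∧
      (∀ (ℓ : ℕ) (hℓ : ℓ.Prime) (hℓN : ¬ ℓ ∣ N) (hℓS : ℓ ∉ S), ℓ ≠ p →
        ∀ A : ValuationSubring (AlgebraicClosure ℚ), A.LiesOverPrime ℓ →
        ∀ φ : Γℚ, A.IsFrobeniusAt φ ℓ → ∀ w : W,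
          r φ (r φ w) - act (CuspForm.heckeAlgebra.T hℓ hℓN hℓS) (r φ w) + ℓ • w = 0) ∧
      (∀ A : ValuationSubring (AlgebraicClosure ℚ), A.LiesOverPrime q →
        ∀ τ ∈ A.inertiaSubgroupIn ℚ, ∀ w : W, r τ (r τ w - w) = r τ w - w)) :
    UnipotentInput p N S q := by
  intro n
  obtain ⟨W, instW, act, r, m, hW, hr, hfaith, hES, huni⟩ := h n
  refine ⟨W, instW, act, r, m, hW, hr, hES, ?_⟩
  intro A hA τ hτ t ht
  apply hfaith
  ext w
  have hinv : r τ (r τ⁻¹ w) = w := by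
    have : r τ * r τ⁻¹ = 1 := by rw [← map_mul, mul_inv_cancel, map_one]
    exact LinearMap.congr_fun this w
  have h1 := huni A hA τ hτ (r τ⁻¹ w)
  rw [hinv, map_sub, hinv] at h1
  have h2 : act (2 : CuspForm.heckeAlgebra N 2 S) w = w + w := by
    have : act 2 = 2 := map_ofNat act 2
    rw [this, ← one_add_one_eq_two]
    rfl
  rw [map_sub, LinearMap.sub_apply, ht, h2, LinearMap.zero_apply]
  have h3 : r τ w + r τ⁻¹ w - (w + w) = (r τ w - w) - (w - r τ⁻¹ w) := by abel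
  rw [h3, h1, sub_self]

/-- **S34 from the geometric input.** -/
theorem isUnipotentOnInertiaAt_of_input (hCheb : WeakChebotarev) {p N : ℕ} [NeZero N]
    {S : Finset ℕ} {𝒪 : Type} [CommRing 𝒪] [IsDomain 𝒪] [IsDiscreteValuationRing 𝒪]
    [IsAdicComplete (IsLocalRing.maximalIdeal 𝒪) 𝒪]
    {θ : CuspForm.heckeAlgebra N 2 (↑S : Set ℕ) →+* IsLocalRing.ResidueField 𝒪}
    {T : Type} [CommRing T] [IsLocalRing T] [IsNoetherianRing T]
    [IsAdicComplete (IsLocalRing.maximalIdeal T) T] [Algebra 𝒪 T] [IsLocalHom (algebraMap 𝒪 T)]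
    [Module.Finite 𝒪 T] [Module.Free 𝒪 T] (hp : p.Prime)
    (hp𝒪 : (p : 𝒪) ∈ IsLocalRing.maximalIdeal 𝒪) (hpS : p ∈ S)
    (hNS : ∀ q : ℕ, q.Prime → q ∣ N → q ∈ S)
    (H : CuspForm.HeckeGaloisRepDatum N (↑S : Set ℕ) 𝒪 θ T)
    (q : ℕ) (hq : q.Prime) (hqp : q ≠ p)
    (hinput : UnipotentInput p N (↑S : Set ℕ) q) :
    H.ρ.IsUnipotentOnInertiaAt q := by
  intro A hA τ hτ
  have hpT : (p : T) ∈ IsLocalRing.maximalIdeal T := by
    have h1 : algebraMap 𝒪 T (p : 𝒪) ∈ IsLocalRing.maximalIdeal T := by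
      rw [IsLocalRing.mem_maximalIdeal] at hp𝒪 ⊢
      exact map_mem_nonunits_iff (algebraMap 𝒪 T) _ |>.mpr hp𝒪
    rwa [map_natCast] at h1
  have key : ∀ n : ℕ, LinearMap.trace T H.ρ.V (H.ρ.ρ τ) - 2 ∈ IsLocalRing.maximalIdeal T ^ n ∧
      LinearMap.det (H.ρ.ρ τ) - 1 ∈ IsLocalRing.maximalIdeal T ^ n := by
    intro n
    obtain ⟨W, instW, act, r, m, hW, hr, hES, huni⟩ := hinput n
    have hprim : ∃ ζ : AlgebraicClosure ℚ, IsPrimitiveRoot ζ (p ^ (m + n)) := by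
      haveI : NeZero ((p ^ (m + n) : ℕ) : AlgebraicClosure ℚ) :=
        ⟨by exact_mod_cast (pow_pos hp.pos (m + n)).ne'⟩
      exact HasEnoughRootsOfUnity.exists_primitiveRoot (AlgebraicClosure ℚ) (p ^ (m + n))
    obtain ⟨ζ, hζ⟩ := hprim
    obtain ⟨s, c, hs1, hs2, hs3, hs4⟩ := exists_hecke_trace_det hCheb hp hpS hNS H.ρ H.π
      H.charpoly_frob act r hr hES n (m + n) ζ hζ.pow_eq_one τ
    have hτζ : τ ζ = ζ := inertia_apply_rootOfUnity hq hA
      (fun h => hqp ((Nat.prime_dvd_prime_iff_eq hq hp).mp (hq.dvd_of_dvd_pow h))) hτ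
      hζ.pow_eq_one
    have hcc : ((p ^ (m + n) : ℕ) : ℤ) ∣ (c : ℤ) - 1 := by
      have h1 : ζ ^ c = ζ := by rw [← hs4, hτζ]
      have hζ0 : ζ ≠ 0 := hζ.ne_zero (pow_pos hp.pos _).ne'
      rw [← hζ.zpow_eq_one_iff_dvd, zpow_sub₀ hζ0, zpow_natCast, zpow_one, h1, div_self hζ0]
    obtain ⟨d, hd⟩ := hcc
    have hs3' : ∀ w, act s w = r τ w + r τ⁻¹ w := by
      intro w
      rw [hs3]
      congr 1
      have : (c : ℤ) • r τ⁻¹ w = r τ⁻¹ w := by
        have h2 : (c : ℤ) = 1 + (p ^ (m + n) : ℕ) * d := by omega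
        rw [h2, add_smul, one_smul, mul_comm, mul_smul, natCast_zsmul, pow_add, mul_comm (p ^ m),
          mul_smul, hW, smul_zero, smul_zero, add_zero]
      rwa [natCast_zsmul] at this
    obtain ⟨t, ht⟩ := huni A hA τ hτ s hs3'
    constructor
    · have h2 : H.π s - 2 ∈ IsLocalRing.maximalIdeal T ^ n := by
        have h3 : H.π s - 2 = H.π (s - 2) := by rw [map_sub, map_ofNat]
        rw [h3, ht, nsmul_eq_mul, map_mul, Nat.cast_pow, map_pow, map_natCast]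
        exact Ideal.mul_mem_right _ _ (Ideal.pow_mem_pow hpT n)
      have h4 : LinearMap.trace T H.ρ.V (H.ρ.ρ τ) - 2 =
          (LinearMap.trace T H.ρ.V (H.ρ.ρ τ) - H.π s) + (H.π s - 2) := by ring
      rw [h4]
      exact add_mem hs1 h2
    · have h2 : (c : T) - 1 ∈ IsLocalRing.maximalIdeal T ^ n := by
        have h3 : ((c : ℤ) - 1 : T) = ((p ^ (m + n) : ℕ) : T) * (d : T) := by
          have := congrArg (Int.cast (R := T)) hd
          push_cast at this ⊢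
          exact this
        have h4 : (c : T) - 1 = ((p ^ (m + n) : ℕ) : T) * (d : T) := by
          rw [← h3]; push_cast; rfl
        rw [h4]
        apply Ideal.mul_mem_right
        rw [Nat.cast_pow]
        exact Ideal.pow_le_pow_right (Nat.le_add_left n m) (Ideal.pow_mem_pow hpT (m + n))
      have h4 : LinearMap.det (H.ρ.ρ τ) - 1 =
          (LinearMap.det (H.ρ.ρ τ) - (c : T)) + ((c : T) - 1) := by ring
      rw [h4]
      exact add_mem hs2 h2
  have htr : LinearMap.trace T H.ρ.V (H.ρ.ρ τ) = 2 := by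
    rw [← sub_eq_zero]
    apply IsHausdorff.haus (inferInstance : IsHausdorff (IsLocalRing.maximalIdeal T) T)
    intro n
    rw [SModEq.zero, smul_eq_mul, Ideal.mul_top]
    exact (key n).1
  have hdet : LinearMap.det (H.ρ.ρ τ) = 1 := by
    rw [← sub_eq_zero]
    apply IsHausdorff.haus (inferInstance : IsHausdorff (IsLocalRing.maximalIdeal T) T)
    intro n
    rw [SModEq.zero, smul_eq_mul, Ideal.mul_top]
    exact (key n).2
  rw [charpoly_eq_trace_det H.ρ.finrank_eq, htr, hdet, map_one]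
  have : (C (2 : T) : T[X]) = 2 := map_ofNat C 2
  rw [this]
  ring

/-- The geometric input for the Frobenius at `q ∥ N` on a `q`-new eigensystem `π`. -/
def NewFrobInput (p N : ℕ) [NeZero N] (S : Set ℕ) (q : ℕ) {T : Type} [CommRing T] [IsLocalRing T]
    (π : CuspForm.heckeAlgebra N 2 S →+* T) : Prop :=
  ∀ n : ℕ, ∃ (W : Type) (_ : AddCommGroup W)
    (act : CuspForm.heckeAlgebra N 2 S →+* Module.End ℤ W) (r : Γℚ →* Module.End ℤ W) (m : ℕ),
    (∀ w : W, (p ^ m) • w = 0) ∧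
    GaloisFactorsThroughFiniteLevel r ∧
    (∀ t : CuspForm.heckeAlgebra N 2 S, act t = 0 → π t ∈ IsLocalRing.maximalIdeal T ^ n) ∧
    (∀ (ℓ : ℕ) (hℓ : ℓ.Prime) (hℓN : ¬ ℓ ∣ N) (hℓS : ℓ ∉ S), ℓ ≠ p →
      ∀ A : ValuationSubring (AlgebraicClosure ℚ), A.LiesOverPrime ℓ →
      ∀ φ : Γℚ, A.IsFrobeniusAt φ ℓ → ∀ w : W,
        r φ (r φ w) - act (CuspForm.heckeAlgebra.T hℓ hℓN hℓS) (r φ w) + ℓ • w = 0) ∧
    (∀ A : ValuationSubring (AlgebraicClosure ℚ), A.LiesOverPrime q →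
      ∀ φ : Γℚ, A.IsFrobeniusAt φ q → ∀ w : W,
        r φ (r φ (r φ (r φ w) - w)) = q ^ 2 • (r φ (r φ w) - w))

/-- **The Frobenius at `q ∥ N` in S35 from the geometric input.** -/
theorem charpoly_frobenius_of_input (hCheb : WeakChebotarev) {p N : ℕ} [NeZero N] (hp : p.Prime)
    {S : Finset ℕ} (hpS : p ∈ S) (hNS : ∀ q : ℕ, q.Prime → q ∣ N → q ∈ S)
    {T : Type} [CommRing T] [IsDomain T] [IsLocalRing T]
    [IsHausdorff (IsLocalRing.maximalIdeal T) T] (hpT : (p : T) ∈ IsLocalRing.maximalIdeal T)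
    (ρ : GaloisRepAdic T)
    (π : CuspForm.heckeAlgebra N 2 (↑S : Set ℕ) →+* T)
    (hfrob : ∀ (ℓ : ℕ) (hℓ : ℓ.Prime) (hℓN : ¬ ℓ ∣ N) (hℓS : ℓ ∉ (↑S : Set ℕ)),
      ∀ A : ValuationSubring (AlgebraicClosure ℚ), A.LiesOverPrime ℓ →
        ∀ σ : Γℚ, A.IsFrobeniusAt σ ℓ → LinearMap.charpoly (ρ.ρ σ) =
          X ^ 2 - C (π (CuspForm.heckeAlgebra.T hℓ hℓN hℓS)) * X + C ((ℓ : T)))
    (q : ℕ) (hq : q.Prime) (hqp : q ≠ p)
    (hinput : NewFrobInput p N (↑S : Set ℕ) q π)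
    (A : ValuationSubring (AlgebraicClosure ℚ)) (hA : A.LiesOverPrime q)
    (φ : Γℚ) (hφ : A.IsFrobeniusAt φ q) :
    LinearMap.charpoly (ρ.ρ φ) = X ^ 2 - C ((q : T) + 1) * X + C ((q : T)) ∨
    LinearMap.charpoly (ρ.ρ φ) = X ^ 2 + C ((q : T) + 1) * X + C ((q : T)) := by
  have key : ∀ n : ℕ,
      LinearMap.trace T ρ.V (ρ.ρ φ) ^ 2 - ((q : T) + 1) ^ 2 ∈ IsLocalRing.maximalIdeal T ^ n ∧
      LinearMap.det (ρ.ρ φ) - (q : T) ∈ IsLocalRing.maximalIdeal T ^ n := by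
    intro n
    obtain ⟨W, instW, act, r, m, hW, hr, hfaith, hES, hnew⟩ := hinput n
    have hprim : ∃ ζ : AlgebraicClosure ℚ, IsPrimitiveRoot ζ (p ^ (m + n)) := by
      haveI : NeZero ((p ^ (m + n) : ℕ) : AlgebraicClosure ℚ) :=
        ⟨by exact_mod_cast (pow_pos hp.pos (m + n)).ne'⟩
      exact HasEnoughRootsOfUnity.exists_primitiveRoot (AlgebraicClosure ℚ) (p ^ (m + n))
    obtain ⟨ζ, hζ⟩ := hprim
    obtain ⟨s, c, hs1, hs2, hs3, hs4⟩ := exists_hecke_trace_det hCheb hp hpS hNS ρ π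
      hfrob act r hr hES n (m + n) ζ hζ.pow_eq_one φ
    have hφζ : φ ζ = ζ ^ q := IsFrobeniusAt.apply_rootOfUnity hq hA
      (fun h => hqp ((Nat.prime_dvd_prime_iff_eq hq hp).mp (hq.dvd_of_dvd_pow h))) hφ
      hζ.pow_eq_one
    have hcc : ((p ^ (m + n) : ℕ) : ℤ) ∣ (c : ℤ) - q := by
      have h1 : ζ ^ c = ζ ^ q := by rw [← hs4, hφζ]
      have hζ0 : ζ ≠ 0 := hζ.ne_zero (pow_pos hp.pos _).ne'
      rw [← hζ.zpow_eq_one_iff_dvd, zpow_sub₀ hζ0, zpow_natCast, zpow_natCast, h1,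
        div_self (pow_ne_zero _ hζ0)]
    obtain ⟨d, hd⟩ := hcc
    have hs3' : ∀ w, act s w = r φ w + q • r φ⁻¹ w := by
      intro w
      rw [hs3]
      congr 1
      have : (c : ℤ) • r φ⁻¹ w = (q : ℤ) • r φ⁻¹ w := by
        have h2 : (c : ℤ) = q + (p ^ (m + n) : ℕ) * d := by omega
        rw [h2, add_smul, mul_comm _ d, mul_smul, natCast_zsmul _ (p ^ (m + n)), pow_add,
          mul_comm (p ^ m), mul_smul, hW, smul_zero, smul_zero, add_zero]
      rwa [natCast_zsmul, natCast_zsmul] at this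
    have hinv : ∀ w, r φ (r φ⁻¹ w) = w := by
      intro w
      have : r φ * r φ⁻¹ = 1 := by rw [← map_mul, mul_inv_cancel, map_one]
      exact LinearMap.congr_fun this w
    have hinv' : ∀ w, r φ⁻¹ (r φ w) = w := by
      intro w
      have : r φ⁻¹ * r φ = 1 := by rw [← map_mul, inv_mul_cancel, map_one]
      exact LinearMap.congr_fun this w
    have hact : act (s ^ 2 - ((q : CuspForm.heckeAlgebra N 2 (↑S : Set ℕ)) + 1) ^ 2) = 0 := by
      ext w
      obtain ⟨w', rfl⟩ : ∃ w', w = r φ (r φ w') := ⟨r φ⁻¹ (r φ⁻¹ w), by rw [hinv, hinv]⟩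
      have hqw : ∀ x : W, act (((q : CuspForm.heckeAlgebra N 2 (↑S : Set ℕ)) + 1) ^ 2) x =
          (q + 1) ^ 2 • x := by
        intro x
        rw [map_pow, map_add, map_natCast, map_one]
        have : ((q : Module.End ℤ W) + 1) ^ 2 = (((q + 1) ^ 2 : ℕ) : Module.End ℤ W) := by
          push_cast; rfl
        rw [this, Module.End.natCast_apply]
      have h1 := hnew A hA φ hφ w'
      rw [map_sub, LinearMap.sub_apply, hqw, map_pow, pow_two, Module.End.mul_apply, hs3', hs3',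
        map_add, map_nsmul, map_add, map_nsmul, hinv', hinv', hinv', LinearMap.zero_apply]
      rw [map_sub, map_sub, smul_sub] at h1
      have h2 : r φ (r φ (r φ (r φ w'))) = r φ (r φ w') + (q ^ 2 • r φ (r φ w') - q ^ 2 • w') := by
        rw [← h1]; abel
      rw [h2, smul_add, smul_smul, ← pow_two]
      have h3 : ((q + 1) ^ 2 : ℕ) = q ^ 2 + 2 * q + 1 := by ring
      rw [h3, add_smul, add_smul, one_smul, mul_smul, two_smul]
      abel
    have h5 := hfaith _ hact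
    rw [map_sub, map_pow, map_pow, map_add, map_natCast, map_one] at h5
    constructor
    · have h6 : LinearMap.trace T ρ.V (ρ.ρ φ) ^ 2 - ((q : T) + 1) ^ 2 =
          (LinearMap.trace T ρ.V (ρ.ρ φ) - π s) * (LinearMap.trace T ρ.V (ρ.ρ φ) + π s) +
            (π s ^ 2 - ((q : T) + 1) ^ 2) := by ring
      rw [h6]
      exact add_mem (Ideal.mul_mem_right _ _ hs1) h5
    · have h2 : (c : T) - q ∈ IsLocalRing.maximalIdeal T ^ n := by
        have h3 : (c : T) - q = ((p ^ (m + n) : ℕ) : T) * (d : T) := by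
          have := congrArg (Int.cast (R := T)) hd
          push_cast at this ⊢
          exact this
        rw [h3]
        apply Ideal.mul_mem_right
        rw [Nat.cast_pow]
        exact Ideal.pow_le_pow_right (Nat.le_add_left n m) (Ideal.pow_mem_pow hpT (m + n))
      have h4 : LinearMap.det (ρ.ρ φ) - q =
          (LinearMap.det (ρ.ρ φ) - (c : T)) + ((c : T) - q) := by ring
      rw [h4]
      exact add_mem hs2 h2
  have htr : LinearMap.trace T ρ.V (ρ.ρ φ) ^ 2 = ((q : T) + 1) ^ 2 := by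
    rw [← sub_eq_zero]
    apply IsHausdorff.haus (inferInstance : IsHausdorff (IsLocalRing.maximalIdeal T) T)
    intro n
    rw [SModEq.zero, smul_eq_mul, Ideal.mul_top]
    exact (key n).1
  have hdet : LinearMap.det (ρ.ρ φ) = (q : T) := by
    rw [← sub_eq_zero]
    apply IsHausdorff.haus (inferInstance : IsHausdorff (IsLocalRing.maximalIdeal T) T)
    intro n
    rw [SModEq.zero, smul_eq_mul, Ideal.mul_top]
    exact (key n).2
  rw [charpoly_eq_trace_det ρ.finrank_eq, hdet]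
  rcases sq_eq_sq_iff_eq_or_eq_neg.mp htr with h | h
  · left; rw [h]
  · right; rw [h, map_neg]; ring

end Fermat.Agent.H05
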