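import Fermat.Agent.H22.Transport
import Fermat.Agent.ES.Final

/-!
# Hecke operators on characters and the involution `diag(-1,1)`; Hecke relations on parabolic
homomorphisms
-/

set_option autoImplicit false
set_option linter.style.haveILetI false
set_option linter.unusedSectionVars false

noncomputable section

namespace Fermat.Agent.H05

open Subgroup MonoidHom

section Transfer

variable {G : Type*} [Group G] {H : Subgroup G} [H.FiniteIndex] {A : Type*} [CommGroup A]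

/-- Compatibility of the transfer with automorphisms preserving the subgroup. -/
theorem transfer_comp_aut (j : G ≃* G) (hj : ∀ h, j h ∈ H ↔ h ∈ H) (jH : H →* H)
    (hjH : ∀ h : H, (jH h : G) = j h) (φ : H →* A) (g : G) :
    transfer (φ.comp jH) g = transfer φ (j g) := by
  classical
  letI : Fintype (G ⧸ H) := H.fintypeQuotientOfFiniteIndex
  -- the induced permutation of the cosets
  let J : G ⧸ H ≃ G ⧸ H := Quotient.congr j.toEquiv (by
    intro a b
    change QuotientGroup.leftRel H a b ↔ QuotientGroup.leftRel H (j a) (j b)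
    rw [QuotientGroup.leftRel_apply, QuotientGroup.leftRel_apply, ← map_inv, ← map_mul, hj])
  have hJ : ∀ x : G, J (x : G ⧸ H) = ((j x : G) : G ⧸ H) := fun x => rfl
  have hJsmul : ∀ (x : G) (q : G ⧸ H), J (x • q) = j x • J q := by
    intro x q
    induction q using QuotientGroup.induction_on with
    | H z =>
      rw [MulAction.Quotient.smul_coe, hJ, hJ, MulAction.Quotient.smul_coe, smul_eq_mul,
        smul_eq_mul, map_mul]
  have hmem : ∀ q : G ⧸ H, (j q.out)⁻¹ * (J q).out ∈ H := by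
    intro q
    apply QuotientGroup.leftRel_apply.mp
    apply Quotient.exact'
    have h1 : J ((q.out : G) : G ⧸ H) = J q := by rw [QuotientGroup.out_eq']
    exact (hJ q.out).symm.trans (h1.trans (QuotientGroup.out_eq' (J q)).symm)
  let h : G ⧸ H → H := fun q => ⟨_, hmem q⟩
  rw [H22.transfer_eq_prod_out _ g (H22.out_mem g), H22.transfer_eq_prod_out φ (j g)
    (H22.out_mem (j g))]
  have h2 : ∏ q : G ⧸ H, φ ⟨(q.out)⁻¹ * j g * ((j g)⁻¹ • q).out, H22.out_mem (j g) q⟩ =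
      ∏ q : G ⧸ H, φ ⟨((J q).out)⁻¹ * j g * ((j g)⁻¹ • (J q)).out, H22.out_mem (j g) (J q)⟩ :=
    (Fintype.prod_equiv J _ _ fun q => rfl).symm
  rw [h2]
  have h3 : ∀ q : G ⧸ H,
      φ ⟨((J q).out)⁻¹ * j g * ((j g)⁻¹ • (J q)).out, H22.out_mem (j g) (J q)⟩ =
      (φ (h q))⁻¹ * φ (jH ⟨(q.out)⁻¹ * g * (g⁻¹ • q).out, H22.out_mem g q⟩) *
        φ (h (g⁻¹ • q)) := by
    intro q
    have h6 : (⟨((J q).out)⁻¹ * j g * ((j g)⁻¹ • (J q)).out, H22.out_mem (j g) (J q)⟩ : H) =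
        (h q)⁻¹ * jH ⟨(q.out)⁻¹ * g * (g⁻¹ • q).out, H22.out_mem g q⟩ * h (g⁻¹ • q) := by
      apply Subtype.ext
      rw [Subgroup.coe_mul, Subgroup.coe_mul, Subgroup.coe_inv, hjH]
      have h4 : (j g)⁻¹ • J q = J (g⁻¹ • q) := by rw [hJsmul, map_inv]
      change ((J q).out)⁻¹ * j g * ((j g)⁻¹ • (J q)).out =
        ((j q.out)⁻¹ * (J q).out)⁻¹ * j ((q.out)⁻¹ * g * (g⁻¹ • q).out) *
          ((j (g⁻¹ • q).out)⁻¹ * (J (g⁻¹ • q)).out)
      rw [h4, map_mul, map_mul, map_inv]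
      group
    rw [h6, map_mul, map_mul, map_inv]
  rw [Finset.prod_congr rfl fun q _ => h3 q, Finset.prod_mul_distrib, Finset.prod_mul_distrib,
    Finset.prod_inv_distrib]
  have h5 : ∏ q : G ⧸ H, φ (h (g⁻¹ • q)) = ∏ q : G ⧸ H, φ (h q) :=
    Fintype.prod_equiv (MulAction.toPerm g⁻¹) _ _ fun q => rfl
  rw [h5]
  change _ = (∏ q, φ (h q))⁻¹ * (∏ q : G ⧸ H, (φ.comp jH) ⟨(q.out)⁻¹ * g * (g⁻¹ • q).out,
    H22.out_mem g q⟩) * ∏ q, φ (h q)
  rw [mul_comm, mul_inv_cancel_left]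

end Transfer

section JConj

open ModularCurve ModularCurve.Period CongruenceSubgroup
open scoped MatrixGroups

variable (N ℓ : ℕ) [NeZero N] [NeZero ℓ]

/-- `diag(-1,1)`-conjugation as an automorphism of `Γ₀(N)`. -/
def jEquiv : Gamma0 N ≃* Gamma0 N :=
  MonoidHom.toMulEquiv (jConjGamma0 N) (jConjGamma0 N)
    (MonoidHom.ext fun γ => jConjGamma0_jConjGamma0 N γ)
    (MonoidHom.ext fun γ => jConjGamma0_jConjGamma0 N γ)

theorem jEquiv_apply (γ : Gamma0 N) : jEquiv N γ = jConjGamma0 N γ := rfl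

theorem jConj_mem_subGamma (γ : Gamma0 N) :
    jConjGamma0 N γ ∈ H22.subGamma N ℓ ↔ γ ∈ H22.subGamma N ℓ := by
  have key : ∀ γ : Gamma0 N, γ ∈ H22.subGamma N ℓ → jConjGamma0 N γ ∈ H22.subGamma N ℓ := by
    intro γ hγ
    rw [H22.subGamma, Subgroup.mem_subgroupOf] at hγ ⊢
    exact jConjSL_mem_Gamma0 hγ
  refine ⟨fun h => ?_, key γ⟩
  have := key _ h
  rwa [jConjGamma0_jConjGamma0] at this

/-- restriction of the involution to the subgroup `Γ₀(Nℓ)`. -/
def jSub : H22.subGamma N ℓ →* H22.subGamma N ℓ :=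
  ((jConjGamma0 N).comp (H22.subGamma N ℓ).subtype).codRestrict (H22.subGamma N ℓ)
    (fun h => (jConj_mem_subGamma N ℓ h).mpr h.2)

theorem coe_jSub (h : H22.subGamma N ℓ) : (jSub N ℓ h : Gamma0 N) = jConjGamma0 N h := rfl

theorem subDegConj_jSub (h : H22.subGamma N ℓ) :
    H22.subDegConj N ℓ (jSub N ℓ h) = jConjGamma0 N (H22.subDegConj N ℓ h) := by
  apply Subtype.ext
  apply Subtype.ext
  change H22.degMat ℓ (jConjMat (((h : Gamma0 N) : SL(2, ℤ)) : Matrix (Fin 2) (Fin 2) ℤ)) =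
    jConjMat (H22.degMat ℓ (((h : Gamma0 N) : SL(2, ℤ)) : Matrix (Fin 2) (Fin 2) ℤ))
  have hdvd : (ℓ : ℤ) ∣ ((h : Gamma0 N) : SL(2, ℤ)) 1 0 := H22.dvd_of_mem (N := N) (ℓ := ℓ) h.2
  obtain ⟨c, hc⟩ := hdvd
  have hℓ : (ℓ : ℤ) ≠ 0 := by exact_mod_cast NeZero.ne ℓ
  ext i j
  fin_cases i <;> fin_cases j
  · simp [H22.degMat, jConjMat]
  · simp [H22.degMat, jConjMat]
  · simp only [H22.degMat, jConjMat, Fin.mk_one, Fin.zero_eta, Matrix.of_apply, Matrix.cons_val',
      Matrix.cons_val_zero, Matrix.cons_val_one, Matrix.cons_val_fin_one, Fin.isValue]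
    rw [hc, Int.mul_ediv_cancel_left _ hℓ, ← mul_neg, Int.mul_ediv_cancel_left _ hℓ]
  · simp [H22.degMat, jConjMat]

variable {A : Type*} [CommGroup A]

theorem heckeChar_jConj (ψ : Gamma0 N →* A) :
    H22.heckeChar N ℓ (ψ.comp (jConjGamma0 N)) = (H22.heckeChar N ℓ ψ).comp (jConjGamma0 N) := by
  refine MonoidHom.ext fun g => ?_
  have h1 := transfer_comp_aut (jEquiv N) (jConj_mem_subGamma N ℓ) (jSub N ℓ)
    (fun h => coe_jSub N ℓ h) (ψ.comp (H22.subDegConj N ℓ)) g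
  have h2 : (ψ.comp (jConjGamma0 N)).comp (H22.subDegConj N ℓ) =
      (ψ.comp (H22.subDegConj N ℓ)).comp (jSub N ℓ) := by
    refine MonoidHom.ext fun h => ?_
    change ψ (jConjGamma0 N (H22.subDegConj N ℓ h)) = ψ (H22.subDegConj N ℓ (jSub N ℓ h))
    rw [subDegConj_jSub]
  rw [H22.heckeChar, h2, h1]
  rfl

end JConj

section Additive

open ModularCurve ModularCurve.Period CongruenceSubgroup
open scoped MatrixGroups

variable (R : Type*) [CommRing R] (N : ℕ) [NeZero N] (A : Type*) [AddCommGroup A] [Module R A]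

theorem heckeOpL_charInvolution (ℓ : Nat.Primes) (ψ : Additive (Gamma0 N) →+ A) :
    H22.heckeOpL R N A ℓ (charInvolution N R A ψ) =
      charInvolution N R A (H22.heckeOpL R N A ℓ ψ) := by
  haveI : NeZero (ℓ : ℕ) := ⟨ℓ.2.ne_zero⟩
  exact congrArg MonoidHom.toAdditiveLeft (heckeChar_jConj N ℓ ψ.toMultiplicativeRight)

theorem heckeAct_charInvolution (t : HeckeAlg) (ψ : Additive (Gamma0 N) →+ A) :
    H22.heckeAct R N A t (charInvolution N R A ψ) =
      charInvolution N R A (H22.heckeAct R N A t ψ) := by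
  refine (H22.evalComm_intertwine (H22.heckeAct R N A) (H22.heckeAct R N A)
    (charInvolution N R A).toAddMonoidHom (fun ℓ ψ => ?_) t ψ).symm
  have h1 := H22.heckeAct_heckeGen R N A ℓ
  unfold heckeGen at h1
  rw [h1]
  exact (heckeOpL_charInvolution R N A ℓ ψ).symm

theorem wConj_jConj (γ : Gamma0 N) :
    H22.wConj N (jConjGamma0 N γ) = jConjGamma0 N (H22.wConj N γ) := by
  have hN : (N : ℤ) ≠ 0 := by exact_mod_cast NeZero.ne N
  obtain ⟨c, hc⟩ := H22.mem_Gamma0_iff_dvd.mp γ.2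
  apply Subtype.ext
  apply Subtype.ext
  change H22.wMat N (jConjMat ((γ : SL(2, ℤ)) : Matrix (Fin 2) (Fin 2) ℤ)) =
    jConjMat (H22.wMat N ((γ : SL(2, ℤ)) : Matrix (Fin 2) (Fin 2) ℤ))
  ext i j
  fin_cases i <;> fin_cases j
  · simp [H22.wMat, jConjMat]
  · simp only [H22.wMat, jConjMat, Fin.mk_one, Fin.zero_eta, Matrix.of_apply, Matrix.cons_val',
      Matrix.cons_val_zero, Matrix.cons_val_one, Matrix.cons_val_fin_one, Fin.isValue]
    rw [hc, Int.mul_ediv_cancel_left _ hN, ← mul_neg, Int.mul_ediv_cancel_left _ hN]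
  · simp [H22.wMat, jConjMat]
  · simp [H22.wMat, jConjMat]

theorem wLin_charInvolution (ψ : Additive (Gamma0 N) →+ A) :
    H22.wLin R N A (charInvolution N R A ψ) = charInvolution N R A (H22.wLin R N A ψ) := by
  refine AddMonoidHom.ext fun γ => ?_
  change ψ (Additive.ofMul (jConjGamma0 N (H22.wConj N γ.toMul))) =
    ψ (Additive.ofMul (H22.wConj N (jConjGamma0 N γ.toMul)))
  rw [wConj_jConj]

theorem wLin_mem_parabolicHoms {ψ : Additive (Gamma0 N) →+ A}
    (hψ : ψ ∈ parabolicHoms R (Gamma0 N) A) :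
    H22.wLin R N A ψ ∈ parabolicHoms R (Gamma0 N) A := by
  intro γ hγ
  rw [H22.wLin_apply]
  apply hψ
  have h := H22.tr2_wConj γ
  unfold H22.tr2 at h
  rw [h]
  exact hγ

variable {N}

/-- Every relation between the Hecke operators on `S₂(Γ₀(N))` holds on the parabolic
homomorphisms. -/
theorem heckeAct_eq_zero_complex (t : HeckeAlg) (ht : CuspForm.heckeEvalForms N 2 t = 0)
    {ψ : Additive (Gamma0 N) →+ ℂ} (hψ : ψ ∈ parabolicHoms ℂ (Gamma0 N) ℂ) :
    H22.heckeAct ℂ N ℂ t ψ = 0 := by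
  have h1 := wLin_mem_parabolicHoms ℂ N ℂ hψ
  rw [← (ES.eichlerShimura N).2] at h1
  obtain ⟨⟨f, g⟩, hfg⟩ := h1
  obtain ⟨pml, hpml, hdef⟩ := ModularCurve.periodHomPair_def N H16.existsPeriodMapLinear
  rw [hdef] at hfg
  simp only [LinearMap.coprod_apply, LinearMap.comp_apply, LinearMap.add_apply,
    LinearMap.sub_apply, LinearMap.id_apply, hpml] at hfg
  have h2 := congrArg (H22.wLin ℂ N ℂ) hfg
  rw [H22.wLin_wLin, map_add, map_add, map_sub, wLin_charInvolution, wLin_charInvolution,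
    ← H22.esMap_apply, ← H22.esMap_apply] at h2
  have h3 : ∀ f : CuspForm (Gamma0 N) 2, H22.heckeAct ℂ N ℂ t (H22.esMap N f) = 0 := by
    intro f
    rw [← H22.esMap_hecke, ht]
    exact map_zero _
  rw [← h2, map_add, map_add, map_sub, heckeAct_charInvolution, heckeAct_charInvolution, h3, h3,
    map_zero]
  simp

theorem heckeAct_eq_zero_int (t : HeckeAlg) (ht : CuspForm.heckeEvalForms N 2 t = 0)
    {ψ : Additive (Gamma0 N) →+ ℤ} (hψ : ψ ∈ parabolicHoms ℤ (Gamma0 N) ℤ) :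
    H22.heckeAct ℤ N ℤ t ψ = 0 := by
  have h1 : (Int.castAddHom ℂ).comp ψ ∈ parabolicHoms ℂ (Gamma0 N) ℂ := by
    intro γ hγ
    have := hψ γ hγ
    change ((ψ (Additive.ofMul γ) : ℤ) : ℂ) = 0
    rw [this, Int.cast_zero]
  have h2 := heckeAct_eq_zero_complex t ht h1
  rw [H22.heckeAct_map (R := ℤ) (R' := ℂ)] at h2
  refine AddMonoidHom.ext fun γ => ?_
  have h3 := DFunLike.congr_fun h2 γ
  have h4 : ((H22.heckeAct ℤ N ℤ t ψ γ : ℤ) : ℂ) = 0 := h3
  exact_mod_cast h4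

end Additive

end Fermat.Agent.H05
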