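import Fermat.Agent.H05.HeckeInputs
import Fermat.Prelude.Def_ModularCurve_HeckeModule

/-!
# Galois equivariance of the Hecke correspondences
-/

set_option autoImplicit false
set_option linter.style.haveILetI false
set_option linter.unusedSectionVars false
set_option maxSynthPendingDepth 3

noncomputable section

open AlgebraicCurve ModularCurve

open scoped Pointwise

namespace Fermat.Agent.H05

section Generic

variable {K F F' : Type*} [Field K] [Field F] [Field F'] [Algebra K F] [Algebra K F']

theorem restrictAlong_smul (φ : F →ₐ[K] F') (hφ : φ.toRingHom.IsIntegral)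
    {g : SemilinearAut K F} {g' : SemilinearAut K F'}
    (h : SemilinearAut.IntertwinesAlong φ.toRingHom g g') (w : Place K F') :
    (g' • w).restrictAlong φ hφ = g • (w.restrictAlong φ hφ) := by
  have hinv := h.inv
  apply Place.ext
  ext x
  change φ x ∈ g' • w.toValuationSubring ↔ x ∈ g • (w.restrictAlong φ hφ).toValuationSubring
  rw [ValuationSubring.mem_pointwise_smul_iff_inv_smul_mem,
    ValuationSubring.mem_pointwise_smul_iff_inv_smul_mem]
  have := hinv x
  change g'⁻¹ • (φ x) = φ (g⁻¹ • x) at this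
  rw [this]
  rfl

theorem ramificationIndexAlong_smul (φ : F →ₐ[K] F') (hφ : φ.toRingHom.IsIntegral)
    {g : SemilinearAut K F} {g' : SemilinearAut K F'}
    (h : SemilinearAut.IntertwinesAlong φ.toRingHom g g') (w : Place K F') :
    Place.ramificationIndexAlong φ (g' • w) = Place.ramificationIndexAlong φ w := by
  obtain ⟨t, ht0, ht⟩ := H18.exists_ord_eq_one (w.restrictAlong φ hφ)
  have h1 := Place.ord_restrictAlong φ hφ w t
  have h2 := Place.ord_restrictAlong φ hφ (g' • w) (g • t)
  rw [restrictAlong_smul φ hφ h, SemilinearAut.ord_smul, ht] at h2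
  have h3 : g' • (φ t) = φ (g • t) := h t
  rw [← h3, SemilinearAut.ord_smul, h1, ht] at h2
  omega

theorem inertiaDegAlong_eq_one [hd : ∀ w : Place K F', Fact (w.deg = 1)] (φ : F →ₐ[K] F')
    (hφ : φ.toRingHom.IsIntegral) (w : Place K F') : Place.inertiaDegAlong φ hφ w = 1 := by
  letI := algebraAlong φ
  haveI := isScalarTower_along φ
  haveI := isIntegral_along φ hφ
  have h := w.deg_restrict_mul_inertiaDeg (F := F)
  rw [(hd w).out] at h
  exact Nat.eq_one_of_mul_eq_one_left h

theorem inertiaDegAlong_smul (φ : F →ₐ[K] F') (hφ : φ.toRingHom.IsIntegral)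
    {g : SemilinearAut K F} {g' : SemilinearAut K F'}
    (h : SemilinearAut.IntertwinesAlong φ.toRingHom g g') (w : Place K F') (hw : w.deg ≠ 0) :
    Place.inertiaDegAlong φ hφ (g' • w) = Place.inertiaDegAlong φ hφ w := by
  have key : ∀ v : Place K F',
      (v.restrictAlong φ hφ).deg * Place.inertiaDegAlong φ hφ v = v.deg := by
    intro v
    letI := algebraAlong φ
    haveI := isScalarTower_along φ
    haveI := isIntegral_along φ hφ
    exact v.deg_restrict_mul_inertiaDeg (F := F)
  have h1 := key w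
  have h2 := key (g' • w)
  rw [restrictAlong_smul φ hφ h, SemilinearAut.deg_smul, SemilinearAut.deg_smul, ← h1] at h2
  refine Nat.eq_of_mul_eq_mul_left ?_ h2
  refine Nat.pos_of_ne_zero fun h0 => hw ?_
  rw [← h1, h0, zero_mul]

theorem pullbackAlong_smul [HasPrincipalDivisors K F'] (φ : F →ₐ[K] F')
    (hφ : φ.toRingHom.IsIntegral)
    {g : SemilinearAut K F} {g' : SemilinearAut K F'}
    (h : SemilinearAut.IntertwinesAlong φ.toRingHom g g') (D : Divisor K F) :
    Divisor.pullbackAlong φ hφ (g • D) = g' • Divisor.pullbackAlong φ hφ D := by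
  ext w
  rw [SemilinearAut.divisor_smul_apply, Divisor.pullbackAlong_apply, Divisor.pullbackAlong_apply,
    SemilinearAut.divisor_smul_apply, ramificationIndexAlong_smul φ hφ h.inv,
    restrictAlong_smul φ hφ h.inv]

theorem pushforwardAlong_smul (φ : F →ₐ[K] F')
    (hφ : φ.toRingHom.IsIntegral)
    {g : SemilinearAut K F} {g' : SemilinearAut K F'}
    (h : SemilinearAut.IntertwinesAlong φ.toRingHom g g')
    (hd : ∀ w : Place K F', w.deg ≠ 0) (D : Divisor K F') :
    Divisor.pushforwardAlong φ hφ (g' • D) = g • Divisor.pushforwardAlong φ hφ D := by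
  induction D using Finsupp.induction with
  | zero => simp
  | single_add w n D hw hn ih =>
    rw [smul_add, map_add, map_add, smul_add, ih, SemilinearAut.smul_single,
      Divisor.pushforwardAlong_single, Divisor.pushforwardAlong_single,
      SemilinearAut.smul_single, restrictAlong_smul φ hφ h, inertiaDegAlong_smul φ hφ h w (hd w)]

theorem divisorCorrespondence_smul [HasPrincipalDivisors K F'] (φ ψ : F →ₐ[K] F')
    (hφ : φ.toRingHom.IsIntegral) (hψ : ψ.toRingHom.IsIntegral)
    {g : SemilinearAut K F} {g' : SemilinearAut K F'}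
    (h : SemilinearAut.IntertwinesAlong φ.toRingHom g g')
    (h' : SemilinearAut.IntertwinesAlong ψ.toRingHom g g')
    (hd : ∀ w : Place K F', w.deg ≠ 0) (D : Divisor K F) :
    Divisor.correspondence φ ψ hφ hψ (g • D) = g • Divisor.correspondence φ ψ hφ hψ D := by
  rw [Divisor.correspondence_apply, Divisor.correspondence_apply, pullbackAlong_smul φ hφ h,
    pushforwardAlong_smul ψ hψ h' hd]

theorem correspondence_smul [HasPrincipalDivisors K F'] (φ ψ : F →ₐ[K] F')
    (hφ : φ.toRingHom.IsIntegral) (hψ : ψ.toRingHom.IsIntegral)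
    (hFI : FundamentalIdentityAlong K φ hφ) (hfin : FiniteAlong K ψ)
    (hN : NormFormulaAlong K ψ hfin)
    {g : SemilinearAut K F} {g' : SemilinearAut K F'}
    (h : SemilinearAut.IntertwinesAlong φ.toRingHom g g')
    (h' : SemilinearAut.IntertwinesAlong ψ.toRingHom g g')
    (hd : ∀ w : Place K F', w.deg ≠ 0) (x : Pic0 K F) :
    Pic0.correspondence φ ψ hφ hψ hFI hfin hN (g • x) =
      g • Pic0.correspondence φ ψ hφ hψ hFI hfin hN x := by
  obtain ⟨D, rfl⟩ := Pic0.mk_surjective x
  rw [SemilinearAut.pic0_smul_mk, Pic0.correspondence_mk, Pic0.correspondence_mk,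
    SemilinearAut.pic0_smul_mk]
  congr 1
  apply Subtype.ext
  rw [Pic0.coe_degZeroCorrespondence, SemilinearAut.coe_degZeroSMulHom,
    SemilinearAut.coe_degZeroSMulHom, Pic0.coe_degZeroCorrespondence]
  exact divisorCorrespondence_smul φ ψ hφ hψ h h' hd _

end Generic

section Modular

variable (L : Type*) [Field L] [Algebra ℚ L]

theorem coeffMap_qExpand_comm {R S : Type*} [CommRing R] [CommRing S] (f : R →+* S) (n : ℕ)
    [NeZero n] (x : LaurentSeries R) : coeffMap f (qExpand R n x) = qExpand S n (coeffMap f x) := by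
  ext k
  by_cases hk : (n : ℤ) ∣ k
  · obtain ⟨m, rfl⟩ := hk
    rw [coeffMap_coeff, qExpand_coeff_mul, qExpand_coeff_mul, coeffMap_coeff]
  · rw [coeffMap_coeff, qExpand_coeff_of_not_dvd n _ hk, qExpand_coeff_of_not_dvd n _ hk,
      map_zero]

theorem intertwines_alpha (N ℓ : ℕ) [NeZero N] [NeZero ℓ] (σ : L ≃ₐ[ℚ] L) :
    SemilinearAut.IntertwinesAlong (heckeAlphaBar L N ℓ).toRingHom
      (arithmeticGalois (modularFunctionFieldFull N) σ)
      (arithmeticGalois (modularFunctionFieldFull (N * ℓ)) σ) := by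
  intro x
  apply Subtype.ext
  change coeffMap (σ : L →+* L) ((heckeAlphaBar L N ℓ x : _) : LaurentSeries L) =
    ((heckeAlphaBar L N ℓ (arithmeticGalois (modularFunctionFieldFull N) σ • x) : _) :
      LaurentSeries L)
  rw [coe_heckeAlphaBar, coe_heckeAlphaBar, coe_arithmeticGalois_smul]

theorem intertwines_beta (N ℓ : ℕ) [NeZero N] [NeZero ℓ] (σ : L ≃ₐ[ℚ] L) :
    SemilinearAut.IntertwinesAlong (heckeBetaBar L N ℓ).toRingHom
      (arithmeticGalois (modularFunctionFieldFull N) σ)
      (arithmeticGalois (modularFunctionFieldFull (N * ℓ)) σ) := by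
  intro x
  apply Subtype.ext
  change coeffMap (σ : L →+* L) ((heckeBetaBar L N ℓ x : _) : LaurentSeries L) =
    ((heckeBetaBar L N ℓ (arithmeticGalois (modularFunctionFieldFull N) σ • x) : _) :
      LaurentSeries L)
  rw [coe_heckeBetaBar, coe_heckeBetaBar, coe_arithmeticGalois_smul, coeffMap_qExpand_comm]

variable [IsAlgClosed L]

/-- Galois equivariance of the Hecke operators on `J₀(N)`. -/
theorem heckeOperatorAlong_smul (N ℓ : ℕ) [NeZero N] [NeZero ℓ] (σ : L ≃ₐ[ℚ] L)
    (x : Pic0 L (laurentBaseChange L (modularFunctionFieldFull N))) :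
    heckeOperatorAlong L N ℓ (σ • x) = σ • heckeOperatorAlong L N ℓ x := by
  haveI : CharZero L := charZero_of_injective_algebraMap (algebraMap ℚ L).injective
  obtain ⟨hα, hβ, hP, hfin, hFI, hN⟩ := heckeInputsAlong L N ℓ
  rw [heckeOperatorAlong_eq hα hβ hFI hfin hN, galois_smul_pic0_def, galois_smul_pic0_def]
  exact correspondence_smul (heckeBetaBar L N ℓ) (heckeAlphaBar L N ℓ) hβ hα hFI hfin hN
    (intertwines_beta L N ℓ σ) (intertwines_alpha L N ℓ σ)
    (fun w => by rw [deg_eq_one_bc]; exact one_ne_zero) x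

end Modular

section Module

variable (N : ℕ) [NeZero N]

theorem heckeOperatorBar_smul (ℓ : Nat.Primes)
    (σ : AlgebraicClosure ℚ ≃ₐ[ℚ] AlgebraicClosure ℚ) (x : JZero N) :
    heckeOperatorBar N ℓ (σ • x) = σ • heckeOperatorBar N ℓ x := by
  haveI : NeZero (ℓ : ℕ) := ⟨ℓ.2.ne_zero⟩
  rw [heckeOperatorBar_apply, heckeOperatorBar_apply]
  exact heckeOperatorAlong_smul (AlgebraicClosure ℚ) N ℓ σ x

/-- The Galois action on `J₀(N)` commutes with the action of the abstract Hecke algebra. -/
theorem smulCommClass_heckeModuleBar :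
    letI := heckeModuleBar N
    SMulCommClass (AlgebraicClosure ℚ ≃ₐ[ℚ] AlgebraicClosure ℚ) HeckeAlg (JZero N) := by
  letI := heckeModuleBar N
  refine ⟨fun σ t x => ?_⟩
  by_cases hc : HeckeOperatorsCommuteBar N
  · rw [heckeModuleBar_smul_def hc, heckeModuleBar_smul_def hc]
    induction t using MvPolynomial.induction_on generalizing x with
    | C a =>
      rw [heckeEvalBar_C, Module.End.intCast_apply, Module.End.intCast_apply]
      exact (map_zsmul (DistribSMul.toAddMonoidHom (JZero N) σ) a x)
    | add p q hp hq =>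
      rw [map_add, LinearMap.add_apply, LinearMap.add_apply, smul_add, hp, hq]
    | mul_X p ℓ hp =>
      rw [map_mul, Module.End.mul_apply, Module.End.mul_apply, hp]
      congr 1
      have h1 : (MvPolynomial.X ℓ : HeckeAlg) = heckeGen ℓ := rfl
      rw [h1, heckeEvalBar_heckeGen]
      exact (heckeOperatorBar_smul N ℓ σ x).symm
  · rw [heckeModuleBar_smul_of_not hc, heckeModuleBar_smul_of_not hc]
    exact (map_zsmul (DistribSMul.toAddMonoidHom (JZero N) σ) _ x)

end Module

end Fermat.Agent.H05
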