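import Fermat.Agent.H18_Places
import Fermat.Prelude.Def_AlgebraicCurve_Correspondence
import Mathlib.FieldTheory.IsAlgClosed.Basic

/-!
# The dictionary between `m`-torsion of `Pic0` and functions whose divisor is divisible by `m`
-/

set_option autoImplicit false
set_option linter.style.haveILetI false
set_option linter.unusedSectionVars false

noncomputable section

open AlgebraicCurve IsLocalRing

namespace Fermat.Agent.H05

section Basic

variable {K F : Type*} [Field K] [Field F] [Algebra K F]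

/-- `Kum m x f` : the class `x` is represented by a divisor `D` with `m D = div f`. -/
def Kum (m : ℕ) (x : Pic0 K F) (f : F) : Prop :=
  f ≠ 0 ∧ ∃ D : Divisor.degZero (K := K) (F := F), Pic0.mk D = x ∧
    ∀ v : Place K F, (m : ℤ) * (D : Divisor K F) v = v.ord f

theorem pic0_mk_eq_zero_iff (D : Divisor.degZero (K := K) (F := F)) :
    Pic0.mk D = 0 ↔ (D : Divisor K F).IsPrincipal := by
  rw [Pic0.mk, QuotientAddGroup.eq_zero_iff, AddSubgroup.mem_addSubgroupOf]
  rfl

theorem pic0_mk_nsmul (n : ℕ) (D : Divisor.degZero (K := K) (F := F)) :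
    Pic0.mk (n • D) = n • Pic0.mk D := rfl

theorem pic0_mk_neg (D : Divisor.degZero (K := K) (F := F)) :
    Pic0.mk (-D) = -Pic0.mk D := rfl

variable {m : ℕ} {x y : Pic0 K F} {f g : F}

theorem Kum.ne_zero (h : Kum m x f) : f ≠ 0 := h.1

theorem Kum.dvd (h : Kum m x f) (v : Place K F) : (m : ℤ) ∣ v.ord f := by
  obtain ⟨_, D, _, hD⟩ := h
  exact ⟨_, (hD v).symm⟩

theorem Kum.nsmul_eq_zero (h : Kum m x f) : m • x = 0 := by
  obtain ⟨hf, D, rfl, hD⟩ := h
  rw [← pic0_mk_nsmul, pic0_mk_eq_zero_iff]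
  refine ⟨f, hf, fun v => ?_⟩
  rw [← hD]
  simp

theorem exists_kum (h : m • x = 0) : ∃ f, Kum m x f := by
  obtain ⟨D, rfl⟩ := Pic0.mk_surjective x
  rw [← pic0_mk_nsmul, pic0_mk_eq_zero_iff] at h
  obtain ⟨f, hf, hD⟩ := h
  refine ⟨f, hf, D, rfl, fun v => ?_⟩
  rw [← hD]
  simp

theorem Kum.mul (hx : Kum m x f) (hy : Kum m y g) : Kum m (x + y) (f * g) := by
  obtain ⟨hf, D, rfl, hD⟩ := hx
  obtain ⟨hg, E, rfl, hE⟩ := hy
  refine ⟨mul_ne_zero hf hg, D + E, Pic0.mk_add D E, fun v => ?_⟩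
  rw [v.ord_mul hf hg, ← hD, ← hE]
  change (m : ℤ) * ((D : Divisor K F) v + (E : Divisor K F) v) = _
  ring

theorem Kum.inv (hx : Kum m x f) : Kum m (-x) f⁻¹ := by
  obtain ⟨hf, D, rfl, hD⟩ := hx
  refine ⟨inv_ne_zero hf, -D, rfl, fun v => ?_⟩
  rw [v.ord_inv, ← hD]
  change (m : ℤ) * (-(D : Divisor K F) v) = _
  ring

theorem Kum.pow_right (hx : Kum m x f) (k : ℕ) : Kum (m * k) x (f ^ k) := by
  obtain ⟨hf, D, rfl, hD⟩ := hx
  refine ⟨pow_ne_zero k hf, D, rfl, fun v => ?_⟩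
  rw [H18.ord_pow, ← hD]
  push_cast
  ring

theorem Kum.of_mul {k : ℕ} (hx : Kum (m * k) x f) : Kum m (k • x) f := by
  obtain ⟨hf, D, rfl, hD⟩ := hx
  refine ⟨hf, k • D, rfl, fun v => ?_⟩
  rw [← hD]
  change (m : ℤ) * (k • (D : Divisor K F) v) = _
  rw [nsmul_eq_mul]
  push_cast
  ring

theorem kum_zero_algebraMap (m : ℕ) {c : K} (hc : c ≠ 0) : Kum m (0 : Pic0 K F) (algebraMap K F c) := by
  refine ⟨by simpa using hc, 0, Pic0.mk_zero, fun v => ?_⟩
  rw [H18.ord_algebraMap]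
  simp

theorem kum_zero_one (m : ℕ) : Kum m (0 : Pic0 K F) 1 := by
  refine ⟨one_ne_zero, 0, Pic0.mk_zero, fun v => ?_⟩
  rw [v.ord_one]
  simp

theorem kum_zero_pow [HasPrincipalDivisors K F] (m : ℕ) (hg : g ≠ 0) :
    Kum m (0 : Pic0 K F) (g ^ m) := by
  obtain ⟨D, hD, hdeg⟩ := HasPrincipalDivisors.exists_divisor (K := K) g hg
  refine ⟨pow_ne_zero m hg, ⟨D, Divisor.mem_degZero.mpr hdeg⟩, ?_, fun v => ?_⟩
  · rw [pic0_mk_eq_zero_iff]
    exact ⟨g, hg, hD⟩
  · rw [H18.ord_pow]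
    change (m : ℤ) * D v = _
    rw [hD]

theorem Kum.mul_pow' [HasPrincipalDivisors K F] (hx : Kum m x f) (hg : g ≠ 0) :
    Kum m x (f * g ^ m) := by
  have := hx.mul (kum_zero_pow (K := K) m hg)
  rwa [add_zero] at this

theorem Kum.unique_left (hm : m ≠ 0) (hx : Kum m x f) (hy : Kum m y f) : x = y := by
  obtain ⟨hf, D, rfl, hD⟩ := hx
  obtain ⟨_, E, rfl, hE⟩ := hy
  congr 1
  apply Subtype.ext
  ext v
  have h := (hD v).trans (hE v).symm
  exact mul_left_cancel₀ (by exact_mod_cast hm) h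

theorem exists_kum_of_dvd [HasPrincipalDivisors K F] (hm : m ≠ 0) (hf : f ≠ 0)
    (h : ∀ v : Place K F, (m : ℤ) ∣ v.ord f) : ∃ x : Pic0 K F, Kum m x f := by
  classical
  obtain ⟨D, hD, hdeg⟩ := HasPrincipalDivisors.exists_divisor (K := K) f hf
  have hm' : (m : ℤ) ≠ 0 := by exact_mod_cast hm
  let E : Divisor K F := D.mapRange (fun n : ℤ => n / m) (by simp)
  have hE : ∀ v, (m : ℤ) * E v = v.ord f := by
    intro v
    rw [Finsupp.mapRange_apply, hD]
    exact Int.mul_ediv_cancel' (h v)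
  have hED : m • E = D := by
    ext v
    rw [Finsupp.smul_apply, hD, ← hE]
    simp
  have hEdeg : Divisor.degree E = 0 := by
    have h1 : m • Divisor.degree E = 0 := by rw [← map_nsmul, hED, hdeg]
    rw [nsmul_eq_mul] at h1
    exact (mul_eq_zero.mp h1).resolve_left hm'
  exact ⟨Pic0.mk ⟨E, Divisor.mem_degZero.mpr hEdeg⟩, hf, ⟨E, Divisor.mem_degZero.mpr hEdeg⟩, rfl, hE⟩

/-- A function without zeros and poles is constant. -/
theorem exists_eq_algebraMap_of_ord_eq_zero [HasPrincipalDivisors K F] {v₀ : Place K F}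
    (hv₀ : v₀.deg = 1) (_hf : f ≠ 0) (h : ∀ v : Place K F, v.ord f = 0) :
    ∃ c : K, f = algebraMap K F c := by
  classical
  have hmem : f ∈ v₀.toValuationSubring := H18.mem_of_ord_nonneg v₀ (h v₀).ge
  have hsurj : Function.Surjective (algebraMap K v₀.ResidueField) := by
    have h1 : Module.finrank K v₀.ResidueField = 1 := hv₀
    intro y
    have h2 := (finrank_eq_one_iff_of_nonzero' (1 : v₀.ResidueField) one_ne_zero).mp h1 y
    obtain ⟨c, hc⟩ := h2
    exact ⟨c, by rw [Algebra.algebraMap_eq_smul_one]; exact hc⟩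
  obtain ⟨c, hc⟩ := hsurj (residue _ ⟨f, hmem⟩)
  refine ⟨c, ?_⟩
  by_contra hne
  have hne' : f - algebraMap K F c ≠ 0 := sub_ne_zero.mpr hne
  have hpos : 0 < v₀.ord (f - algebraMap K F c) := by
    have h1 : residue v₀.toValuationSubring
        (⟨f, hmem⟩ - algebraMap K v₀.toValuationSubring c) = 0 := by
      rw [map_sub, sub_eq_zero, ← hc]
      rfl
    rw [residue_eq_zero_iff, mem_maximalIdeal, mem_nonunits_iff] at h1
    have h2 : 0 ≤ v₀.ord (f - algebraMap K F c) :=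
      H18.ord_nonneg_of_mem v₀ (sub_mem hmem (v₀.algebraMap_mem' c))
    rcases h2.lt_or_eq with h3 | h3
    · exact h3
    · exfalso
      apply h1
      rw [← v₀.adicValuation_coe_eq_one_iff]
      have h4 : ((⟨f, hmem⟩ - algebraMap K v₀.toValuationSubring c : v₀.toValuationSubring) : F) =
          f - algebraMap K F c := rfl
      rw [h4, v₀.adicValuation_eq_exp_neg_ord hne', ← h3]
      simp
  obtain ⟨D, hD, hdeg⟩ := HasPrincipalDivisors.exists_divisor (K := K) _ hne'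
  have hnonneg : ∀ v : Place K F, 0 ≤ v.ord (f - algebraMap K F c) := by
    intro v
    refine H18.ord_nonneg_of_mem v (sub_mem ?_ (v.algebraMap_mem' c))
    exact H18.mem_of_ord_nonneg v (h v).ge
  have hsum : Divisor.degree D = ∑ v ∈ D.support, D v * v.deg := by
    rw [Divisor.degree, Finsupp.liftAddHom_apply, Finsupp.sum]
    rfl
  rw [hsum] at hdeg
  have hz := (Finset.sum_eq_zero_iff_of_nonneg (fun v _ => by
    rw [hD]
    exact mul_nonneg (hnonneg v) (by positivity))).mp hdeg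
  have hv₀mem : v₀ ∈ D.support := by
    rw [Finsupp.mem_support_iff, hD]
    exact hpos.ne'
  have := hz v₀ hv₀mem
  rw [hv₀, hD] at this
  simp at this
  omega

theorem Kum.exists_of_zero [HasPrincipalDivisors K F] {v₀ : Place K F} (hv₀ : v₀.deg = 1)
    (h : Kum m (0 : Pic0 K F) f) : ∃ (c : K) (g : F), c ≠ 0 ∧ g ≠ 0 ∧ f = algebraMap K F c * g ^ m := by
  obtain ⟨hf, D, hD0, hD⟩ := h
  rw [pic0_mk_eq_zero_iff] at hD0
  obtain ⟨g, hg, hDg⟩ := hD0
  have h1 : ∀ v : Place K F, v.ord (f * (g ^ m)⁻¹) = 0 := by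
    intro v
    rw [v.ord_mul hf (inv_ne_zero (pow_ne_zero m hg)), v.ord_inv, H18.ord_pow, ← hD, hDg]
    ring
  obtain ⟨c, hc⟩ := exists_eq_algebraMap_of_ord_eq_zero hv₀
    (mul_ne_zero hf (inv_ne_zero (pow_ne_zero m hg))) h1
  refine ⟨c, g, ?_, hg, ?_⟩
  · rintro rfl
    rw [map_zero] at hc
    exact mul_ne_zero hf (inv_ne_zero (pow_ne_zero m hg)) hc
  · rw [← hc]
    field_simp

theorem Kum.exists_pow_of_zero [HasPrincipalDivisors K F] [IsAlgClosed K] {v₀ : Place K F}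
    (hv₀ : v₀.deg = 1) (hm : m ≠ 0) (h : Kum m (0 : Pic0 K F) f) : ∃ g : F, g ≠ 0 ∧ f = g ^ m := by
  obtain ⟨c, g, hc, hg, hfg⟩ := h.exists_of_zero hv₀
  obtain ⟨d, hd⟩ := IsAlgClosed.exists_pow_nat_eq c (Nat.pos_of_ne_zero hm)
  refine ⟨algebraMap K F d * g, ?_, ?_⟩
  · refine mul_ne_zero ?_ hg
    intro h0
    have : d = 0 := by simpa using h0
    rw [this, zero_pow hm] at hd
    exact hc hd.symm
  · rw [mul_pow, ← map_pow, hd, hfg]

theorem Kum.exists_of_eq [HasPrincipalDivisors K F] [IsAlgClosed K] {v₀ : Place K F}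
    (hv₀ : v₀.deg = 1) (hm : m ≠ 0) (hf : Kum m x f) (hg : Kum m x g) :
    ∃ h : F, h ≠ 0 ∧ f = g * h ^ m := by
  have h1 := hf.mul hg.inv
  rw [add_neg_cancel] at h1
  obtain ⟨h, hh, he⟩ := h1.exists_pow_of_zero hv₀ hm
  refine ⟨h, hh, ?_⟩
  rw [← he]
  field_simp [hg.ne_zero]

/-- The class is zero iff the function is an `m`-th power. -/
theorem Kum.eq_zero_iff [HasPrincipalDivisors K F] [IsAlgClosed K] {v₀ : Place K F}
    (hv₀ : v₀.deg = 1) (hm : m ≠ 0) (hf : Kum m x f) : x = 0 ↔ ∃ g : F, f = g ^ m := by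
  constructor
  · rintro rfl
    obtain ⟨g, _, h⟩ := hf.exists_pow_of_zero hv₀ hm
    exact ⟨g, h⟩
  · rintro ⟨g, rfl⟩
    have hg : g ≠ 0 := by
      rintro rfl
      exact hf.ne_zero (zero_pow hm)
    exact hf.unique_left hm (kum_zero_pow m hg)

/-- Compatibility with semilinear automorphisms. -/
theorem Kum.smul (σ : SemilinearAut K F) (h : Kum m x f) : Kum m (σ • x) (σ • f) := by
  obtain ⟨hf, D, rfl, hD⟩ := h
  refine ⟨by simpa using hf, SemilinearAut.degZeroSMulHom σ D, rfl, fun v => ?_⟩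
  rw [SemilinearAut.coe_degZeroSMulHom, SemilinearAut.divisor_smul_apply, hD]
  have h := SemilinearAut.ord_smul σ (σ⁻¹ • v) f
  rw [smul_inv_smul] at h
  exact h.symm

end Basic

section Push

variable {K F F' : Type*} [Field K] [Field F] [Field F'] [Algebra K F] [Algebra K F']
  [Algebra F F'] [IsScalarTower K F F']

theorem Kum.pullback [Algebra.IsIntegral F F'] [HasPrincipalDivisors K F']
    [FundamentalIdentity K F F'] {m : ℕ} {x : Pic0 K F} {f : F} (h : Kum m x f) :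
    Kum m (Pic0.pullbackHom F' x) (algebraMap F F' f) := by
  obtain ⟨hf, D, rfl, hD⟩ := h
  refine ⟨by simpa using hf, Pic0.pullbackDegZeroHom F' D, rfl, fun w => ?_⟩
  rw [Pic0.coe_pullbackDegZeroHom, Divisor.pullback_apply, Place.ord_restrict, ← hD]
  ring

theorem Kum.pushforward [Module.Finite F F'] (H : Divisor.PushforwardNormFormula K F F')
    {m : ℕ} {y : Pic0 K F'} {g : F'} (h : Kum m y g) :
    Kum m (Pic0.pushforwardHom K F F' H y) (Algebra.norm F g) := by
  obtain ⟨hg, D, rfl, hD⟩ := h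
  refine ⟨Algebra.norm_ne_zero_iff.mpr hg, Pic0.pushforwardDegZeroHom F D, rfl, fun v => ?_⟩
  rw [Pic0.coe_pushforwardDegZeroHom]
  have h1 := H g hg (m • (D : Divisor K F')) (fun w => by
    rw [← hD]
    simp) v
  rw [← h1, map_nsmul]
  simp

end Push

section Along

variable {K F F' : Type*} [Field K] [Field F] [Field F'] [Algebra K F] [Algebra K F']

/-- the norm along an embedding -/
def normAlong (ψ : F →ₐ[K] F') (g : F') : F :=
  letI := algebraAlong ψ
  Algebra.norm F g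

theorem Kum.correspondence [HasPrincipalDivisors K F'] (φ ψ : F →ₐ[K] F')
    (hφ : φ.toRingHom.IsIntegral) (hψ : ψ.toRingHom.IsIntegral)
    (hFI : FundamentalIdentityAlong K φ hφ) (hfin : FiniteAlong K ψ)
    (hN : NormFormulaAlong K ψ hfin) {m : ℕ} {x : Pic0 K F} {f : F} (h : Kum m x f) :
    Kum m (Pic0.correspondence φ ψ hφ hψ hFI hfin hN x) (normAlong ψ (φ f)) := by
  have h1 : ∃ (hf : f ≠ 0) (D : Divisor.degZero (K := K) (F := F)), Pic0.mk D = x ∧
    ∀ v : Place K F, (m : ℤ) * (D : Divisor K F) v = v.ord f := by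
    obtain ⟨hf, D, hx, hD⟩ := h
    exact ⟨hf, D, hx, hD⟩
  obtain ⟨hf, D, rfl, hD⟩ := h1
  have hφf : φ f ≠ 0 := (map_ne_zero_iff _ φ.toRingHom.injective).mpr hf
  refine ⟨?_, Pic0.degZeroCorrespondence φ ψ hφ hψ hFI D, rfl, fun v => ?_⟩
  · letI := algebraAlong ψ
    haveI : Module.Finite F F' := hfin
    exact Algebra.norm_ne_zero_iff.mpr hφf
  · rw [Pic0.coe_degZeroCorrespondence, Divisor.correspondence_apply]
    have hpull : ∀ w : Place K F', (m • Divisor.pullbackAlong φ hφ (D : Divisor K F)) w =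
        w.ord (φ f) := by
      intro w
      rw [Finsupp.smul_apply, Divisor.pullbackAlong_apply, Place.ord_restrictAlong φ hφ, ← hD]
      simp
      ring
    letI := algebraAlong ψ
    haveI := isScalarTower_along ψ
    haveI := isIntegral_along ψ hψ
    haveI : Module.Finite F F' := hfin
    have h2 : (Divisor.pushforward F (m • Divisor.pullbackAlong φ hφ (D : Divisor K F))) v =
        v.ord (Algebra.norm F (φ f)) := hN (φ f) hφf _ hpull v
    rw [map_nsmul] at h2
    change (m : ℤ) * (Divisor.pushforward F (Divisor.pullbackAlong φ hφ (D : Divisor K F))) v =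
      v.ord (Algebra.norm F (φ f))
    rw [← h2]
    simp

end Along

end Fermat.Agent.H05
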