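import Fermat.Agent.H05.ModField
import Fermat.Agent.H05.Kum
import Fermat.Agent.FF.Basic

/-!
# The inputs of the Hecke correspondences on modular function fields
-/

set_option autoImplicit false
set_option linter.style.haveILetI false
set_option linter.unusedSectionVars false
set_option maxSynthPendingDepth 3

noncomputable section

open ModularCurve Polynomial IntermediateField AlgebraicCurve

namespace Fermat.Agent.H05

section Generic

variable {L F F' : Type*} [Field L] [Field F] [Field F'] [Algebra L F] [Algebra L F']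

theorem isIntegral_of_algOver (φ : F →ₐ[L] F') (t : F) (h : ∀ y : F', AlgOver L (φ t) y) :
    φ.toRingHom.IsIntegral := by
  intro y
  letI := algebraAlong φ
  haveI := isScalarTower_along φ
  have h1 : IsAlgebraic F y := by
    let ψ : L⟮φ t⟯ →+* F := (L⟮t⟯.val.toRingHom).comp
      ((simpleEquiv φ t).symm : L⟮φ t⟯ →+* L⟮t⟯)
    have hcomp : (algebraMap F F').comp ψ = (RingHom.id F').comp (algebraMap L⟮φ t⟯ F') := by
      ext z
      obtain ⟨w, rfl⟩ := (simpleEquiv φ t).surjective z
      change φ ((((simpleEquiv φ t).symm (simpleEquiv φ t w) : L⟮t⟯)) : F) =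
        ((simpleEquiv φ t w : L⟮φ t⟯) : F')
      rw [AlgEquiv.symm_apply_apply, coe_simpleEquiv]
    exact (h y).ringHom_of_comp_eq ψ (RingHom.id F') (RingHom.injective _) hcomp
  exact h1.isIntegral

theorem finiteAlong_of (φ : F →ₐ[L] F') [Algebra.EssFiniteType L F']
    (hφ : φ.toRingHom.IsIntegral) : FiniteAlong L φ := by
  letI := algebraAlong φ
  haveI := isScalarTower_along φ
  haveI : Algebra.IsIntegral F F' := isIntegral_along φ hφ
  haveI : Algebra.EssFiniteType F F' := Algebra.EssFiniteType.of_comp L F F'
  exact Algebra.finite_of_essFiniteType_of_isAlgebraic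

theorem normFormulaAlong_of [CharZero L] (φ : F →ₐ[L] F') (hfin : FiniteAlong L φ) :
    NormFormulaAlong L φ hfin := by
  letI := algebraAlong φ
  haveI := isScalarTower_along φ
  haveI : Module.Finite F F' := hfin
  haveI : CharZero F := charZero_of_injective_algebraMap (algebraMap L F).injective
  exact H18.pushforwardNormFormula L F F'

theorem fundamentalIdentityAlong_of [CharZero L] [HasPrincipalDivisors L F'] (φ : F →ₐ[L] F')
    (hφ : φ.toRingHom.IsIntegral) (hfin : FiniteAlong L φ) :
    FundamentalIdentityAlong L φ hφ := by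
  letI := algebraAlong φ
  haveI := isScalarTower_along φ
  haveI := isIntegral_along φ hφ
  haveI : Module.Finite F F' := hfin
  haveI : CharZero F := charZero_of_injective_algebraMap (algebraMap L F).injective
  change FundamentalIdentity L F F'
  infer_instance

end Generic

section Full

variable (L : Type*) [Field L]

theorem hasPrincipalDivisors_full [CharZero L] (N : ℕ) [NeZero N] :
    HasPrincipalDivisors L (modularFunctionFieldFullC L N) := by
  haveI : CharZero L⟮jF L N 1 (one_dvd N)⟯ :=
    charZero_of_injective_algebraMap (algebraMap L _).injective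
  exact H18.hasPrincipalDivisors_of_transcendental (jF L N 1 (one_dvd N))
    (transcendental_jF L N 1 (one_dvd N))

theorem deg_eq_one_full [CharZero L] [IsAlgClosed L] (N : ℕ) [NeZero N]
    (v : Place L (modularFunctionFieldFullC L N)) : v.deg = 1 := by
  haveI : CharZero L⟮jF L N 1 (one_dvd N)⟯ :=
    charZero_of_injective_algebraMap (algebraMap L _).injective
  letI := H18.ratFuncAlgebra (jF L N 1 (one_dvd N)) (transcendental_jF L N 1 (one_dvd N))
  haveI := H18.ratFuncAlgebra_tower (jF L N 1 (one_dvd N)) (transcendental_jF L N 1 (one_dvd N))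
  haveI := H18.ratFuncAlgebra_finite (jF L N 1 (one_dvd N)) (transcendental_jF L N 1 (one_dvd N))
  haveI := H18.ratFuncAlgebra_separable (jF L N 1 (one_dvd N))
    (transcendental_jF L N 1 (one_dvd N))
  exact H18.deg_eq_one v

theorem funField_full (N : ℕ) [NeZero N] : FF.FunField L (modularFunctionFieldFullC L N) :=
  ⟨jF L N 1 (one_dvd N), transcendental_jF L N 1 (one_dvd N), finiteDimensional_jF L N 1 _⟩

/-- the place at infinity -/
theorem exists_place_infinity (N : ℕ) : ∃ v : Place L (modularFunctionFieldFullC L N),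
    ∀ z : modularFunctionFieldFullC L N, v.ord z = (z : LaurentSeries L).order := by
  apply H26.exists_place_order
  have hj : (jqModC L).order = -1 := by
    apply le_antisymm
    · apply HahnSeries.order_le_of_coeff_ne_zero
      rw [coeff_jqModC_neg_one]
      exact one_ne_zero
    · rw [HahnSeries.le_order_iff_forall (jqModC_ne_zero_of_nontrivial L)]
      intro j hj
      exact coeff_jqModC_of_lt L hj
  refine ⟨⟨jqModC L, jqModC_mem_full L N⟩⁻¹, ?_⟩
  have h1 : (((⟨jqModC L, jqModC_mem_full L N⟩⁻¹ : modularFunctionFieldFullC L N)) :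
      LaurentSeries L) = (jqModC L)⁻¹ := rfl
  rw [h1]
  have h2 : jqModC L * (jqModC L)⁻¹ = 1 :=
    mul_inv_cancel₀ (jqModC_ne_zero_of_nontrivial L)
  have h3 := congrArg HahnSeries.order h2
  rw [HahnSeries.order_mul (jqModC_ne_zero_of_nontrivial L)
    (inv_ne_zero (jqModC_ne_zero_of_nontrivial L)), hj, HahnSeries.order_one] at h3
  omega

end Full

section BaseChange

variable (L : Type*) [Field L] [Algebra ℚ L]

instance hasPrincipalDivisors_bc (N : ℕ) [NeZero N] :
    HasPrincipalDivisors L (laurentBaseChange L (modularFunctionFieldFull N)) := by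
  haveI : CharZero L := charZero_of_injective_algebraMap (algebraMap ℚ L).injective
  rw [laurentBaseChange_full]
  exact hasPrincipalDivisors_full L N

theorem deg_eq_one_bc [IsAlgClosed L] (N : ℕ) [NeZero N]
    (v : Place L (laurentBaseChange L (modularFunctionFieldFull N))) : v.deg = 1 := by
  haveI : CharZero L := charZero_of_injective_algebraMap (algebraMap ℚ L).injective
  revert v
  rw [laurentBaseChange_full]
  exact deg_eq_one_full L N

instance funField_bc (N : ℕ) [NeZero N] :
    FF.FunField L (laurentBaseChange L (modularFunctionFieldFull N)) := by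
  rw [laurentBaseChange_full]
  exact funField_full L N

instance essFiniteType_bc (N : ℕ) [NeZero N] :
    Algebra.EssFiniteType L (laurentBaseChange L (modularFunctionFieldFull N)) := by
  rw [laurentBaseChange_full]
  exact essFiniteType_full L N

theorem exists_place_infinity_bc (N : ℕ) :
    ∃ v : Place L (laurentBaseChange L (modularFunctionFieldFull N)),
    ∀ z : laurentBaseChange L (modularFunctionFieldFull N),
      v.ord z = (z : LaurentSeries L).order := by
  rw [laurentBaseChange_full]
  exact exists_place_infinity L N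

/-- `j` in the base change -/
def jB (N : ℕ) : laurentBaseChange L (modularFunctionFieldFull N) :=
  ⟨jqModC L, by rw [laurentBaseChange_full]; exact jqModC_mem_full L N⟩

theorem algOver_bc {N : ℕ} (d : ℕ) [NeZero d]
    (t y : laurentBaseChange L (modularFunctionFieldFull N))
    (ht : (t : LaurentSeries L) = qExpand L d (jqModC L)) : AlgOver L t y := by
  apply (algOver_map_iff (laurentBaseChange L (modularFunctionFieldFull N)).val).mp
  change AlgOver L (t : LaurentSeries L) (y : LaurentSeries L)
  rw [ht]
  apply algOver_jd_of_mem L (N := N) d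
  rw [← laurentBaseChange_full]
  exact y.2

theorem heckeAlphaBarIntegral (N ℓ : ℕ) [NeZero N] [NeZero ℓ] : HeckeAlphaBarIntegral L N ℓ := by
  apply isIntegral_of_algOver (heckeAlphaBar L N ℓ) (jB L N)
  intro y
  apply algOver_bc L 1
  rw [coe_heckeAlphaBar, qExpand_one_apply]
  rfl

theorem heckeBetaBarIntegral (N ℓ : ℕ) [NeZero N] [NeZero ℓ] : HeckeBetaBarIntegral L N ℓ := by
  apply isIntegral_of_algOver (heckeBetaBar L N ℓ) (jB L N)
  intro y
  apply algOver_bc L ℓ
  rw [coe_heckeBetaBar]
  rfl

theorem finiteAlong_alpha (N ℓ : ℕ) [NeZero N] [NeZero ℓ] :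
    FiniteAlong L (heckeAlphaBar L N ℓ) :=
  finiteAlong_of _ (heckeAlphaBarIntegral L N ℓ)

theorem finiteAlong_beta (N ℓ : ℕ) [NeZero N] [NeZero ℓ] :
    FiniteAlong L (heckeBetaBar L N ℓ) :=
  finiteAlong_of _ (heckeBetaBarIntegral L N ℓ)

/-- **All the inputs of the Hecke operators hold.** -/
theorem heckeInputsAlong (N ℓ : ℕ) [NeZero N] [NeZero ℓ] : HeckeInputsAlong L N ℓ := by
  haveI : CharZero L := charZero_of_injective_algebraMap (algebraMap ℚ L).injective
  exact heckeInputsAlong_intro (heckeAlphaBarIntegral L N ℓ) (heckeBetaBarIntegral L N ℓ)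
    (fundamentalIdentityAlong_of _ _ (finiteAlong_beta L N ℓ)) (finiteAlong_alpha L N ℓ)
    (normFormulaAlong_of _ _)

/-- **The Hecke operator on torsion classes is the norm of `f(q^ℓ)`.** -/
theorem Kum.heckeOperatorAlong {N ℓ : ℕ} [NeZero N] [NeZero ℓ] {m : ℕ}
    {x : Pic0 L (laurentBaseChange L (modularFunctionFieldFull N))}
    {f : laurentBaseChange L (modularFunctionFieldFull N)} (h : Kum m x f) :
    Kum m (heckeOperatorAlong L N ℓ x)
      (normAlong (heckeAlphaBar L N ℓ) (heckeBetaBar L N ℓ f)) := by
  haveI : CharZero L := charZero_of_injective_algebraMap (algebraMap ℚ L).injective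
  rw [heckeOperatorAlong_eq (heckeAlphaBarIntegral L N ℓ) (heckeBetaBarIntegral L N ℓ)
    (fundamentalIdentityAlong_of _ _ (finiteAlong_beta L N ℓ)) (finiteAlong_alpha L N ℓ)
    (normFormulaAlong_of _ _)]
  exact h.correspondence (heckeBetaBar L N ℓ) (heckeAlphaBar L N ℓ) _ _ _ _ _

end BaseChange

end Fermat.Agent.H05
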