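import Fermat.Agent.H05.BaseChange
import Fermat.Agent.Igusa.Degree3

/-!
# Commutativity of the Hecke operators on `J₀(N)`
-/

set_option autoImplicit false
set_option linter.style.haveILetI false
set_option linter.unusedSectionVars false
set_option maxSynthPendingDepth 3

noncomputable section

open AlgebraicCurve ModularCurve Polynomial

namespace Fermat.Agent.H05

section Gcd

open Igusa

variable {k : Type*} [Field k]

/-- `j(q^d), j(q^(drℓ)) ∈ A` imply `j(q^(dr)) ∈ A`. -/
theorem jd_mem_of_mem' (r : ℕ) [hr' : Fact r.Prime] (p : ℕ) [hp' : Fact p.Prime]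
    (hr : (r : k) ≠ 0) (hp : (p : k) ≠ 0)
    (A : IntermediateField k (LaurentSeries k)) (d : ℕ) [NeZero d]
    (h1 : jd k d ∈ A) (h2 : jd k (d * r * p) ∈ A) : jd k (d * r) ∈ A := by
  obtain ⟨ζp, hζp⟩ := exists_root_of_unity p hp
  obtain ⟨ζr, hζr⟩ := exists_root_of_unity r hr
  set K := AlgebraicClosure k
  let φ : A →+* LaurentSeries K := (qExpand K (r * p)).comp ((emb k).comp (algebraMap A _))
  let P : A[X] := modPolyAt r A ⟨jd k d, h1⟩
  let Q : A[X] := modPolyAt p A ⟨jd k (d * r * p), h2⟩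
  have hP : aeval (jd k (d * r)) P = 0 := by
    rw [aeval_modPolyAt]
    exact modPoly_eval r k d
  have hQ : aeval (jd k (d * r)) Q = 0 := by
    rw [aeval_modPolyAt]
    exact modPoly_eval' p k (d * r)
  have hPφ : P.map φ = ∏ i, (X - C (qExpand K (d * p) (rt r ζr i))) := by
    rw [modPolyAt_map, ← modPoly_map_jd r hζr]
    congr 2
    show qExpand K (r * p) (emb k (jd k d)) = _
    rw [emb_jd, qExpand_jd]
    exact jd_congr _ (by ring)
  have hQφ : Q.map φ = ∏ i, (X - C (qExpand K (d * r * r * p) (rt p ζp i))) := by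
    rw [modPolyAt_map, ← modPoly_map_jd p hζp]
    congr 2
    show qExpand K (r * p) (emb k (jd k (d * r * p))) = _
    rw [emb_jd, qExpand_jd]
    exact jd_congr _ (by ring)
  have hne : ∀ {r : ℕ} [Fact r.Prime] {ζ : Kˣ} (i), rt r ζ i ≠ 0 := by
    intro r _ ζ i h
    have h2 := (Fact.out : r.Prime).two_le
    match i with
    | none =>
      have := order_rt_none r ζ
      rw [h, HahnSeries.order_zero] at this
      have h3 : (2 : ℤ) ≤ r := by exact_mod_cast h2
      nlinarith
    | some b =>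
      have := order_rt_some r ζ b
      rw [h, HahnSeries.order_zero] at this
      omega
  have hmem := mem_range_of_unique_common_root (L := LaurentSeries k) φ (modPolyAt_monic r A _) hP
    hQ _ _ ((qExpand_injective (R := K) (d * p)).comp (rt_injective r hζr)) hPφ hQφ none ?_
  · obtain ⟨a, ha⟩ := hmem
    rw [← ha]; exact a.2
  · intro i j hij
    have hd : (0 : ℤ) < d := by exact_mod_cast Nat.pos_of_ne_zero (NeZero.ne d)
    have hr2 : (2 : ℤ) ≤ r := by exact_mod_cast hr'.out.two_le
    have hp2 : (2 : ℤ) ≤ p := by exact_mod_cast hp'.out.two_le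
    have ho := congrArg HahnSeries.order hij
    rw [Function.comp_apply, order_qExpand _ (hne i), order_qExpand _ (hne j)] at ho
    have hd' : (d : ℤ) * p ≠ 0 := by positivity
    match i, j with
    | none, _ => rfl
    | some b, none =>
      exfalso
      rw [order_rt_some, order_rt_none] at ho
      push_cast at ho
      have h3 : (r : ℤ) * r * (p * p) - 1 = 0 := by
        have h4 : ((d : ℤ) * p) * (r * r * (p * p) - 1) = 0 := by linear_combination ho
        exact (mul_eq_zero.mp h4).resolve_left hd'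
      have h5 : (4 : ℤ) ≤ r * r := by nlinarith
      have h6 : (4 : ℤ) ≤ p * p := by nlinarith
      nlinarith
    | some b, some c =>
      exfalso
      rw [order_rt_some, order_rt_some] at ho
      push_cast at ho
      have h3 : (r : ℤ) * r - 1 = 0 := by
        have h4 : ((d : ℤ) * p) * (r * r - 1) = 0 := by linear_combination ho
        exact (mul_eq_zero.mp h4).resolve_left hd'
      nlinarith

end Gcd

section Maps

variable (L : Type*) [Field L] [Algebra ℚ L]

/-- The inclusion of function fields of level `M ∣ M'`. -/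
def inc {M M' : ℕ} [NeZero M] [NeZero M'] (h : M ∣ M') :
    laurentBaseChange L (modularFunctionFieldFull M) →ₐ[L]
      laurentBaseChange L (modularFunctionFieldFull M') :=
  IntermediateField.inclusion (by
    rw [laurentBaseChange_full, laurentBaseChange_full]
    exact full_degeneracyC_le L h)

@[simp]
theorem coe_inc {M M' : ℕ} [NeZero M] [NeZero M'] (h : M ∣ M')
    (x : laurentBaseChange L (modularFunctionFieldFull M)) :
    (inc L h x : LaurentSeries L) = (x : LaurentSeries L) :=
  IntermediateField.coe_inclusion _ x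

theorem qExpand_mem_full {M M' d : ℕ} [NeZero M] [NeZero M'] [NeZero d] (h : M * d ∣ M')
    {x : LaurentSeries L} (hx : x ∈ laurentBaseChange L (modularFunctionFieldFull M)) :
    qExpand L d x ∈ laurentBaseChange L (modularFunctionFieldFull M') := by
  rw [laurentBaseChange_full] at hx ⊢
  have h1 := full_degeneracyC_map_le L M d ⟨x, hx, rfl⟩
  exact full_degeneracyC_le L h h1

/-- The map `q ↦ q^d` from level `M` to level `M'`, for `Md ∣ M'`. -/
def qe {M M' : ℕ} (d : ℕ) [NeZero M] [NeZero M'] [NeZero d] (h : M * d ∣ M') :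
    laurentBaseChange L (modularFunctionFieldFull M) →ₐ[L]
      laurentBaseChange L (modularFunctionFieldFull M') where
  toFun x := ⟨qExpand L d (x : LaurentSeries L), qExpand_mem_full L h x.2⟩
  map_one' := Subtype.ext (map_one (qExpand L d))
  map_mul' _ _ := Subtype.ext (map_mul (qExpand L d) _ _)
  map_zero' := Subtype.ext (map_zero (qExpand L d))
  map_add' _ _ := Subtype.ext (map_add (qExpand L d) _ _)
  commutes' := fun a => Subtype.ext <| by
      show qExpand L d (algebraMap L (LaurentSeries L) a) = algebraMap L (LaurentSeries L) a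
      rw [algebraMap_laurentSeries_eq_single, qExpand_single, mul_zero]

@[simp]
theorem coe_qe {M M' : ℕ} (d : ℕ) [NeZero M] [NeZero M'] [NeZero d] (h : M * d ∣ M')
    (x : laurentBaseChange L (modularFunctionFieldFull M)) :
    (qe L d h x : LaurentSeries L) = qExpand L d (x : LaurentSeries L) := rfl

theorem heckeAlphaBar_eq (N ℓ : ℕ) [NeZero N] [NeZero ℓ] :
    heckeAlphaBar L N ℓ = inc L (dvd_mul_right N ℓ) := rfl

theorem heckeBetaBar_eq (N ℓ : ℕ) [NeZero N] [NeZero ℓ] :
    heckeBetaBar L N ℓ = qe L ℓ (dvd_refl (N * ℓ)) := rfl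

theorem inc_isIntegral {M M' : ℕ} [NeZero M] [NeZero M'] (h : M ∣ M') :
    (inc L h).toRingHom.IsIntegral := by
  apply isIntegral_of_algOver (inc L h) (jB L M)
  intro y
  apply algOver_bc L 1
  rw [coe_inc, qExpand_one_apply]
  rfl

theorem qe_isIntegral {M M' : ℕ} (d : ℕ) [NeZero M] [NeZero M'] [NeZero d] (h : M * d ∣ M') :
    (qe L d h).toRingHom.IsIntegral := by
  apply isIntegral_of_algOver (qe L d h) (jB L M)
  intro y
  apply algOver_bc L d
  rw [coe_qe]
  rfl

theorem finiteAlong_inc {M M' : ℕ} [NeZero M] [NeZero M'] (h : M ∣ M') :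
    FiniteAlong L (inc L h) := finiteAlong_of _ (inc_isIntegral L h)

theorem finiteAlong_qe {M M' : ℕ} (d : ℕ) [NeZero M] [NeZero M'] [NeZero d] (h : M * d ∣ M') :
    FiniteAlong L (qe L d h) := finiteAlong_of _ (qe_isIntegral L d h)

theorem finrankAlong_inc_eq {M M' : ℕ} [NeZero M] [NeZero M'] (h : M ∣ M') :
    finrankAlong L (inc L h) = Cardinal.toNat
      ((modularFunctionFieldFullC L M).relrank (modularFunctionFieldFullC L M')) := by
  have hle : laurentBaseChange L (modularFunctionFieldFull M) ≤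
      laurentBaseChange L (modularFunctionFieldFull M') := by
    rw [laurentBaseChange_full, laurentBaseChange_full]
    exact full_degeneracyC_le L h
  rw [← laurentBaseChange_full, ← laurentBaseChange_full,
    IntermediateField.relrank_eq_rank_of_le hle]
  letI := algebraAlong (inc L h)
  change Module.finrank (laurentBaseChange L (modularFunctionFieldFull M))
    (laurentBaseChange L (modularFunctionFieldFull M')) =
    Module.finrank (laurentBaseChange L (modularFunctionFieldFull M))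
      (IntermediateField.extendScalars hle)
  refine LinearEquiv.finrank_eq
    { toFun := fun x => ⟨(x : LaurentSeries L), x.2⟩
      invFun := fun x => ⟨(x : LaurentSeries L), x.2⟩
      left_inv := fun x => rfl
      right_inv := fun x => rfl
      map_add' := fun x y => rfl
      map_smul' := fun a x => Subtype.ext ?_ }
  change ((inc L h a * x : laurentBaseChange L (modularFunctionFieldFull M')) :
    LaurentSeries L) = (a : LaurentSeries L) * (x : LaurentSeries L)
  rw [MulMemClass.coe_mul, coe_inc]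

/-- The degree of the degeneracy map of prime level. -/
theorem finrankAlong_inc_prime {M M' r : ℕ} [NeZero M] [NeZero M'] (hr : r.Prime)
    (h : M ∣ M') (hM' : M' = M * r) :
    finrankAlong L (inc L h) = if r ∣ M then r else r + 1 := by
  haveI : CharZero L := charZero_of_injective_algebraMap (algebraMap ℚ L).injective
  haveI : Fact r.Prime := ⟨hr⟩
  subst hM'
  rw [finrankAlong_inc_eq, Igusa.relrank_prime_step r M (by exact_mod_cast NeZero.ne (M * r))
    (Igusa.relrank_full M (by exact_mod_cast NeZero.ne M)), Cardinal.toNat_natCast]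

/-- Generation: the field of level `Mℓr` is generated by the field of level `Mℓ` and
the image of the field of level `Mr` under `q ↦ q^ℓ`. -/
theorem gen_prime {M r ℓ M₁ M₂ M' : ℕ} [NeZero M] [NeZero M₁] [NeZero M₂] [NeZero M'] [NeZero ℓ]
    (hr : r.Prime) (hℓ : ℓ.Prime) (hrℓ : r ≠ ℓ) (h₁ : M₁ = M * ℓ) (h₂ : M₂ = M * r)
    (h' : M' = M * ℓ * r) (hu : M₁ ∣ M') (hv : M₂ * ℓ ∣ M')
    (S : Subfield (laurentBaseChange L (modularFunctionFieldFull M')))
    (hS₁ : ∀ x, inc L hu x ∈ S) (hS₂ : ∀ y, qe L ℓ hv y ∈ S) : S = ⊤ := by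
  haveI : CharZero L := charZero_of_injective_algebraMap (algebraMap ℚ L).injective
  haveI : Fact r.Prime := ⟨hr⟩
  haveI : Fact ℓ.Prime := ⟨hℓ⟩
  subst h₁ h₂ h'
  -- the image of `S` in Laurent series
  let A : IntermediateField L (LaurentSeries L) :=
    { S.map (laurentBaseChange L (modularFunctionFieldFull (M * ℓ * r))).val.toRingHom with
      algebraMap_mem' := fun a => ⟨algebraMap L _ a, by
        have := hS₁ (algebraMap L _ a)
        rwa [AlgHom.commutes] at this, rfl⟩ }
  have hAmem : ∀ z : laurentBaseChange L (modularFunctionFieldFull (M * ℓ * r)),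
      (z : LaurentSeries L) ∈ A ↔ z ∈ S := by
    intro z
    constructor
    · rintro ⟨z', hz', he⟩
      have : z' = z := Subtype.ext he
      rwa [← this]
    · intro hz
      exact ⟨z, hz, rfl⟩
  have hA₁ : modularFunctionFieldFullC L (M * ℓ) ≤ A := by
    intro x hx
    rw [← laurentBaseChange_full] at hx
    have h1 := (hAmem _).mpr (hS₁ ⟨x, hx⟩)
    rwa [coe_inc] at h1
  have hA₂ : ∀ x ∈ modularFunctionFieldFullC L (M * r), qExpand L ℓ x ∈ A := by
    intro x hx
    rw [← laurentBaseChange_full] at hx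
    exact (hAmem _).mpr (hS₂ ⟨x, hx⟩)
  obtain ⟨a, M₀, hM₀, hM⟩ := Nat.exists_eq_pow_mul_and_not_dvd (NeZero.ne M) r hr.ne_one
  haveI : NeZero M₀ := ⟨fun h => NeZero.ne M (by rw [hM, h, mul_zero])⟩
  have hrL : (r : L) ≠ 0 := by exact_mod_cast hr.ne_zero
  have hj1 : Igusa.jd L (r ^ a) ∈ A :=
    hA₁ (Igusa.jd_mem_full (by rw [hM, mul_assoc]; exact dvd_mul_right _ _))
  have hj2 : Igusa.jd L (r ^ a * r * ℓ) ∈ A := by
    have h1 : Igusa.jd L (r ^ a * r) ∈ modularFunctionFieldFullC L (M * r) :=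
      Igusa.jd_mem_full (by rw [hM]; exact mul_dvd_mul_right (dvd_mul_right _ _) r)
    have h2 := hA₂ _ h1
    rw [Igusa.qExpand_jd] at h2
    rwa [Igusa.jd_congr L (show r ^ a * r * ℓ = ℓ * (r ^ a * r) by ring)]
  have hj3 : Igusa.jd L (r ^ a * r) ∈ A :=
    jd_mem_of_mem' r ℓ hrL (by exact_mod_cast hℓ.ne_zero) A (r ^ a) hj1 hj2
  have hcop : ¬ r ∣ M₀ * ℓ := by
    intro h
    rcases (Nat.Prime.dvd_mul hr).mp h with h | h
    · exact hM₀ h
    · exact hrℓ ((Nat.prime_dvd_prime_iff_eq hr hℓ).mp h)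
  have hfull : modularFunctionFieldFullC L (M * ℓ * r) ≤ A := by
    have h1 := Igusa.full_le_adj (k := L) r a (M₀ * ℓ) hcop hrL
      (by exact_mod_cast NeZero.ne (M₀ * ℓ))
    have h2 : M * ℓ * r = r ^ a * (M₀ * ℓ) * r := by rw [hM]; ring
    have h3 : M * ℓ = r ^ a * (M₀ * ℓ) := by rw [hM]; ring
    have h4 : modularFunctionFieldFullC L (M * ℓ * r) =
        modularFunctionFieldFullC L (r ^ a * (M₀ * ℓ) * r) := by rw [h2]
    have h5 : modularFunctionFieldFullC L (M * ℓ) =
        modularFunctionFieldFullC L (r ^ a * (M₀ * ℓ)) := by rw [h3]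
    rw [h4]
    refine h1.trans (Igusa.adj_le (by rw [← h5]; exact hA₁) ?_)
    rwa [Igusa.jd_congr L (show r ^ (a + 1) = r ^ a * r by ring)]
  rw [eq_top_iff]
  intro z _
  rw [← hAmem]
  apply hfull
  rw [← laurentBaseChange_full]
  exact z.2

end Maps

section Comm

variable (L : Type*) [Field L] [Algebra ℚ L]

theorem comp_comm {M M₁ M₂ M' ℓ : ℕ} [NeZero M] [NeZero M₁] [NeZero M₂] [NeZero M'] [NeZero ℓ]
    (h1 : M * ℓ ∣ M₁) (h2 : M ∣ M₂) (hu : M₁ ∣ M') (hv : M₂ * ℓ ∣ M') :
    (inc L hu).comp (qe L ℓ h1) = (qe L ℓ hv).comp (inc L h2) := by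
  refine AlgHom.ext fun x => Subtype.ext ?_
  rw [AlgHom.comp_apply, AlgHom.comp_apply, coe_inc, coe_qe, coe_qe, coe_inc]

theorem inc_comp_inc {M M₁ M' : ℕ} [NeZero M] [NeZero M₁] [NeZero M']
    (h1 : M ∣ M₁) (hu : M₁ ∣ M') :
    (inc L hu).comp (inc L h1) = inc L (h1.trans hu) := by
  refine AlgHom.ext fun x => Subtype.ext ?_
  rw [AlgHom.comp_apply, coe_inc, coe_inc, coe_inc]

theorem qe_comp_qe {M M₁ M' d e : ℕ} [NeZero M] [NeZero M₁] [NeZero M'] [NeZero d] [NeZero e]
    (h1 : M * d ∣ M₁) (hu : M₁ * e ∣ M') (hv : M * (e * d) ∣ M') :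
    (qe L e hu).comp (qe L d h1) = qe L (e * d) hv := by
  refine AlgHom.ext fun x => Subtype.ext ?_
  rw [AlgHom.comp_apply, coe_qe, coe_qe, coe_qe]
  exact qExpand_qExpand d e _

theorem qe_congr {M M' d e : ℕ} [NeZero M] [NeZero M'] [NeZero d] [NeZero e] (h : M * d ∣ M')
    (hde : d = e) : qe L d h = qe L e (hde ▸ h) :=
  AlgHom.ext fun _ => Subtype.ext (qExpand_congr hde _)

theorem pullbackAlong_congr {K F F' : Type*} [Field K] [Field F] [Field F'] [Algebra K F]
    [Algebra K F'] [HasPrincipalDivisors K F'] {φ ψ : F →ₐ[K] F'} (h : φ = ψ)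
    (hφ : φ.toRingHom.IsIntegral) (hψ : ψ.toRingHom.IsIntegral) (D : Divisor K F) :
    Divisor.pullbackAlong φ hφ D = Divisor.pullbackAlong ψ hψ D := by
  subst h; rfl

theorem pushforwardAlong_congr {K F F' : Type*} [Field K] [Field F] [Field F'] [Algebra K F]
    [Algebra K F'] {φ ψ : F →ₐ[K] F'} (h : φ = ψ)
    (hφ : φ.toRingHom.IsIntegral) (hψ : ψ.toRingHom.IsIntegral) (D : Divisor K F') :
    Divisor.pushforwardAlong φ hφ D = Divisor.pushforwardAlong ψ hψ D := by
  subst h; rfl

variable [IsAlgClosed L]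

/-- The composite of two Hecke correspondences of distinct prime level. -/
theorem heckeDiv_comp {N ℓ r M' : ℕ} [NeZero N] [NeZero ℓ] [NeZero r] [NeZero M']
    (hℓ : ℓ.Prime) (hr : r.Prime) (hrℓ : r ≠ ℓ) (hM' : M' = N * ℓ * r)
    (h1 : N ∣ M') (h2 : N * (ℓ * r) ∣ M')
    (D : Divisor L (laurentBaseChange L (modularFunctionFieldFull N))) :
    heckeDivBar (heckeAlphaBarIntegral L N ℓ) (heckeBetaBarIntegral L N ℓ)
      (heckeDivBar (heckeAlphaBarIntegral L N r) (heckeBetaBarIntegral L N r) D) =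
    Divisor.pushforwardAlong (inc L h1) (inc_isIntegral L h1)
      (Divisor.pullbackAlong (qe L (ℓ * r) h2) (qe_isIntegral L _ h2) D) := by
  haveI : CharZero L := charZero_of_injective_algebraMap (algebraMap ℚ L).injective
  have hu : N * ℓ ∣ M' := ⟨r, hM'⟩
  have hv : N * r * ℓ ∣ M' := ⟨1, by rw [hM']; ring⟩
  have hbc := baseChange_formula (heckeBetaBar L N ℓ) (heckeAlphaBar L N r) (inc L hu)
    (qe L ℓ hv) (heckeBetaBarIntegral L N ℓ) (heckeAlphaBarIntegral L N r)
    (inc_isIntegral L hu) (qe_isIntegral L ℓ hv)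
    (comp_comm L (dvd_refl (N * ℓ)) (dvd_mul_right N r) hu hv)
    (finiteAlong_alpha L N r) (finiteAlong_inc L hu)
    (normFormulaAlong_of _ _) (normFormulaAlong_of _ _)
    (gen_prime L hr hℓ hrℓ rfl rfl hM' hu hv)
    (by
      rw [finrankAlong_inc_prime L hr hu hM', heckeAlphaBar_eq,
        finrankAlong_inc_prime L hr (dvd_mul_right N r) rfl]
      have h3 : r ∣ N * ℓ ↔ r ∣ N := by
        constructor
        · intro h
          rcases (Nat.Prime.dvd_mul hr).mp h with h | h
          · exact h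
          · exact absurd ((Nat.prime_dvd_prime_iff_eq hr hℓ).mp h) hrℓ
        · exact fun h => h.mul_right ℓ
      simp only [h3])
    (Divisor.pullbackAlong (heckeBetaBar L N r) (heckeBetaBarIntegral L N r) D)
  have hd : ∀ w : Place L (laurentBaseChange L (modularFunctionFieldFull M')), w.deg ≠ 0 :=
    fun w => by rw [deg_eq_one_bc]; exact one_ne_zero
  change Divisor.pushforwardAlong (heckeAlphaBar L N ℓ) (heckeAlphaBarIntegral L N ℓ)
    (Divisor.pullbackAlong (heckeBetaBar L N ℓ) (heckeBetaBarIntegral L N ℓ)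
      (Divisor.pushforwardAlong (heckeAlphaBar L N r) (heckeAlphaBarIntegral L N r)
        (Divisor.pullbackAlong (heckeBetaBar L N r) (heckeBetaBarIntegral L N r) D))) = _
  rw [hbc]
  have e1 : (inc L hu).comp (heckeAlphaBar L N ℓ) = inc L h1 :=
    inc_comp_inc L (dvd_mul_right N ℓ) hu
  have e2 : (qe L ℓ hv).comp (heckeBetaBar L N r) = qe L (ℓ * r) h2 :=
    qe_comp_qe L (dvd_refl (N * r)) hv h2
  have i1 : ((inc L hu).comp (heckeAlphaBar L N ℓ)).toRingHom.IsIntegral := by
    rw [e1]; exact inc_isIntegral L h1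
  have i2 : ((qe L ℓ hv).comp (heckeBetaBar L N r)).toRingHom.IsIntegral := by
    rw [e2]; exact qe_isIntegral L _ h2
  rw [← pullbackAlong_congr e2 i2, pullbackAlong_comp _ _ _ (qe_isIntegral L ℓ hv) i2,
    ← pushforwardAlong_congr e1 i1, pushforwardAlong_comp _ _ _ (inc_isIntegral L hu) i1 hd]

theorem heckeDiv_comm {N ℓ r : ℕ} [NeZero N] [NeZero ℓ] [NeZero r]
    (hℓ : ℓ.Prime) (hr : r.Prime) (hrℓ : r ≠ ℓ)
    (D : Divisor L (laurentBaseChange L (modularFunctionFieldFull N))) :
    heckeDivBar (heckeAlphaBarIntegral L N ℓ) (heckeBetaBarIntegral L N ℓ)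
      (heckeDivBar (heckeAlphaBarIntegral L N r) (heckeBetaBarIntegral L N r) D) =
    heckeDivBar (heckeAlphaBarIntegral L N r) (heckeBetaBarIntegral L N r)
      (heckeDivBar (heckeAlphaBarIntegral L N ℓ) (heckeBetaBarIntegral L N ℓ) D) := by
  have h1 : N ∣ N * ℓ * r := ⟨ℓ * r, by ring⟩
  have h2 : N * (ℓ * r) ∣ N * ℓ * r := ⟨1, by ring⟩
  have h3 : N * (r * ℓ) ∣ N * ℓ * r := ⟨1, by ring⟩
  rw [heckeDiv_comp L hℓ hr hrℓ rfl h1 h2, heckeDiv_comp L hr hℓ hrℓ.symm (by ring) h1 h3]
  congr 1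
  exact pullbackAlong_congr (qe_congr L h2 (mul_comm ℓ r)) _ _ D

/-- Hecke operators of distinct prime index commute. -/
theorem heckeOperatorAlong_comm {N ℓ r : ℕ} [NeZero N] [NeZero ℓ] [NeZero r]
    (hℓ : ℓ.Prime) (hr : r.Prime)
    (x : Pic0 L (laurentBaseChange L (modularFunctionFieldFull N))) :
    heckeOperatorAlong L N ℓ (heckeOperatorAlong L N r x) =
      heckeOperatorAlong L N r (heckeOperatorAlong L N ℓ x) := by
  by_cases hrℓ : r = ℓ
  · subst hrℓ; rfl
  haveI : CharZero L := charZero_of_injective_algebraMap (algebraMap ℚ L).injective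
  have key : ∀ (s : ℕ) [NeZero s] (D : Divisor.degZero (K := L)
      (F := laurentBaseChange L (modularFunctionFieldFull N))),
      ∃ h : heckeDivBar (heckeAlphaBarIntegral L N s) (heckeBetaBarIntegral L N s) (D : _) ∈
        Divisor.degZero (K := L) (F := laurentBaseChange L (modularFunctionFieldFull N)),
      heckeOperatorAlong L N s (Pic0.mk D) = Pic0.mk ⟨_, h⟩ := by
    intro s _ D
    rw [heckeOperatorAlong_eq (heckeAlphaBarIntegral L N s) (heckeBetaBarIntegral L N s)
      (fundamentalIdentityAlong_of _ _ (finiteAlong_beta L N s)) (finiteAlong_alpha L N s)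
      (normFormulaAlong_of _ _)]
    exact ⟨(Pic0.degZeroCorrespondence (heckeBetaBar L N s) (heckeAlphaBar L N s)
      (heckeBetaBarIntegral L N s) (heckeAlphaBarIntegral L N s)
      (fundamentalIdentityAlong_of _ _ (finiteAlong_beta L N s)) D).2, rfl⟩
  obtain ⟨D, rfl⟩ := Pic0.mk_surjective x
  obtain ⟨h1, e1⟩ := key r D
  obtain ⟨h2, e2⟩ := key ℓ D
  obtain ⟨h3, e3⟩ := key ℓ ⟨_, h1⟩
  obtain ⟨h4, e4⟩ := key r ⟨_, h2⟩
  rw [e1, e2, e3, e4]
  congr 1
  apply Subtype.ext
  exact heckeDiv_comm L hℓ hr hrℓ _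

end Comm

/-- **The Hecke operators on `J₀(N)` commute.** -/
theorem heckeOperatorsCommuteBar (N : ℕ) [NeZero N] : HeckeOperatorsCommuteBar N := by
  intro ℓ r
  haveI : NeZero (ℓ : ℕ) := ⟨ℓ.2.ne_zero⟩
  haveI : NeZero (r : ℕ) := ⟨r.2.ne_zero⟩
  ext x
  rw [Module.End.mul_apply, Module.End.mul_apply]
  exact heckeOperatorAlong_comm (AlgebraicClosure ℚ) ℓ.2 r.2 x

end Fermat.Agent.H05
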