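import Fermat.Agent.Igusa.ModPoly2
import Fermat.Agent.H18_Norm
import Fermat.Agent.H18_FunField
import Fermat.Agent.Descent.PlaceLift
import Fermat.Prelude.Def_ModularCurve_X0ModL
import Fermat.Prelude.Def_ModularCurve_HeckeModule

/-!
# Modular function fields are function fields
-/

set_option autoImplicit false
set_option linter.style.haveILetI false
set_option linter.unusedSectionVars false
set_option maxSynthPendingDepth 3

noncomputable section

open ModularCurve Polynomial IntermediateField AlgebraicCurve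

namespace Fermat.Agent.H05

open Fermat.Agent.Igusa

section Poly

variable (r : ℕ) [hr : Fact r.Prime]

theorem modPoly_eval_j (R : Type*) [CommRing R] :
    (modPoly r).eval₂ (evZ (qExpand R r (jqModC R))) (jqModC R) = 0 := by
  -- first over `ℤ`, via `ℂ`
  have hC : (modPoly r).eval₂ (evZ (qExpand ℂ r (jqModC ℂ))) (jqModC ℂ) = 0 := by
    rw [← Polynomial.eval_map, modPoly_map r (zr_prim r), rtPoly, Polynomial.eval_prod]
    apply Finset.prod_eq_zero (Finset.mem_univ (some (0 : ZMod r)))
    rw [rt]
    simp only [ZMod.val_zero, pow_zero]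
    have : twist (1 : ℂˣ) (jqModC ℂ) = jqModC ℂ := by
      ext n
      simp [twist, twistFun]
    rw [this]
    simp
  have hZ : (modPoly r).eval₂ (evZ (qExpand ℤ r (jqModC ℤ))) (jqModC ℤ) = 0 := by
    apply coeffMap_injective (Int.castRingHom ℂ) (RingHom.injective_int _)
    rw [Polynomial.hom_eval₂, ringHom_comp_evZ, coeffMap_qExpand, coeffMap_jqModC, hC, map_zero]
  have h := congrArg (coeffMap (Int.castRingHom R)) hZ
  rwa [Polynomial.hom_eval₂, ringHom_comp_evZ, coeffMap_qExpand, coeffMap_jqModC, map_zero] at h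

theorem modPoly_eval_jr (R : Type*) [CommRing R] :
    (modPoly r).eval₂ (evZ (jqModC R)) (qExpand R r (jqModC R)) = 0 := by
  have hC : (modPoly r).eval₂ (evZ (qExpand ℂ r (jqModC ℂ)))
      (qExpand ℂ r (qExpand ℂ r (jqModC ℂ))) = 0 := by
    rw [← Polynomial.eval_map, modPoly_map r (zr_prim r), rtPoly, Polynomial.eval_prod]
    apply Finset.prod_eq_zero (Finset.mem_univ (none : Option (ZMod r)))
    rw [rt]
    simp
  have hC' : (modPoly r).eval₂ (evZ (jqModC ℂ)) (qExpand ℂ r (jqModC ℂ)) = 0 := by
    apply qExpand_injective (R := ℂ) r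
    rw [Polynomial.hom_eval₂, ringHom_comp_evZ, hC, map_zero]
  have hZ : (modPoly r).eval₂ (evZ (jqModC ℤ)) (qExpand ℤ r (jqModC ℤ)) = 0 := by
    apply coeffMap_injective (Int.castRingHom ℂ) (RingHom.injective_int _)
    rw [Polynomial.hom_eval₂, ringHom_comp_evZ, coeffMap_qExpand, coeffMap_jqModC, hC', map_zero]
  have h := congrArg (coeffMap (Int.castRingHom R)) hZ
  rwa [Polynomial.hom_eval₂, ringHom_comp_evZ, coeffMap_qExpand, coeffMap_jqModC, map_zero] at h

end Poly

section Alg

variable {K Ω : Type*} [Field K] [Field Ω] [Algebra K Ω]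

/-- `x` is algebraic over `K(t)`. -/
def AlgOver (K : Type*) {Ω : Type*} [Field K] [Field Ω] [Algebra K Ω] (t x : Ω) : Prop :=
  IsAlgebraic K⟮t⟯ x

theorem AlgOver.of_monic {t x : Ω} {P : ℤ[X][X]} (hP : P.Monic) (h : P.eval₂ (evZ t) x = 0) :
    AlgOver K t x := by
  have ht : t ∈ K⟮t⟯ := mem_adjoin_simple_self K t
  apply IsIntegral.isAlgebraic
  refine ⟨P.map (evZ (⟨t, ht⟩ : K⟮t⟯)), hP.map _, ?_⟩
  rw [Polynomial.eval₂_map, ringHom_comp_evZ]
  exact h

/-- the relative algebraic closure of `K(t)` in `Ω` as an intermediate field of `Ω / K`. -/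
def algCl (K : Type*) {Ω : Type*} [Field K] [Field Ω] [Algebra K Ω] (t : Ω) :
    IntermediateField K Ω :=
  (algebraicClosure K⟮t⟯ Ω).restrictScalars K

theorem mem_algCl {t x : Ω} : x ∈ algCl K t ↔ AlgOver K t x := by
  rw [algCl, IntermediateField.mem_restrictScalars, mem_algebraicClosure_iff]
  rfl

theorem AlgOver.trans {t x y : Ω} (h1 : AlgOver K t x) (h2 : AlgOver K x y) : AlgOver K t y := by
  have hx : x ∈ algCl K t := mem_algCl.mpr h1
  have hle : K⟮x⟯ ≤ algCl K t := by
    rw [IntermediateField.adjoin_simple_le_iff]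
    exact hx
  -- `y` is algebraic over the algebraic closure
  have h3 : IsAlgebraic (algebraicClosure K⟮t⟯ Ω) y := by
    obtain ⟨p, hp0, hp⟩ := h2
    let ι : K⟮x⟯ →+* (algebraicClosure K⟮t⟯ Ω) :=
      { toFun := fun z => ⟨(z : Ω), hle z.2⟩
        map_one' := rfl
        map_mul' := fun _ _ => rfl
        map_zero' := rfl
        map_add' := fun _ _ => rfl }
    refine ⟨p.map ι, ?_, ?_⟩
    · rwa [Ne, Polynomial.map_eq_zero]
    · rw [Polynomial.aeval_def, Polynomial.eval₂_map]
      exact hp
  have h4 : IsAlgebraic K⟮t⟯ y := IsAlgebraic.restrictScalars K⟮t⟯ h3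
  exact h4

end Alg

section JD

variable (K : Type*) [Field K]

theorem algOver_j_jd (d : ℕ) [NeZero d] :
    AlgOver K (jqModC K) (qExpand K d (jqModC K)) ∧
      AlgOver K (qExpand K d (jqModC K)) (jqModC K) := by
  have main : ∀ (d : ℕ) (hd : NeZero d), AlgOver K (jqModC K) (qExpand K d (jqModC K)) ∧
      AlgOver K (qExpand K d (jqModC K)) (jqModC K) := by
    intro d
    induction d using Nat.recOnMul with
    | zero => intro h; exact absurd rfl h.out
    | one =>
      intro _
      rw [qExpand_one_apply]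
      have : AlgOver K (jqModC K) (jqModC K) := by
        have ht := mem_adjoin_simple_self K (jqModC K)
        exact isAlgebraic_algebraMap (⟨_, ht⟩ : K⟮jqModC K⟯)
      exact ⟨this, this⟩
    | prime p hp =>
      intro _
      haveI : Fact p.Prime := ⟨hp⟩
      exact ⟨AlgOver.of_monic (modPoly_monic p) (modPoly_eval_jr p K),
        AlgOver.of_monic (modPoly_monic p) (modPoly_eval_j p K)⟩
    | mul a b ha hb =>
      intro hab
      haveI ha0 : NeZero a := ⟨fun h => hab.out (by rw [h, zero_mul])⟩
      haveI hb0 : NeZero b := ⟨fun h => hab.out (by rw [h, mul_zero])⟩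
      obtain ⟨ha1, ha2⟩ := ha ha0
      obtain ⟨hb1, hb2⟩ := hb hb0
      -- apply `qExpand a` to the relations for `b`
      have hmap : ∀ {t x : LaurentSeries K}, AlgOver K t x →
          AlgOver K (qExpand K a t) (qExpand K a x) := by
        intro t x h
        obtain ⟨p, hp0, hp⟩ := h
        have hle : ∀ z ∈ K⟮t⟯, qExpand K a z ∈ K⟮qExpand K a t⟯ := by
          intro z hz
          have h1 : qExpandAlgHomC K a z ∈ (K⟮t⟯).map (qExpandAlgHomC K a) := ⟨z, hz, rfl⟩
          rw [IntermediateField.adjoin_map, Set.image_singleton] at h1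
          exact h1
        let ι : K⟮t⟯ →+* K⟮qExpand K a t⟯ :=
          { toFun := fun z => ⟨qExpand K a z, hle z z.2⟩
            map_one' := Subtype.ext (map_one _)
            map_mul' := fun _ _ => Subtype.ext (map_mul _ _ _)
            map_zero' := Subtype.ext (map_zero _)
            map_add' := fun _ _ => Subtype.ext (map_add _ _ _) }
        refine ⟨p.map ι, ?_, ?_⟩
        · rwa [Ne, Polynomial.map_eq_zero]
        · rw [Polynomial.aeval_def, Polynomial.eval₂_map]
          have h2 := congrArg (qExpand K a) hp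
          rw [Polynomial.aeval_def, Polynomial.hom_eval₂, map_zero] at h2
          exact h2
      have hb1' := hmap hb1
      have hb2' := hmap hb2
      have hq : qExpand K a (qExpand K b (jqModC K)) = qExpand K (a * b) (jqModC K) :=
        qExpand_qExpand b a (jqModC K)
      rw [hq] at hb1' hb2'
      exact ⟨ha1.trans hb1', hb2'.trans ha2⟩
  exact main d inferInstance

end JD

section Transfer

variable {K Ω₁ Ω₂ : Type*} [Field K] [Field Ω₁] [Field Ω₂] [Algebra K Ω₁] [Algebra K Ω₂]

/-- `K(t) ≃ K(f t)` -/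
def simpleEquiv (f : Ω₁ →ₐ[K] Ω₂) (t : Ω₁) : K⟮t⟯ ≃ₐ[K] K⟮f t⟯ :=
  (equivMap K⟮t⟯ f).trans
    (equivOfEq (by rw [IntermediateField.adjoin_map, Set.image_singleton]))

theorem coe_simpleEquiv (f : Ω₁ →ₐ[K] Ω₂) (t : Ω₁) (z : K⟮t⟯) :
    (simpleEquiv f t z : Ω₂) = f z := rfl

theorem algOver_map_iff (f : Ω₁ →ₐ[K] Ω₂) {t x : Ω₁} :
    AlgOver K (f t) (f x) ↔ AlgOver K t x := by
  have hcomp : (algebraMap K⟮f t⟯ Ω₂).comp ((simpleEquiv f t : K⟮t⟯ ≃ₐ[K] K⟮f t⟯) : K⟮t⟯ →+* K⟮f t⟯) =
      (f : Ω₁ →+* Ω₂).comp (algebraMap K⟮t⟯ Ω₁) := by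
    ext z
    exact coe_simpleEquiv f t z
  constructor
  · intro h
    exact IsAlgebraic.of_ringHom_of_comp_eq
      (((simpleEquiv f t : K⟮t⟯ ≃ₐ[K] K⟮f t⟯) : K⟮t⟯ →+* K⟮f t⟯)) (f : Ω₁ →+* Ω₂) h
      (simpleEquiv f t).surjective (RingHom.injective _) hcomp
  · intro h
    exact IsAlgebraic.ringHom_of_comp_eq
      (((simpleEquiv f t : K⟮t⟯ ≃ₐ[K] K⟮f t⟯) : K⟮t⟯ →+* K⟮f t⟯)) (f : Ω₁ →+* Ω₂) h
      (simpleEquiv f t).injective hcomp

end Transfer

section ModularField

variable (K : Type*) [Field K]

/-- the base change of the modular function field -/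
theorem laurentBaseChange_full (L : Type*) [Field L] [Algebra ℚ L] (N : ℕ) :
    laurentBaseChange L (modularFunctionFieldFull N) = modularFunctionFieldFullC L N := by
  apply le_antisymm
  · rw [laurentBaseChange, IntermediateField.adjoin_le_iff]
    rintro _ ⟨y, hy, rfl⟩
    -- `coeffEmb` maps the generators into the target
    have hy' : y ∈ IntermediateField.adjoin ℚ (divisorExpansions N) := hy
    have h1 : ∀ z ∈ Subfield.closure (Set.range (algebraMap ℚ (LaurentSeries ℚ)) ∪
        divisorExpansions N), coeffEmb L z ∈ modularFunctionFieldFullC L N := by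
      intro z hz
      induction hz using Subfield.closure_induction with
      | mem z hz =>
        rcases hz with ⟨a, rfl⟩ | hz
        · have : coeffEmb L (algebraMap ℚ (LaurentSeries ℚ) a) =
              algebraMap L (LaurentSeries L) (algebraMap ℚ L a) := by
            rw [algebraMap_laurentSeries_eq_single, algebraMap_laurentSeries_eq_single, coeffEmb,
              coeffMap_single]
          rw [this]
          exact (modularFunctionFieldFullC L N).algebraMap_mem _
        · obtain ⟨d, hne, hdvd, rfl⟩ := hz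
          have : coeffEmb L (qExpand ℚ d jq) = qExpand L d (jqModC L) := by
            rw [coeffEmb, coeffMap_qExpand, ← jqModC_rat, coeffMap_jqModC]
          rw [this]
          exact jqModCd_mem_full L N hdvd
      | one => simp
      | add x y _ _ hx hy => simpa using add_mem hx hy
      | neg x _ hx => simpa using neg_mem hx
      | inv x _ hx => simpa using inv_mem hx
      | mul x y _ _ hx hy => simpa using mul_mem hx hy
    exact h1 y hy'
  · rw [modularFunctionFieldFullC, IntermediateField.adjoin_le_iff]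
    rintro x ⟨d, hne, hdvd, rfl⟩
    have : coeffEmb L (qExpand ℚ d jq) = qExpand L d (jqModC L) := by
      rw [coeffEmb, coeffMap_qExpand, ← jqModC_rat, coeffMap_jqModC]
    rw [← this]
    exact coeffEmb_mem_laurentBaseChange L (jqd_mem_full N hdvd)

theorem finite_divisorExpansionsC (N : ℕ) [NeZero N] : (divisorExpansionsC K N).Finite := by
  classical
  have : divisorExpansionsC K N ⊆
      (fun d : ℕ => if h : d = 0 then 0 else
        (haveI : NeZero d := ⟨h⟩; qExpand K d (jqModC K))) '' (N.divisors : Set ℕ) := by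
    rintro x ⟨d, hne, hdvd, rfl⟩
    refine ⟨d, ?_, ?_⟩
    · simp [hdvd, NeZero.ne N]
    · simp only [dif_neg hne.out]
  exact (N.divisors.finite_toSet.image _).subset this

instance essFiniteType_full (N : ℕ) [NeZero N] :
    Algebra.EssFiniteType K (modularFunctionFieldFullC K N) := by
  rw [IntermediateField.essFiniteType_iff]
  refine ⟨(finite_divisorExpansionsC K N).toFinset, ?_⟩
  rw [Set.Finite.coe_toFinset]
  rfl

theorem algOver_j_of_mem {N : ℕ} {x : LaurentSeries K} (hx : x ∈ modularFunctionFieldFullC K N) :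
    AlgOver K (jqModC K) x := by
  have hle : modularFunctionFieldFullC K N ≤ algCl K (jqModC K) := by
    rw [modularFunctionFieldFullC, IntermediateField.adjoin_le_iff]
    rintro x ⟨d, hne, hdvd, rfl⟩
    exact mem_algCl.mpr (algOver_j_jd K d).1
  exact mem_algCl.mp (hle hx)

theorem algOver_jd_of_mem {N : ℕ} (d : ℕ) [NeZero d] {x : LaurentSeries K}
    (hx : x ∈ modularFunctionFieldFullC K N) :
    AlgOver K (qExpand K d (jqModC K)) x :=
  (algOver_j_jd K d).2.trans (algOver_j_of_mem K hx)

variable {K} in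
theorem coeff_algebraMap_mul (c : K) (x : LaurentSeries K) (n : ℤ) :
    (algebraMap K (LaurentSeries K) c * x).coeff n = c * x.coeff n := by
  rw [algebraMap_laurentSeries_eq_single, HahnSeries.single_zero_mul_eq_smul,
    HahnSeries.coeff_smul, smul_eq_mul]

theorem transcendental_j : Transcendental K (jqModC K) := by
  rw [transcendental_iff]
  intro p hp
  by_contra hp0
  have h1 := congrArg (fun z : LaurentSeries K => z.coeff (-(p.natDegree : ℤ))) hp
  simp only [Polynomial.aeval_eq_sum_range, HahnSeries.coeff_zero] at h1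
  rw [HahnSeries.coeff_sum] at h1
  rw [Finset.sum_eq_single_of_mem p.natDegree (by simp)] at h1
  · rw [Algebra.smul_def, coeff_algebraMap_mul, coeff_jqModC_pow_self, mul_one] at h1
    exact hp0 (Polynomial.leadingCoeff_eq_zero.mp h1)
  · intro b hb hne
    rw [Algebra.smul_def, coeff_algebraMap_mul, coeff_jqModC_pow_of_lt, mul_zero]
    have : b < p.natDegree := lt_of_le_of_ne (Nat.lt_succ_iff.mp (Finset.mem_range.mp hb)) hne
    omega

theorem transcendental_jd (d : ℕ) [NeZero d] : Transcendental K (qExpand K d (jqModC K)) := by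
  intro h
  apply transcendental_j K
  have h1 : IsAlgebraic K (qExpandAlgHomC K d (jqModC K)) := h
  exact (isAlgebraic_algHom_iff (qExpandAlgHomC K d) (qExpand_injective (R := K) d)).mp h1

/-- `j(q^d)` as an element of the modular function field -/
def jF (N d : ℕ) [NeZero d] (hd : d ∣ N) : modularFunctionFieldFullC K N :=
  ⟨qExpand K d (jqModC K), jqModCd_mem_full K N hd⟩

theorem transcendental_jF (N d : ℕ) [NeZero d] (hd : d ∣ N) : Transcendental K (jF K N d hd) := by
  intro h
  apply transcendental_jd K d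
  exact (isAlgebraic_algHom_iff (modularFunctionFieldFullC K N).val
    (modularFunctionFieldFullC K N).val.injective).mpr h

instance isAlgebraic_jF (N d : ℕ) [NeZero d] (hd : d ∣ N) :
    Algebra.IsAlgebraic K⟮jF K N d hd⟯ (modularFunctionFieldFullC K N) := by
  refine ⟨fun x => ?_⟩
  exact (algOver_map_iff (modularFunctionFieldFullC K N).val).mp (algOver_jd_of_mem K d x.2)

instance finiteDimensional_jF (N : ℕ) [NeZero N] (d : ℕ) [NeZero d] (hd : d ∣ N) :
    FiniteDimensional K⟮jF K N d hd⟯ (modularFunctionFieldFullC K N) := by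
  haveI : Algebra.EssFiniteType K⟮jF K N d hd⟯ (modularFunctionFieldFullC K N) :=
    Algebra.EssFiniteType.of_comp K K⟮jF K N d hd⟯ (modularFunctionFieldFullC K N)
  exact Algebra.finite_of_essFiniteType_of_isAlgebraic

end ModularField

end Fermat.Agent.H05
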