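import Fermat.Agent.H05.FinalLocal
import Fermat.Agent.H28.AllLevels
import Fermat.Agent.H29.GR
import Fermat.Agent.H27.KeyH28
import Fermat.Agent.H27.HauptEx
import Fermat.Agent.H11Q.Packs
import Fermat.Agent.Q.ToricAll

/-!
# The geometric inputs: good reduction, Eichler–Shimura relation, toric part
-/

set_option autoImplicit false
set_option linter.style.haveILetI false
set_option maxSynthPendingDepth 3

noncomputable section

open AlgebraicCurve ModularCurve CongruenceSubgroup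

namespace Fermat.Agent.H05

/-- the levels of good reduction -/
theorem goodLevel {M ℓ : ℕ} [NeZero M] {A : ValuationSubring (AlgebraicClosure ℚ)}
    (hℓ : ℓ.Prime) (hA : A.LiesOverPrime ℓ) (hyp : H26.Hyp M ℓ) : H28.GoodLevel M ℓ A where
  h₁ := H29.isChart_j hℓ hA hyp
  h₂ := H29.isChart_jinv hℓ hA hyp
  key m hm := by
    obtain ⟨H⟩ := H27.hauptLevel_exists hℓ hA hyp
    exact H27.keyLemma_of_haupt hℓ hA H _ hm

theorem goodHyp : GoodHyp := by
  intro p hp M _ m q hq hyp hqp A hA τ hτ x hx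
  have K := H28.redKernel_of_goodLevel hq hyp.1 hA (goodLevel hq hA hyp)
  have hqm : ¬ q ∣ p ^ m := fun h =>
    hqp ((Nat.prime_dvd_prime_iff_eq hq hp).mp (hq.dvd_of_dvd_pow h))
  refine sub_eq_zero.mp (K.torsion (p ^ m) hqm _ (K.inertia τ hτ x) ?_)
  have h1 := map_nsmul (DistribSMul.toAddMonoidHom (JZero M) τ) (p ^ m) x
  rw [hx, map_zero] at h1
  rw [smul_sub, hx, sub_zero]
  exact h1.symm

theorem esHyp : ESHyp := by
  intro p hp M _ m ℓ hℓ hyp hℓp A hA φ hφ x hx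
  have K := H28.redKernel_of_goodLevel hℓ hyp.1 hA (goodLevel hℓ hA hyp)
  have hqm : ¬ ℓ ∣ p ^ m := fun h =>
    hℓp ((Nat.prime_dvd_prime_iff_eq hℓ hp).mp (hℓ.dvd_of_dvd_pow h))
  refine K.torsion (p ^ m) hqm _ (K.relation φ hφ x) ?_
  have h1 : ∀ y : JZero M, (p ^ m) • y = 0 → (p ^ m) • φ • y = 0 := fun y hy => by
    have h2 := map_nsmul (DistribSMul.toAddMonoidHom (JZero M) φ) (p ^ m) y
    rw [hy, map_zero] at h2
    exact h2.symm
  have h3 : (p ^ m) • heckeOperatorBar M ⟨ℓ, hℓ⟩ (φ • x) = 0 := by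
    rw [← map_nsmul, h1 x hx, map_zero]
  have h4 : (p ^ m) • ℓ • x = 0 := by
    rw [smul_comm, hx, smul_zero]
  rw [smul_add, smul_sub, h1 _ (h1 x hx), h3, h4, sub_zero, add_zero]

theorem toricHyp : ToricHyp := by
  intro p hp q _ hqp M _ h hyp m A hA
  have hq : q.Prime := Fact.out
  have hqm : ¬ q ∣ p ^ m := fun h =>
    hqp ((Nat.prime_dvd_prime_iff_eq hq hp).mp (hq.dvd_of_dvd_pow h))
  obtain ⟨lp⟩ := H11Q.hasPacks hq hA M h (hyp.2.imp And.left And.left)
  exact ⟨fun τ hτ x hx => Q.inertia_smul_of_mem_TSub h hA lp hqm hx hτ,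
    fun φ hφ x hx => Q.frobenius_sq_smul_of_mem_TSub h hA lp hqm hx hφ⟩

theorem heckeGaloisInput {p : ℕ} (hp : p.Prime) (N : ℕ) [NeZero N] (S : Set ℕ) :
    HeckeGaloisInput p N S := heckeGaloisInput_of_geom goodHyp esHyp hp N S

end Fermat.Agent.H05
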