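import Fermat.Agent.H05.GalHecke
import Fermat.Agent.FF.T2

/-!
# The base change formula for correspondences and functoriality along towers
-/

set_option autoImplicit false
set_option linter.style.haveILetI false
set_option linter.unusedSectionVars false
set_option maxSynthPendingDepth 3

noncomputable section

open AlgebraicCurve ModularCurve

namespace Fermat.Agent.H05

section Norm

variable {F F₁ F₂ F' : Type*} [Field F] [Field F₁] [Field F₂] [Field F']
  [Algebra F F₂] [Algebra F₁ F']

/-- Compatibility of the norm with base change (matrix form). -/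
theorem norm_baseChange (φ : F →+* F₁) (v : F₂ →+* F')
    (hcomm : ∀ x, algebraMap F₁ F' (φ x) = v (algebraMap F F₂ x))
    [FiniteDimensional F F₂] [FiniteDimensional F₁ F']
    (hgen : ∀ S : Subfield F', (∀ x, algebraMap F₁ F' x ∈ S) → (∀ y, v y ∈ S) → S = ⊤)
    (hdeg : Module.finrank F₁ F' = Module.finrank F F₂) (f : F₂) :
    Algebra.norm F₁ (v f) = φ (Algebra.norm F f) := by
  classical
  let b := Module.finBasis F F₂
  let A : Subalgebra F₁ F' := Algebra.adjoin F₁ (Set.range v)
  have hAfield : IsField A := Subalgebra.isField_of_algebraic A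
  have hAtop : A = ⊤ := by
    let S : Subfield F' :=
      { A.toSubring with
        inv_mem' := fun x hx => by
          by_cases hx0 : x = 0
          · rw [hx0, inv_zero]; exact A.zero_mem
          · obtain ⟨y, hy⟩ := hAfield.mul_inv_cancel (a := (⟨x, hx⟩ : A))
              (fun h => hx0 (congrArg Subtype.val h))
            have h2 : x * (y : F') = 1 := congrArg Subtype.val hy
            have h3 : x⁻¹ = (y : F') := by
              field_simp
              exact h2.symm
            change x⁻¹ ∈ A
            rw [h3]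
            exact y.2 }
    have h1 := hgen S (fun x => A.algebraMap_mem x)
      (fun y => Algebra.subset_adjoin (Set.mem_range_self y))
    rw [eq_top_iff]
    intro x _
    have : x ∈ S := by rw [h1]; exact Subfield.mem_top x
    exact this
  have hspan : ⊤ ≤ Submodule.span F₁ (Set.range (fun i => v (b i))) := by
    have h1 : Subalgebra.toSubmodule A = Submodule.span F₁ (Set.range v) := by
      change Subalgebra.toSubmodule (Algebra.adjoin F₁ (Set.range v)) = _
      rw [Algebra.adjoin_eq_span]
      congr 1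
      have : (Set.range v) = (MonoidHom.mrange (v : F₂ →* F') : Set F') := by
        ext x; simp
      rw [this, Submonoid.closure_eq]
    have h2 : (⊤ : Submodule F₁ F') = Submodule.span F₁ (Set.range v) := by
      rw [← h1, hAtop, Algebra.top_toSubmodule]
    rw [h2, Submodule.span_le]
    rintro _ ⟨y, rfl⟩
    have h3 : y = ∑ i, (b.repr y i) • b i := (b.sum_repr y).symm
    rw [h3, map_sum]
    refine Submodule.sum_mem _ fun i _ => ?_
    rw [Algebra.smul_def, map_mul, ← hcomm, ← Algebra.smul_def]
    exact Submodule.smul_mem _ _ (Submodule.subset_span ⟨i, rfl⟩)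
  let B : Module.Basis (Fin (Module.finrank F F₂)) F₁ F' :=
    basisOfTopLeSpanOfCardEqFinrank (fun i => v (b i)) hspan (by rw [Fintype.card_fin, hdeg])
  have hB : ∀ i, B i = v (b i) := fun i => by
    simp [B]
  rw [Algebra.norm_eq_matrix_det b, Algebra.norm_eq_matrix_det B, RingHom.map_det]
  congr 1
  ext i j
  rw [RingHom.mapMatrix_apply, Matrix.map_apply, Algebra.leftMulMatrix_eq_repr_mul,
    Algebra.leftMulMatrix_eq_repr_mul, hB]
  have h4 : v f * v (b j) = ∑ i, φ (b.repr (f * b j) i) • B i := by
    rw [← map_mul]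
    conv_lhs => rw [← b.sum_repr (f * b j), map_sum]
    refine Finset.sum_congr rfl fun i _ => ?_
    rw [Algebra.smul_def, map_mul, ← hcomm, ← Algebra.smul_def, hB]
  rw [h4, map_sum, Finsupp.finsetSum_apply]
  simp [Finsupp.single_apply]

end Norm

section Tower

variable {K F F₁ F₂ : Type*} [Field K] [Field F] [Field F₁] [Field F₂] [Algebra K F]
  [Algebra K F₁] [Algebra K F₂]

variable (φ : F →ₐ[K] F₁) (ψ : F₁ →ₐ[K] F₂) (hφ : φ.toRingHom.IsIntegral)
  (hψ : ψ.toRingHom.IsIntegral) (hψφ : (ψ.comp φ).toRingHom.IsIntegral)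

theorem restrictAlong_comp (w : Place K F₂) :
    w.restrictAlong (ψ.comp φ) hψφ = (w.restrictAlong ψ hψ).restrictAlong φ hφ := by
  apply Place.ext
  rfl

include hφ in
theorem ramificationIndexAlong_comp (w : Place K F₂) :
    w.ramificationIndexAlong (ψ.comp φ) =
      w.ramificationIndexAlong ψ * (w.restrictAlong ψ hψ).ramificationIndexAlong φ := by
  have hψφ : (ψ.comp φ).toRingHom.IsIntegral := RingHom.IsIntegral.trans _ _ hφ hψ
  obtain ⟨t, ht0, ht⟩ := H18.exists_ord_eq_one (w.restrictAlong (ψ.comp φ) hψφ)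
  have h1 := Place.ord_restrictAlong (ψ.comp φ) hψφ w t
  have h2 := Place.ord_restrictAlong ψ hψ w (φ t)
  have h3 := Place.ord_restrictAlong φ hφ (w.restrictAlong ψ hψ) t
  rw [← restrictAlong_comp φ ψ hφ hψ hψφ] at h3
  rw [ht] at h1 h3
  have h4 : (ψ.comp φ) t = ψ (φ t) := rfl
  rw [h4, h2, h3] at h1
  have : ((w.ramificationIndexAlong (ψ.comp φ) : ℕ) : ℤ) =
      ((w.ramificationIndexAlong ψ * (w.restrictAlong ψ hψ).ramificationIndexAlong φ : ℕ) : ℤ) := by
    push_cast
    linarith
  exact_mod_cast this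

theorem deg_restrictAlong_mul (w : Place K F₁) :
    (w.restrictAlong φ hφ).deg * w.inertiaDegAlong φ hφ = w.deg := by
  letI := algebraAlong φ
  haveI := isScalarTower_along φ
  haveI := isIntegral_along φ hφ
  exact w.deg_restrict_mul_inertiaDeg (F := F)

theorem inertiaDegAlong_comp (w : Place K F₂) (hw : w.deg ≠ 0) :
    w.inertiaDegAlong (ψ.comp φ) hψφ =
      w.inertiaDegAlong ψ hψ * (w.restrictAlong ψ hψ).inertiaDegAlong φ hφ := by
  have h1 := deg_restrictAlong_mul (ψ.comp φ) hψφ w
  have h2 := deg_restrictAlong_mul ψ hψ w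
  have h3 := deg_restrictAlong_mul φ hφ (w.restrictAlong ψ hψ)
  rw [restrictAlong_comp φ ψ hφ hψ hψφ] at h1
  have h4 : ((w.restrictAlong ψ hψ).restrictAlong φ hφ).deg ≠ 0 := by
    intro h0
    rw [h0, zero_mul] at h1
    exact hw h1.symm
  have h5 : ((w.restrictAlong ψ hψ).restrictAlong φ hφ).deg *
      w.inertiaDegAlong (ψ.comp φ) hψφ =
      ((w.restrictAlong ψ hψ).restrictAlong φ hφ).deg *
      (w.inertiaDegAlong ψ hψ * (w.restrictAlong ψ hψ).inertiaDegAlong φ hφ) := by
    rw [h1, ← h2, ← h3]
    ring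
  exact Nat.eq_of_mul_eq_mul_left (Nat.pos_of_ne_zero h4) h5

theorem pullbackAlong_comp [HasPrincipalDivisors K F₁] [HasPrincipalDivisors K F₂]
    (D : Divisor K F) :
    Divisor.pullbackAlong (ψ.comp φ) hψφ D =
      Divisor.pullbackAlong ψ hψ (Divisor.pullbackAlong φ hφ D) := by
  ext w
  rw [Divisor.pullbackAlong_apply, Divisor.pullbackAlong_apply, Divisor.pullbackAlong_apply,
    ramificationIndexAlong_comp φ ψ hφ hψ, restrictAlong_comp φ ψ hφ hψ]
  push_cast
  ring

theorem pushforwardAlong_comp (hd : ∀ w : Place K F₂, w.deg ≠ 0) (D : Divisor K F₂) :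
    Divisor.pushforwardAlong (ψ.comp φ) hψφ D =
      Divisor.pushforwardAlong φ hφ (Divisor.pushforwardAlong ψ hψ D) := by
  induction D using Finsupp.induction with
  | zero => simp
  | single_add w n D hw hn ih =>
    rw [map_add, map_add, map_add, ih, Divisor.pushforwardAlong_single,
      Divisor.pushforwardAlong_single, Divisor.pushforwardAlong_single,
      restrictAlong_comp φ ψ hφ hψ, inertiaDegAlong_comp φ ψ hφ hψ hψφ w (hd w)]
    congr 2
    push_cast
    ring

end Tower

section BC

variable {K F F₁ F₂ F' : Type*} [Field K] [Field F] [Field F₁] [Field F₂] [Field F']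
  [Algebra K F] [Algebra K F₁] [Algebra K F₂] [Algebra K F']

theorem pushforwardAlong_apply_eq_zero (φ : F →ₐ[K] F₁) (hφ : φ.toRingHom.IsIntegral)
    (D : Divisor K F₁) (v : Place K F)
    (h : ∀ w : Place K F₁, w.restrictAlong φ hφ = v → D w = 0) :
    Divisor.pushforwardAlong φ hφ D v = 0 := by
  classical
  letI := algebraAlong φ
  haveI := isScalarTower_along φ
  haveI := isIntegral_along φ hφ
  change Divisor.pushforward F D v = 0
  rw [Divisor.pushforward_apply]
  refine Finset.sum_eq_zero fun w _ => ?_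
  split_ifs with hw
  · rw [h w hw, zero_mul]
  · rfl

theorem pushforwardAlong_eq_ord (φ : F →ₐ[K] F₁) (hφ : φ.toRingHom.IsIntegral)
    (hfin : FiniteAlong K φ) (hN : NormFormulaAlong K φ hfin) (D : Divisor K F₁) (f : F₁)
    (hf : f ≠ 0) (hD : ∀ w : Place K F₁, D w = w.ord f) (v : Place K F) :
    Divisor.pushforwardAlong φ hφ D v = v.ord (normAlong φ f) := by
  letI := algebraAlong φ
  haveI := isScalarTower_along φ
  haveI := isIntegral_along φ hφ
  haveI : Module.Finite F F₁ := hfin
  exact hN f hf D hD v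

theorem pullbackAlong_eq_ord [HasPrincipalDivisors K F₁] (φ : F →ₐ[K] F₁)
    (hφ : φ.toRingHom.IsIntegral) (D : Divisor K F) (f : F)
    (hD : ∀ w : Place K F, D w = w.ord f) (v : Place K F₁) :
    Divisor.pullbackAlong φ hφ D v = v.ord (φ f) := by
  rw [Divisor.pullbackAlong_apply, Place.ord_restrictAlong φ hφ, hD]

variable (φ : F →ₐ[K] F₁) (ψ : F →ₐ[K] F₂) (u : F₁ →ₐ[K] F') (v : F₂ →ₐ[K] F')
  (hφ : φ.toRingHom.IsIntegral) (hψ : ψ.toRingHom.IsIntegral)
  (hu : u.toRingHom.IsIntegral) (hv : v.toRingHom.IsIntegral)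

theorem normAlong_baseChange (hcomm : u.comp φ = v.comp ψ)
    (hψf : FiniteAlong K ψ) (huf : FiniteAlong K u)
    (hgen : ∀ S : Subfield F', (∀ x, u x ∈ S) → (∀ y, v y ∈ S) → S = ⊤)
    (hdeg : finrankAlong K u = finrankAlong K ψ) (f : F₂) :
    normAlong u (v f) = φ (normAlong ψ f) := by
  letI := algebraAlong ψ
  letI := algebraAlong u
  haveI : Module.Finite F F₂ := hψf
  haveI : Module.Finite F₁ F' := huf
  exact norm_baseChange (φ : F →+* F₁) (v : F₂ →+* F')
    (fun x => congrArg (fun g : F →ₐ[K] F' => g x) hcomm) hgen hdeg f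

/-- **Base change formula** `φ^* ψ_* = u_* v^*` for linearly disjoint composita. -/
theorem baseChange_formula [HasPrincipalDivisors K F₁] [HasPrincipalDivisors K F₂]
    [HasPrincipalDivisors K F'] (hcomm : u.comp φ = v.comp ψ)
    (hψf : FiniteAlong K ψ) (huf : FiniteAlong K u)
    (hNψ : NormFormulaAlong K ψ hψf) (hNu : NormFormulaAlong K u huf)
    (hgen : ∀ S : Subfield F', (∀ x, u x ∈ S) → (∀ y, v y ∈ S) → S = ⊤)
    (hdeg : finrankAlong K u = finrankAlong K ψ) (D : Divisor K F₂) :
    Divisor.pullbackAlong φ hφ (Divisor.pushforwardAlong ψ hψ D) =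
      Divisor.pushforwardAlong u hu (Divisor.pullbackAlong v hv D) := by
  classical
  have hres : ∀ W : Place K F',
      (W.restrictAlong u hu).restrictAlong φ hφ = (W.restrictAlong v hv).restrictAlong ψ hψ := by
    intro W
    have h1 : (u.comp φ).toRingHom.IsIntegral := RingHom.IsIntegral.trans _ _ hφ hu
    have h2 : (v.comp ψ).toRingHom.IsIntegral := RingHom.IsIntegral.trans _ _ hψ hv
    rw [← restrictAlong_comp φ u hφ hu h1, ← restrictAlong_comp ψ v hψ hv h2]
    exact Place.restrictAlong_congr hcomm h1 h2 W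
  have hsingle : ∀ w₂ : Place K F₂,
      Divisor.pullbackAlong φ hφ (Divisor.pushforwardAlong ψ hψ (Finsupp.single w₂ 1)) =
      Divisor.pushforwardAlong u hu (Divisor.pullbackAlong v hv (Finsupp.single w₂ 1)) := by
    intro w₂
    set v₀ := w₂.restrictAlong ψ hψ with hv₀
    let S := Place.fiberAlong ψ hψ v₀
    obtain ⟨f, hf0, hf⟩ := FF.exists_ord_eq S (fun w => if w = w₂ then 1 else 0)
    obtain ⟨E, hE, -⟩ := HasPrincipalDivisors.exists_divisor (K := K) f hf0
    set E' := E - Finsupp.single w₂ 1 with hE'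
    have hE'S : ∀ w : Place K F₂, w.restrictAlong ψ hψ = v₀ → E' w = 0 := by
      intro w hw
      have hwS : w ∈ S := Place.mem_fiberAlong.mpr hw
      rw [hE', Finsupp.sub_apply, hE, hf w hwS, Finsupp.single_apply]
      by_cases h : w = w₂
      · rw [if_pos h, if_pos h.symm, sub_self]
      · rw [if_neg h, if_neg (fun h' => h h'.symm), sub_self]
    have hprinc : Divisor.pullbackAlong φ hφ (Divisor.pushforwardAlong ψ hψ E) =
        Divisor.pushforwardAlong u hu (Divisor.pullbackAlong v hv E) := by
      ext w₁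
      have hvf : v f ≠ 0 := (map_ne_zero_iff _ v.toRingHom.injective).mpr hf0
      rw [pullbackAlong_eq_ord φ hφ _ (normAlong ψ f)
        (fun w => pushforwardAlong_eq_ord ψ hψ hψf hNψ E f hf0 hE w),
        pushforwardAlong_eq_ord u hu huf hNu _ (v f) hvf
          (fun w => pullbackAlong_eq_ord v hv E f hE w),
        normAlong_baseChange φ ψ u v hcomm hψf huf hgen hdeg]
    ext w₁
    by_cases hw₁ : w₁.restrictAlong φ hφ = v₀
    · have h1 : Divisor.pullbackAlong φ hφ (Divisor.pushforwardAlong ψ hψ E') w₁ = 0 := by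
        rw [Divisor.pullbackAlong_apply, hw₁, pushforwardAlong_apply_eq_zero ψ hψ E' v₀ hE'S,
          mul_zero]
      have h2 : Divisor.pushforwardAlong u hu (Divisor.pullbackAlong v hv E') w₁ = 0 := by
        refine pushforwardAlong_apply_eq_zero u hu _ _ fun W hW => ?_
        rw [Divisor.pullbackAlong_apply, hE'S _ (by rw [← hres, hW, hw₁]), mul_zero]
      have h3 := congrArg (fun D : Divisor K F₁ => D w₁) hprinc
      have h4 : E = Finsupp.single w₂ 1 + E' := by rw [hE']; abel
      rw [h4] at h3
      simp only [map_add, Finsupp.add_apply, h1, h2, add_zero] at h3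
      exact h3
    · have h1 : Divisor.pullbackAlong φ hφ
          (Divisor.pushforwardAlong ψ hψ (Finsupp.single w₂ 1)) w₁ = 0 := by
        rw [Divisor.pullbackAlong_apply, Divisor.pushforwardAlong_single,
          Finsupp.single_apply, if_neg (fun h => hw₁ h.symm), mul_zero]
      have h2 : Divisor.pushforwardAlong u hu
          (Divisor.pullbackAlong v hv (Finsupp.single w₂ 1)) w₁ = 0 := by
        refine pushforwardAlong_apply_eq_zero u hu _ _ fun W hW => ?_
        rw [Divisor.pullbackAlong_apply, Finsupp.single_apply, if_neg, mul_zero]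
        intro h
        apply hw₁
        rw [← hW, hres, ← h]
      rw [h1, h2]
  induction D using Finsupp.induction with
  | zero => simp
  | single_add w n D hw hn ih =>
    rw [map_add, map_add, map_add, map_add, ih]
    congr 1
    have h1 : (Finsupp.single w n : Divisor K F₂) = n • Finsupp.single w 1 := by
      rw [Finsupp.smul_single, smul_eq_mul, mul_one]
    rw [h1, map_zsmul, map_zsmul, map_zsmul, map_zsmul, hsingle]

end BC

end Fermat.Agent.H05
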