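import Fermat.Agent.H05.Dictionary

/-!
# The norm formula and the fundamental identity
-/

set_option autoImplicit false
set_option linter.style.haveILetI false
set_option linter.unusedSectionVars false

noncomputable section

open AlgebraicCurve IsDedekindDomain WithZero IsLocalRing

namespace Fermat.Agent.H05

section Fiber

variable {K F F' : Type*} [Field K] [Field F] [Field F'] [Algebra K F] [Algebra K F']
  [Algebra F F'] [IsScalarTower K F F'] [Algebra.IsIntegral F F']

omit [Algebra.IsIntegral F F'] in
theorem coe_algebraMap_valuationSubring (v : Place K F) (x : v.toValuationSubring) :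
    algebraMap v.toValuationSubring F' x = algebraMap F F' (x : F) := rfl

theorem restrict_eq_of_le (v : Place K F) (w : Place K F')
    (h : ∀ x ∈ v.toValuationSubring, algebraMap F F' x ∈ w.toValuationSubring) :
    w.restrict F = v := by
  symm
  apply Place.ext
  refine ValuationSubring.eq_of_le_of_ne_top _ ?_ (w.restrict F).ne_top'
  intro x hx
  exact (Place.mem_restrict_iff w).mpr (h x hx)

theorem restrict_eq_iff (v : Place K F) (w : Place K F') :
    w.restrict F = v ↔
      ∀ b : integralClosure v.toValuationSubring F', (b : F') ∈ w.toValuationSubring := by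
  constructor
  · rintro rfl b
    have hb : IsIntegral (w.restrict F).toValuationSubring (b : F') := b.2
    let φ : (w.restrict F).toValuationSubring →+* w.toValuationSubring :=
      Place.restrictInclusion F w
    have hcomp : (algebraMap w.toValuationSubring F').comp φ =
        algebraMap (w.restrict F).toValuationSubring F' := by
      ext x; rfl
    have hb' : IsIntegral w.toValuationSubring (b : F') := by
      obtain ⟨p, hp, hpb⟩ := hb
      refine ⟨p.map φ, hp.map φ, ?_⟩
      rw [Polynomial.eval₂_map, hcomp]
      exact hpb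
    obtain ⟨y, hy⟩ := IsIntegrallyClosed.isIntegral_iff.mp hb'
    exact hy ▸ y.2
  · intro h
    apply restrict_eq_of_le
    intro x hx
    exact h ⟨algebraMap F F' x, isIntegral_algebraMap (R := v.toValuationSubring)
      (x := (⟨x, hx⟩ : v.toValuationSubring))⟩

end Fiber

section Sep

variable {K F F' : Type*} [Field K] [Field F] [Field F'] [Algebra K F] [Algebra K F']
  [Algebra F F'] [IsScalarTower K F F'] [FiniteDimensional F F']

variable (v : Place K F)

/-- the integral closure of `O_v` in `F'` -/
abbrev IC (F' : Type*) [Field F'] [Algebra F F'] (v : Place K F) :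
    Subalgebra v.toValuationSubring F' :=
  integralClosure v.toValuationSubring F'

instance instIsFractionRingIC : IsFractionRing (IC F' v) F' :=
  integralClosure.isFractionRing_of_finite_extension F F'

theorem isDedekindDomain_IC [Algebra.IsSeparable F F'] : IsDedekindDomain (IC F' v) :=
  integralClosure.isDedekindDomain v.toValuationSubring F F'

theorem finite_IC [Algebra.IsSeparable F F'] : Module.Finite v.toValuationSubring (IC F' v) :=
  IsIntegralClosure.finite v.toValuationSubring F F' (IC F' v)

instance instIsScalarTowerConstO : IsScalarTower K v.toValuationSubring F' := by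
  refine IsScalarTower.of_algebraMap_eq fun a => ?_
  rw [IsScalarTower.algebraMap_apply K F F']
  rfl

instance instAlgebraKIC : Algebra K (IC F' v) :=
  ((algebraMap v.toValuationSubring (IC F' v)).comp
    (algebraMap K v.toValuationSubring)).toAlgebra

instance instIsScalarTowerKIC : IsScalarTower K (IC F' v) F' := by
  refine IsScalarTower.of_algebraMap_eq fun a => ?_
  rw [IsScalarTower.algebraMap_apply K v.toValuationSubring F']
  rfl

instance isTorsionFreeOIC : Module.IsTorsionFree v.toValuationSubring (IC F' v) := by
  infer_instance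

variable [IsDedekindDomain (IC F' v)]

theorem restrict_ofHeightOneSpectrum (P : HeightOneSpectrum (IC F' v)) :
    (Place.ofHeightOneSpectrum (K := K) (F := F') P).restrict F = v := by
  rw [restrict_eq_iff]
  intro b
  exact algebraMap_mem_ofHeightOneSpectrum P b

instance liesOver_maximalIdeal (P : HeightOneSpectrum (IC F' v)) :
    P.asIdeal.LiesOver (maximalIdeal v.toValuationSubring) := by
  constructor
  have h1 : (P.asIdeal.under v.toValuationSubring).IsMaximal := by
    have := P.isPrime.isMaximal P.ne_bot
    infer_instance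
  exact (eq_maximalIdeal h1).symm

/-- places above `v` are the same as height one primes of the integral closure. -/
def fiberEquiv : HeightOneSpectrum (IC F' v) ≃ {w : Place K F' // w.restrict F = v} :=
  Equiv.ofBijective
    (fun P => ⟨Place.ofHeightOneSpectrum (K := K) (F := F') P, restrict_ofHeightOneSpectrum v P⟩)
    (by
      constructor
      · intro P Q h
        exact ofHeightOneSpectrum_injective (congrArg Subtype.val h)
      · rintro ⟨w, hw⟩
        obtain ⟨P, hP⟩ := exists_ofHeightOneSpectrum_eq (IC F' v) w ((restrict_eq_iff v w).mp hw)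
        exact ⟨P, Subtype.ext hP⟩)

@[simp]
theorem fiberEquiv_apply_coe (P : HeightOneSpectrum (IC F' v)) :
    (fiberEquiv v P : Place K F') = Place.ofHeightOneSpectrum (K := K) (F := F') P := rfl

theorem finite_heightOneSpectrum [Module.Finite v.toValuationSubring (IC F' v)] :
    Finite (HeightOneSpectrum (IC F' v)) := by
  have h0 : maximalIdeal v.toValuationSubring ≠ ⊥ :=
    IsDiscreteValuationRing.not_a_field v.toValuationSubring
  have hfin := IsDedekindDomain.primesOver_finite (maximalIdeal v.toValuationSubring) (IC F' v)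
  have := hfin.to_subtype
  refine Finite.of_injective (β := (maximalIdeal v.toValuationSubring).primesOver (IC F' v))
    (fun P => ⟨P.asIdeal, P.isPrime, liesOver_maximalIdeal v P⟩) ?_
  intro P Q h
  ext1
  exact congrArg Subtype.val h

omit [IsDedekindDomain (IC F' v)] in
/-- the reduction map `B → k(w)` -/
def icResidue (w : Place K F')
    (hw : ∀ b : IC F' v, algebraMap (IC F' v) F' b ∈ w.toValuationSubring) :
    IC F' v →+* w.ResidueField :=
  (residue _).comp ((algebraMap (IC F' v) F').codRestrict w.toValuationSubring.toSubring hw)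

omit [IsDedekindDomain (IC F' v)] in
theorem icResidue_apply (w : Place K F')
    (hw : ∀ b : IC F' v, algebraMap (IC F' v) F' b ∈ w.toValuationSubring) (b : IC F' v) :
    icResidue v w hw b = residue _ (⟨algebraMap (IC F' v) F' b, hw b⟩ : w.toValuationSubring) :=
  rfl

theorem residue_eq_zero_iff' (w : Place K F') (x : w.toValuationSubring) :
    residue _ x = 0 ↔ (x : F') = 0 ∨ 0 < w.ord (x : F') := by
  rw [residue_eq_zero_iff, mem_maximalIdeal, mem_nonunits_iff]
  constructor
  · intro h
    by_cases hx : (x : F') = 0
    · exact Or.inl hx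
    · right
      have h1 := H18.ord_nonneg_of_mem w x.2
      rcases h1.lt_or_eq with h2 | h2
      · exact h2
      · exfalso
        apply h
        rw [← w.adicValuation_coe_eq_one_iff, w.adicValuation_eq_exp_neg_ord hx, ← h2]
        simp
  · rintro (h | h) hu
    · have : x = 0 := Subtype.ext h
      rw [this] at hu
      exact not_isUnit_zero hu
    · have := w.ord_coe_unit hu.unit
      rw [IsUnit.unit_spec] at this
      omega

theorem ker_icResidue (P : HeightOneSpectrum (IC F' v)) (w : Place K F')
    (hw : ∀ b : IC F' v, algebraMap (IC F' v) F' b ∈ w.toValuationSubring)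
    (hP : Place.ofHeightOneSpectrum (K := K) (F := F') P = w) :
    RingHom.ker (icResidue v w hw) = P.asIdeal := by
  subst hP
  ext b
  rw [RingHom.mem_ker, icResidue_apply, residue_eq_zero_iff']
  by_cases hb : b = 0
  · subst hb
    simp
  · rw [mem_asIdeal_iff_ord_pos (K := K) (F := F') P hb]
    have hb' : algebraMap (IC F' v) F' b ≠ 0 :=
      (map_ne_zero_iff _ (IsFractionRing.injective (IC F' v) F')).mpr hb
    exact ⟨fun h => h.resolve_left hb', Or.inr⟩

theorem icResidue_surjective (P : HeightOneSpectrum (IC F' v)) (w : Place K F')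
    (hw : ∀ b : IC F' v, algebraMap (IC F' v) F' b ∈ w.toValuationSubring)
    (hP : Place.ofHeightOneSpectrum (K := K) (F := F') P = w) :
    Function.Surjective (icResidue v w hw) := by
  subst hP
  intro y
  obtain ⟨⟨x, hx⟩, rfl⟩ := residue_surjective y
  have hx' : x ∈ HeightOneSpectrum.valuationSubringAtPrime F' P := by
    rw [HeightOneSpectrum.valuationSubringAtPrime_eq_valuationSubring]
    exact hx
  obtain ⟨a, s, hs, hxas⟩ := hx'
  have hPm : P.asIdeal.IsMaximal := P.isMaximal
  have hs' : s ∉ P.asIdeal := hs
  obtain ⟨b, c, hc, hbc⟩ := hPm.exists_inv hs'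
  have hs0 : s ≠ 0 := by
    rintro rfl
    exact hs' (zero_mem _)
  have hs0' : algebraMap (IC F' v) F' s ≠ 0 :=
    (map_ne_zero_iff _ (IsFractionRing.injective (IC F' v) F')).mpr hs0
  refine ⟨a * b, ?_⟩
  rw [icResidue_apply, ← sub_eq_zero, ← map_sub, residue_eq_zero_iff']
  have hval : algebraMap (IC F' v) F' (a * b) - x =
      - (algebraMap (IC F' v) F' (a * c)) * (algebraMap (IC F' v) F' s)⁻¹ := by
    have h1 : algebraMap (IC F' v) F' b * algebraMap (IC F' v) F' s
        + algebraMap (IC F' v) F' c = 1 := by
      rw [← map_mul, ← map_add, hbc, map_one]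
    have hx2 : x = algebraMap (IC F' v) F' a * (algebraMap (IC F' v) F' s)⁻¹ := hxas
    rw [hx2, map_mul, map_mul]
    field_simp
    linear_combination (algebraMap (IC F' v) F' a) * h1
  change algebraMap (IC F' v) F' (a * b) - x = 0 ∨
    0 < (Place.ofHeightOneSpectrum (K := K) (F := F') P).ord
      (algebraMap (IC F' v) F' (a * b) - x)
  rw [hval]
  by_cases hac : a * c = 0
  · left; rw [hac]; simp
  · right
    have hac' : algebraMap (IC F' v) F' (a * c) ≠ 0 :=
      (map_ne_zero_iff _ (IsFractionRing.injective (IC F' v) F')).mpr hac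
    have hc' : 0 < (Place.ofHeightOneSpectrum (K := K) (F := F') P).ord
        (algebraMap (IC F' v) F' (a * c)) := by
      rw [← mem_asIdeal_iff_ord_pos (K := K) (F := F') P hac]
      exact Ideal.mul_mem_left _ _ hc
    have hs1 : (Place.ofHeightOneSpectrum (K := K) (F := F') P).ord
        (algebraMap (IC F' v) F' s) = 0 := by
      have h2 := mem_asIdeal_iff_ord_pos (K := K) (F := F') P hs0
      have h3 := H18.ord_nonneg_of_mem _ (algebraMap_mem_ofHeightOneSpectrum (K := K) (F := F') P s)
      by_contra hne
      exact hs' (h2.mpr (lt_of_le_of_ne h3 (Ne.symm hne)))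
    rw [Place.ord_mul _ (neg_ne_zero.mpr hac') (inv_ne_zero hs0'), H18.ord_neg, Place.ord_inv, hs1]
    simpa using hc'

theorem inertiaDeg_eq' (P : HeightOneSpectrum (IC F' v)) :
    (Place.ofHeightOneSpectrum (K := K) (F := F') P).inertiaDeg F =
      P.asIdeal.inertiaDeg v.toValuationSubring := by
  obtain ⟨w, hw⟩ : ∃ w, Place.ofHeightOneSpectrum (K := K) (F := F') P = w := ⟨_, rfl⟩
  have hwv : w.restrict F = v := by rw [← hw]; exact restrict_ofHeightOneSpectrum v P
  rw [hw]
  subst hwv
  have hPm : P.asIdeal.IsMaximal := P.isMaximal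
  rw [Ideal.inertiaDeg_eq_of_isMaximal (maximalIdeal (w.restrict F).toValuationSubring) P.asIdeal,
    Place.inertiaDeg]
  symm
  have hw' : ∀ b : IC F' (w.restrict F), algebraMap (IC F' (w.restrict F)) F' b ∈
      w.toValuationSubring := by
    have := algebraMap_mem_ofHeightOneSpectrum (K := K) (F := F') P
    rwa [hw] at this
  let j : (IC F' (w.restrict F) ⧸ P.asIdeal) ≃+* w.ResidueField :=
    (Ideal.quotEquivOfEq (ker_icResidue _ P w hw' hw).symm).trans
      (RingHom.quotientKerEquivOfSurjective (icResidue_surjective _ P w hw' hw))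
  refine Algebra.finrank_eq_of_equiv_equiv (RingEquiv.refl _) j ?_
  ext x
  rfl

/-- the order of an element generating a power of the maximal ideal. -/
theorem ord_of_span_eq (c : v.toValuationSubring) (k : ℕ)
    (h : Ideal.span {c} = maximalIdeal v.toValuationSubring ^ k) : v.ord (c : F) = k := by
  obtain ⟨π, hπ⟩ := IsDiscreteValuationRing.exists_irreducible v.toValuationSubring
  rw [hπ.maximalIdeal_eq, Ideal.span_singleton_pow, Ideal.span_singleton_eq_span_singleton] at h
  obtain ⟨u, hu⟩ := h.symm
  rw [← hu]
  have := v.ord_unit_smul_zpow u hπ k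
  rw [← this, mul_comm]
  congr 1
  push_cast
  rw [zpow_natCast]

/-- the exponent of the norm of a prime ideal -/
def normExp (P : HeightOneSpectrum (IC F' v)) [Module.Finite v.toValuationSubring (IC F' v)] :
    ℕ :=
  (Ideal.exists_relNorm_eq_pow_of_isPrime P.asIdeal (maximalIdeal v.toValuationSubring)).choose

theorem relNorm_eq_normExp (P : HeightOneSpectrum (IC F' v))
    [Module.Finite v.toValuationSubring (IC F' v)] :
    Ideal.relNorm v.toValuationSubring P.asIdeal =
      maximalIdeal v.toValuationSubring ^ normExp v P :=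
  (Ideal.exists_relNorm_eq_pow_of_isPrime P.asIdeal
    (maximalIdeal v.toValuationSubring)).choose_spec

theorem sum_normExp_of_integral [Fintype (HeightOneSpectrum (IC F' v))]
    [Module.Finite v.toValuationSubring (IC F' v)]
    (b : IC F' v) (hb : b ≠ 0) :
    ∑ P : HeightOneSpectrum (IC F' v), (normExp v P : ℤ) *
      (Place.ofHeightOneSpectrum (K := K) (F := F') P).ord (algebraMap (IC F' v) F' b) =
      v.ord (Algebra.norm F (algebraMap (IC F' v) F' b)) := by
  have h1 : Ideal.relNorm v.toValuationSubring (Ideal.span {b}) =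
      maximalIdeal v.toValuationSubring ^
        (∑ P : HeightOneSpectrum (IC F' v), normExp v P *
          (Associates.mk P.asIdeal).count (Associates.mk (Ideal.span {b})).factors) := by
    have hb0 : Ideal.span {b} ≠ 0 := by
      rwa [Ne, Ideal.zero_eq_bot, Ideal.span_singleton_eq_bot]
    conv_lhs => rw [← Ideal.finprod_heightOneSpectrum_factorization hb0]
    rw [finprod_eq_prod_of_fintype, map_prod, ← Finset.prod_pow_eq_pow_sum]
    refine Finset.prod_congr rfl fun P _ => ?_
    rw [HeightOneSpectrum.maxPowDividing, map_pow, relNorm_eq_normExp, ← pow_mul]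
  rw [Ideal.relNorm_singleton] at h1
  have h2 := ord_of_span_eq v _ _ h1
  have h3 : ((Algebra.intNorm v.toValuationSubring (IC F' v) b : v.toValuationSubring) : F) =
      Algebra.norm F (algebraMap (IC F' v) F' b) :=
    Algebra.algebraMap_intNorm (A := v.toValuationSubring) (K := F) (L := F') (B := IC F' v) b
  rw [← h3, h2]
  push_cast
  refine Finset.sum_congr rfl fun P _ => ?_
  rw [ord_ofHeightOneSpectrum_algebraMap (K := K) (F := F') P hb]

theorem sum_normExp [Fintype (HeightOneSpectrum (IC F' v))]
    [Module.Finite v.toValuationSubring (IC F' v)] (f : F') (hf : f ≠ 0) :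
    ∑ P : HeightOneSpectrum (IC F' v), (normExp v P : ℤ) *
      (Place.ofHeightOneSpectrum (K := K) (F := F') P).ord f = v.ord (Algebra.norm F f) := by
  obtain ⟨a, s, hs, rfl⟩ := IsFractionRing.div_surjective (A := IC F' v) f
  have hs0 : s ≠ 0 := nonZeroDivisors.ne_zero hs
  have ha0 : a ≠ 0 := by
    rintro rfl
    simp at hf
  have hs1 : algebraMap (IC F' v) F' s ≠ 0 :=
    (map_ne_zero_iff _ (IsFractionRing.injective (IC F' v) F')).mpr hs0
  have ha1 : algebraMap (IC F' v) F' a ≠ 0 :=
    (map_ne_zero_iff _ (IsFractionRing.injective (IC F' v) F')).mpr ha0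
  have hsN : Algebra.norm F (algebraMap (IC F' v) F' s) ≠ 0 := Algebra.norm_ne_zero_iff.mpr hs1
  have haN : Algebra.norm F (algebraMap (IC F' v) F' a) ≠ 0 := Algebra.norm_ne_zero_iff.mpr ha1
  rw [div_eq_mul_inv, map_mul, Algebra.norm_inv, v.ord_mul haN (inv_ne_zero hsN), v.ord_inv,
    ← sum_normExp_of_integral v a ha0, ← sum_normExp_of_integral v s hs0, ← Finset.sum_neg_distrib,
    ← Finset.sum_add_distrib]
  refine Finset.sum_congr rfl fun P _ => ?_
  rw [Place.ord_mul _ ha1 (inv_ne_zero hs1), Place.ord_inv]
  ring

theorem normExp_eq_inertiaDeg_of_charZero [CharZero F] (P : HeightOneSpectrum (IC F' v))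
    [Module.Finite v.toValuationSubring (IC F' v)] :
    normExp v P = (Place.ofHeightOneSpectrum (K := K) (F := F') P).inertiaDeg F := by
  rw [inertiaDeg_eq']
  have hPm : P.asIdeal.IsMaximal := P.isMaximal
  have : CharZero v.toValuationSubring := by
    refine ⟨fun m n h => ?_⟩
    have := congrArg (Subtype.val) h
    simpa using this
  have : CharZero (FractionRing v.toValuationSubring) :=
    charZero_of_injective_algebraMap
      (IsFractionRing.injective v.toValuationSubring (FractionRing v.toValuationSubring))
  have h1 := Ideal.relNorm_eq_pow_of_isMaximal P.asIdeal (maximalIdeal v.toValuationSubring)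
  rw [relNorm_eq_normExp] at h1
  have h0 : maximalIdeal v.toValuationSubring ≠ ⊥ :=
    IsDiscreteValuationRing.not_a_field v.toValuationSubring
  exact (Ideal.pow_right_strictAnti _ h0 (Ideal.IsPrime.ne_top inferInstance)).injective h1

theorem normExp_pos (P : HeightOneSpectrum (IC F' v))
    [Module.Finite v.toValuationSubring (IC F' v)] : 0 < normExp v P := by
  rw [Nat.pos_iff_ne_zero]
  intro h0
  have h1 := relNorm_eq_normExp v P
  rw [h0, pow_zero, Ideal.one_eq_top] at h1
  have h2 := Ideal.relNorm_le_comap v.toValuationSubring P.asIdeal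
  rw [h1, top_le_iff, Ideal.comap_eq_top_iff] at h2
  exact P.isPrime.ne_top h2

open UniqueFactorizationMonoid in
theorem ramificationIdx_eq_ord (P : HeightOneSpectrum (IC F' v))
    {π : v.toValuationSubring} (hπ : Irreducible π) :
    (P.asIdeal.ramificationIdx v.toValuationSubring : ℤ) =
      (Place.ofHeightOneSpectrum (K := K) (F := F') P).ord (algebraMap F F' (π : F)) := by
  have hmap : (maximalIdeal v.toValuationSubring).map
      (algebraMap v.toValuationSubring (IC F' v)) =
      Ideal.span {algebraMap v.toValuationSubring (IC F' v) π} := by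
    rw [hπ.maximalIdeal_eq, Ideal.map_span, Set.image_singleton]
  have hπ0 : algebraMap v.toValuationSubring (IC F' v) π ≠ 0 :=
    (map_ne_zero_iff _ (FaithfulSMul.algebraMap_injective _ _)).mpr hπ.ne_zero
  have hp0 : (maximalIdeal v.toValuationSubring).map
      (algebraMap v.toValuationSubring (IC F' v)) ≠ ⊥ := by
    rw [hmap, Ne, Ideal.span_singleton_eq_bot]
    exact hπ0
  have h1 : algebraMap F F' (π : F) =
      algebraMap (IC F' v) F' (algebraMap v.toValuationSubring (IC F' v) π) := rfl
  rw [h1, ord_ofHeightOneSpectrum_algebraMap (K := K) (F := F') P hπ0,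
    Ideal.IsDedekindDomain.ramificationIdx_eq_normalizedFactors_count
      (maximalIdeal v.toValuationSubring) P.asIdeal hp0, hmap]
  have hne : Ideal.span {algebraMap v.toValuationSubring (IC F' v) π} ≠ ⊥ := by
    rw [Ne, Ideal.span_singleton_eq_bot]
    exact hπ0
  rw [Associates.factors_mk _ hne,
    Associates.count_some (Associates.irreducible_mk.mpr P.irreducible),
    ← Multiset.count_map_eq_count' _ _ Subtype.val_injective, Associates.map_subtype_coe_factors',
    factors_eq_normalizedFactors,
    ← Multiset.count_map_eq_count' _ _ (Associates.mk_injective (M := Ideal (IC F' v)))]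

theorem sum_ord_mul_inertiaDeg [Fintype (HeightOneSpectrum (IC F' v))]
    [Module.Finite v.toValuationSubring (IC F' v)]
    {π : v.toValuationSubring} (hπ : Irreducible π) :
    ∑ P : HeightOneSpectrum (IC F' v),
      (Place.ofHeightOneSpectrum (K := K) (F := F') P).ord (algebraMap F F' (π : F)) *
        ((Place.ofHeightOneSpectrum (K := K) (F := F') P).inertiaDeg F : ℤ) =
      Module.finrank F F' := by
  have h0 : maximalIdeal v.toValuationSubring ≠ ⊥ :=
    IsDiscreteValuationRing.not_a_field v.toValuationSubring
  have hfin := IsDedekindDomain.primesOver_finite (maximalIdeal v.toValuationSubring) (IC F' v)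
  have := hfin.to_subtype
  have := Fintype.ofFinite ((maximalIdeal v.toValuationSubring).primesOver (IC F' v))
  have h1 := Ideal.sum_ramification_inertia_eq_finrank (maximalIdeal v.toValuationSubring)
    (IC F' v)
  have h2 : Module.finrank v.toValuationSubring (IC F' v) = Module.finrank F F' :=
    (IsFractionRing.finrank_eq v.toValuationSubring F (IC F' v) F').symm
  rw [← h2, ← h1]
  push_cast
  let e : HeightOneSpectrum (IC F' v) ≃
      (maximalIdeal v.toValuationSubring).primesOver (IC F' v) :=
    { toFun := fun P => ⟨P.asIdeal, P.isPrime, liesOver_maximalIdeal v P⟩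
      invFun := fun Q => ⟨Q.1, Q.2.1, by
        intro hQ
        have h3 := Q.2.2.over
        rw [hQ] at h3
        apply h0
        rw [h3, Ideal.under_def, Ideal.comap_bot_of_injective _
          (FaithfulSMul.algebraMap_injective _ _)]⟩
      left_inv := fun P => rfl
      right_inv := fun Q => rfl }
  rw [← e.sum_comp]
  refine Finset.sum_congr rfl fun P _ => ?_
  rw [← ramificationIdx_eq_ord v P hπ, inertiaDeg_eq']
  rfl

theorem normExp_eq_inertiaDeg_of_forall [Module.Finite v.toValuationSubring (IC F' v)]
    (h1 : ∀ w : Place K F', w.restrict F = v → w.inertiaDeg F = 1)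
    (P : HeightOneSpectrum (IC F' v)) :
    normExp v P = (Place.ofHeightOneSpectrum (K := K) (F := F') P).inertiaDeg F := by
  have := finite_heightOneSpectrum (F' := F') v
  have := Fintype.ofFinite (HeightOneSpectrum (IC F' v))
  obtain ⟨π, hπ⟩ := IsDiscreteValuationRing.exists_irreducible v.toValuationSubring
  have hs1 := sum_ord_mul_inertiaDeg (F' := F') v hπ
  have hπF : (π : F) ≠ 0 := by simpa [ne_eq, ZeroMemClass.coe_eq_zero] using hπ.ne_zero
  have hπF' : algebraMap F F' (π : F) ≠ 0 := by simpa using hπF
  have hs2 := sum_normExp (F' := F') v (algebraMap F F' (π : F)) hπF'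
  rw [Algebra.norm_algebraMap, H18.ord_pow, v.ord_coe_irreducible hπ, mul_one, ← hs1] at hs2
  have hdeg : ∀ Q : HeightOneSpectrum (IC F' v),
      (Place.ofHeightOneSpectrum (K := K) (F := F') Q).inertiaDeg F = 1 := fun Q =>
    h1 _ (restrict_ofHeightOneSpectrum v Q)
  have hpos : ∀ Q : HeightOneSpectrum (IC F' v),
      0 < (Place.ofHeightOneSpectrum (K := K) (F := F') Q).ord (algebraMap F F' (π : F)) := by
    intro Q
    rw [Place.ord_restrict, restrict_ofHeightOneSpectrum, v.ord_coe_irreducible hπ, mul_one]
    exact_mod_cast Place.ramificationIndex_pos _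
  have hsum : ∑ Q : HeightOneSpectrum (IC F' v), ((normExp v Q : ℤ) - 1) *
      (Place.ofHeightOneSpectrum (K := K) (F := F') Q).ord (algebraMap F F' (π : F)) = 0 := by
    simp only [sub_mul, one_mul, Finset.sum_sub_distrib]
    rw [hs2, sub_eq_zero]
    refine Finset.sum_congr rfl fun Q _ => ?_
    rw [hdeg Q]
    simp
  rw [Finset.sum_eq_zero_iff_of_nonneg] at hsum
  · have := hsum P (Finset.mem_univ P)
    rw [mul_eq_zero] at this
    rcases this with h | h
    · rw [hdeg P]
      omega
    · exact absurd h (hpos P).ne'
  · intro Q _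
    have := normExp_pos v Q
    refine mul_nonneg ?_ (hpos Q).le
    omega

/-- The local norm formula. -/
theorem exists_fiber_sum_ord [Module.Finite v.toValuationSubring (IC F' v)]
    (hv : ∀ P : HeightOneSpectrum (IC F' v),
      normExp v P = (Place.ofHeightOneSpectrum (K := K) (F := F') P).inertiaDeg F) :
    ∃ S : Finset (Place K F'), (∀ w, w ∈ S ↔ w.restrict F = v) ∧
      ∀ f : F', f ≠ 0 →
        ∑ w ∈ S, w.ord f * (w.inertiaDeg F : ℤ) = v.ord (Algebra.norm F f) := by
  classical
  have := finite_heightOneSpectrum (F' := F') v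
  have := Fintype.ofFinite (HeightOneSpectrum (IC F' v))
  refine ⟨Finset.univ.image (Place.ofHeightOneSpectrum (K := K) (F := F') (R := IC F' v)),
    ?_, ?_⟩
  · intro w
    rw [Finset.mem_image]
    constructor
    · rintro ⟨P, _, rfl⟩
      exact restrict_ofHeightOneSpectrum v P
    · intro hw
      obtain ⟨P, hP⟩ := exists_ofHeightOneSpectrum_eq (IC F' v) w ((restrict_eq_iff v w).mp hw)
      exact ⟨P, Finset.mem_univ _, hP⟩
  · intro f hf
    rw [Finset.sum_image (fun P _ Q _ h => ofHeightOneSpectrum_injective h),
      ← sum_normExp (F' := F') v f hf]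
    refine Finset.sum_congr rfl fun P _ => ?_
    rw [hv P, mul_comm]

end Sep

section Final

variable (K F F' : Type*) [Field K] [Field F] [Field F'] [Algebra K F] [Algebra K F']
  [Algebra F F'] [IsScalarTower K F F'] [FiniteDimensional F F']

/-- The local norm formula at every place of the base. -/
def LocalNormFormula : Prop :=
  ∀ v : Place K F, ∃ S : Finset (Place K F'), (∀ w, w ∈ S ↔ w.restrict F = v) ∧
      ∀ f : F', f ≠ 0 →
        ∑ w ∈ S, w.ord f * (w.inertiaDeg F : ℤ) = v.ord (Algebra.norm F f)

/-- The norm formula in characteristic zero. -/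
theorem localNormFormula_of_charZero [CharZero F] : LocalNormFormula K F F' := by
  intro v
  have h1 := isDedekindDomain_IC (F' := F') v
  have h2 := finite_IC (F' := F') v
  exact exists_fiber_sum_ord v (fun P => normExp_eq_inertiaDeg_of_charZero v P)

/-- The norm formula for separable extensions when residue extensions are trivial. -/
theorem localNormFormula_of_inertiaDeg [Algebra.IsSeparable F F']
    (h : ∀ w : Place K F', w.inertiaDeg F = 1) : LocalNormFormula K F F' := by
  intro v
  have h1 := isDedekindDomain_IC (F' := F') v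
  have h2 := finite_IC (F' := F') v
  exact exists_fiber_sum_ord v (normExp_eq_inertiaDeg_of_forall v (fun w _ => h w))

variable {K F F'}

theorem LocalNormFormula.pushforwardNormFormula (h : LocalNormFormula K F F') :
    Divisor.PushforwardNormFormula K F F' := by
  classical
  intro f hf D hD v
  obtain ⟨S, hS, hSum⟩ := h v
  rw [Divisor.pushforward_apply, ← hSum f hf, ← Finset.sum_filter]
  symm
  rw [← Finset.sum_subset (s₁ := D.support.filter (fun w => w.restrict F = v)) (s₂ := S)]
  · refine Finset.sum_congr rfl fun w _ => ?_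
    rw [hD]
  · intro w hw
    exact (hS w).mpr (Finset.mem_filter.mp hw).2
  · intro w hw hw'
    have : D w = 0 := by
      by_contra hne
      exact hw' (Finset.mem_filter.mpr ⟨Finsupp.mem_support_iff.mpr hne, (hS w).mp hw⟩)
    rw [← hD, this, zero_mul]

theorem LocalNormFormula.sumRamificationInertia [HasPrincipalDivisors K F']
    (h : LocalNormFormula K F F') : SumRamificationInertia K F F' where
  sum_ramificationIndex_mul_inertiaDeg v := by
    obtain ⟨S, hS, hSum⟩ := h v
    obtain ⟨π, hπ⟩ := IsDiscreteValuationRing.exists_irreducible v.toValuationSubring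
    have hπF : (π : F) ≠ 0 := by simpa [ne_eq, ZeroMemClass.coe_eq_zero] using hπ.ne_zero
    have hπF' : algebraMap F F' (π : F) ≠ 0 := by simpa using hπF
    have h1 := hSum _ hπF'
    rw [Algebra.norm_algebraMap, H18.ord_pow, v.ord_coe_irreducible hπ, mul_one] at h1
    rw [← h1]
    have : S = v.fiber F' := by
      ext w
      rw [hS, Place.mem_fiber]
    rw [this]
    refine Finset.sum_congr rfl fun w hw => ?_
    rw [Place.ord_restrict, Place.mem_fiber.mp hw, v.ord_coe_irreducible hπ, mul_one]

/-- Every place of the base has a place above it. -/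
theorem LocalNormFormula.exists_restrict_eq (h : LocalNormFormula K F F') (v : Place K F) :
    ∃ w : Place K F', w.restrict F = v := by
  obtain ⟨S, hS, hSum⟩ := h v
  obtain ⟨π, hπ⟩ := IsDiscreteValuationRing.exists_irreducible v.toValuationSubring
  have hπF : (π : F) ≠ 0 := by simpa [ne_eq, ZeroMemClass.coe_eq_zero] using hπ.ne_zero
  have hπF' : algebraMap F F' (π : F) ≠ 0 := by simpa using hπF
  have h1 := hSum _ hπF'
  rw [Algebra.norm_algebraMap, H18.ord_pow, v.ord_coe_irreducible hπ, mul_one] at h1
  have hpos : (0 : ℤ) < Module.finrank F F' := by exact_mod_cast Module.finrank_pos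
  rw [← h1] at hpos
  have hne : S.Nonempty := by
    by_contra hne
    rw [Finset.not_nonempty_iff_eq_empty] at hne
    rw [hne] at hpos
    simp at hpos
  obtain ⟨w, hw⟩ := hne
  exact ⟨w, (hS w).mp hw⟩

end Final

end Fermat.Agent.H05
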