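import Fermat.Agent.H05.TransferAut
import Fermat.Agent.H22.CharK
import Fermat.Agent.AL.Newform

/-!
# Characters of the Hecke algebra come from cusp forms; separating Hecke relations for newforms
-/

set_option autoImplicit false
set_option linter.style.haveILetI false
set_option linter.unusedSectionVars false

noncomputable section

namespace Fermat.Agent.H05

open CongruenceSubgroup ModularCurve ModularCurve.Period
open Fermat.Agent.H22
open ModularFormClass (qCoeff)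

variable {N : ℕ} [NeZero N]

/-- A parabolic homomorphism which is an eigenvector for the Hecke algebra away from `S` gives a
cusp form with the same eigenvalues. -/
theorem exists_form_of_char (S : Set ℕ) (χ : CuspForm.heckeAlgebra N 2 S →+* ℂ) :
    ∃ f : CuspForm (Gamma0 N) 2, f ≠ 0 ∧ ∀ x : CuspForm.heckeAlgebra N 2 S,
      (x : Module.End ℂ (CuspForm (Gamma0 N) 2)) f = χ x • f := by
  obtain ⟨v, hv, hpar, -, heig⟩ := H22.exists_eigenvector (N := N) S χ
  have h1 := wLin_mem_parabolicHoms ℂ N ℂ hpar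
  rw [← (ES.eichlerShimura N).2] at h1
  obtain ⟨⟨f, g⟩, hfg⟩ := h1
  obtain ⟨pml, hpml, hdef⟩ := ModularCurve.periodHomPair_def N H16.existsPeriodMapLinear
  have key : ∀ f g : CuspForm (Gamma0 N) 2, H22.wLin ℂ N ℂ (ModularCurve.periodHomPair N (f, g)) =
      (H22.esMap N f + charInvolution N ℂ ℂ (H22.esMap N f)) +
        (H22.esMap N g - charInvolution N ℂ ℂ (H22.esMap N g)) := by
    intro f g
    rw [hdef]
    simp only [LinearMap.coprod_apply, LinearMap.comp_apply, LinearMap.add_apply,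
      LinearMap.sub_apply, LinearMap.id_apply, hpml]
    rw [map_add, map_add, map_sub, wLin_charInvolution, wLin_charInvolution,
      ← H22.esMap_apply, ← H22.esMap_apply]
  have hv2 : v = H22.wLin ℂ N ℂ (ModularCurve.periodHomPair N (f, g)) := by
    rw [hfg, H22.wLin_wLin]
  have hact : ∀ (t : HeckeAlg) (f g : CuspForm (Gamma0 N) 2),
      H22.heckeAct ℂ N ℂ t (H22.wLin ℂ N ℂ (ModularCurve.periodHomPair N (f, g))) =
      H22.wLin ℂ N ℂ (ModularCurve.periodHomPair N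
        ((CuspForm.heckeEvalForms N 2 t : Module.End ℂ (CuspForm (Gamma0 N) 2)) f,
         (CuspForm.heckeEvalForms N 2 t : Module.End ℂ (CuspForm (Gamma0 N) 2)) g)) := by
    intro t f g
    rw [key, key, map_add, map_add, map_sub, heckeAct_charInvolution, heckeAct_charInvolution,
      H22.esMap_hecke, H22.esMap_hecke]
  have hinj : Function.Injective fun x => H22.wLin ℂ N ℂ (ModularCurve.periodHomPair N x) := by
    intro x y hxy
    apply (ES.eichlerShimura N).1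
    have h2 := congrArg (H22.wLin ℂ N ℂ) hxy
    change H22.wLin ℂ N ℂ (H22.wLin ℂ N ℂ _) = H22.wLin ℂ N ℂ (H22.wLin ℂ N ℂ _) at h2
    rwa [H22.wLin_wLin, H22.wLin_wLin] at h2
  have hfin : ∀ x : CuspForm.heckeAlgebra N 2 S,
      (x : Module.End ℂ (CuspForm (Gamma0 N) 2)) f = χ x • f ∧
      (x : Module.End ℂ (CuspForm (Gamma0 N) 2)) g = χ x • g := by
    intro x
    obtain ⟨t, ht⟩ := heckeEvalForms_surjective (N := N) (awayIncl N S x)
    have ht' : (CuspForm.heckeEvalForms N 2 t : Module.End ℂ (CuspForm (Gamma0 N) 2)) = x := by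
      rw [ht, coe_awayIncl]
    have h3 := heig x t ht'
    rw [hv2, hact, ht', ← map_smul, ← map_smul] at h3
    have h4 := hinj h3
    exact ⟨congrArg Prod.fst h4, congrArg Prod.snd h4⟩
  by_cases hf : f = 0
  · refine ⟨g, ?_, fun x => (hfin x).2⟩
    rintro rfl
    apply hv
    rw [hv2, hf, Prod.mk_zero_zero, map_zero, map_zero]
  · exact ⟨f, hf, fun x => (hfin x).1⟩

/-- The Hecke polynomials with variables outside `S`. -/
def awayPoly (S : Set ℕ) : Subalgebra ℤ HeckeAlg :=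
  MvPolynomial.supported ℤ {ℓ : Nat.Primes | (ℓ : ℕ) ∉ S}

theorem heckeGen_mem_awayPoly {S : Set ℕ} {ℓ : Nat.Primes} (h : (ℓ : ℕ) ∉ S) :
    heckeGen ℓ ∈ awayPoly S :=
  MvPolynomial.X_mem_supported.mpr h

theorem awayPoly_induction {S : Set ℕ} {P : HeckeAlg → Prop}
    (hgen : ∀ ℓ : Nat.Primes, (ℓ : ℕ) ∉ S → P (heckeGen ℓ))
    (hC : ∀ a : ℤ, P (algebraMap ℤ HeckeAlg a)) (hadd : ∀ x y, P x → P y → P (x + y))
    (hmul : ∀ x y, P x → P y → P (x * y)) {t : HeckeAlg} (ht : t ∈ awayPoly S) : P t := by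
  unfold awayPoly MvPolynomial.supported at ht
  induction ht using Algebra.adjoin_induction with
  | mem x hx =>
    obtain ⟨ℓ, hℓ, rfl⟩ := hx
    exact hgen ℓ hℓ
  | algebraMap r => exact hC r
  | add x y _ _ hx hy => exact hadd x y hx hy
  | mul x y _ _ hx hy => exact hmul x y hx hy

theorem heckeEval_mem_of_awayPoly {S : Set ℕ} {t : HeckeAlg} (ht : t ∈ awayPoly S) :
    (CuspForm.heckeEvalForms N 2 t : Module.End ℂ (CuspForm (Gamma0 N) 2)) ∈
      CuspForm.heckeAlgebra N 2 S := by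
  refine awayPoly_induction (P := fun t => (CuspForm.heckeEvalForms N 2 t :
    Module.End ℂ (CuspForm (Gamma0 N) 2)) ∈ CuspForm.heckeAlgebra N 2 S) ?_ ?_ ?_ ?_ ht
  · intro ℓ hℓ
    rw [CuspForm.heckeEvalForms_heckeGen]
    by_cases h : (ℓ : ℕ) ∣ N
    · rw [CuspForm.heckeFormsGen_of_dvd h]
      exact CuspForm.heckeULin_mem_heckeAlgebra ℓ.2 h hℓ
    · rw [CuspForm.heckeFormsGen_of_not_dvd h]
      exact CuspForm.heckeTLin_mem_heckeAlgebra ℓ.2 h hℓ
  · intro a
    change (CuspForm.heckeEvalForms N 2 (MvPolynomial.C a) :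
      Module.End ℂ (CuspForm (Gamma0 N) 2)) ∈ _
    rw [CuspForm.heckeEvalForms_C]
    exact Subalgebra.algebraMap_mem _ a
  · intro x y hx hy
    rw [map_add]
    exact add_mem hx hy
  · intro x y hx hy
    rw [map_mul]
    exact mul_mem hx hy

variable (N) in
/-- evaluation of the Hecke polynomials away from `S`. -/
def awayEval (S : Set ℕ) : awayPoly S →+* CuspForm.heckeAlgebra N 2 S :=
  RingHom.codRestrict (((CuspForm.heckeAlgebra N 2 ∅).val.toRingHom.comp
    (CuspForm.heckeEvalForms N 2)).comp (awayPoly S).val.toRingHom) (CuspForm.heckeAlgebra N 2 S)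
    (fun t => heckeEval_mem_of_awayPoly t.2)

theorem coe_awayEval {S : Set ℕ} (t : awayPoly S) :
    (awayEval N S t : Module.End ℂ (CuspForm (Gamma0 N) 2)) =
      CuspForm.heckeEvalForms N 2 (t : HeckeAlg) := by
  unfold awayEval
  rw [RingHom.codRestrict_apply, RingHom.comp_apply, RingHom.comp_apply]
  rfl

theorem awayEval_heckeGen {S : Set ℕ} {ℓ : ℕ} (hℓ : ℓ.Prime) (hℓN : ¬ ℓ ∣ N) (hℓS : ℓ ∉ S) :
    awayEval N S ⟨heckeGen ⟨ℓ, hℓ⟩, heckeGen_mem_awayPoly hℓS⟩ =
      CuspForm.heckeAlgebra.T hℓ hℓN hℓS := by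
  apply Subtype.ext
  rw [coe_awayEval, CuspForm.heckeEvalForms_heckeGen_of_not_dvd (ℓ := ⟨ℓ, hℓ⟩) hℓN]
  rfl

theorem awayEval_surjective (S : Set ℕ) : Function.Surjective (awayEval N S) := by
  rintro ⟨x, hx⟩
  suffices h : ∃ t : awayPoly S, (awayEval N S t : Module.End ℂ (CuspForm (Gamma0 N) 2)) = x by
    obtain ⟨t, ht⟩ := h
    exact ⟨t, Subtype.ext ht⟩
  unfold CuspForm.heckeAlgebra at hx
  induction hx using Algebra.adjoin_induction with
  | mem x hx =>
    rcases hx with ⟨ℓ, hℓ, hℓN, hS, rfl⟩ | ⟨q, hqN, hq, hS, rfl⟩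
    · refine ⟨⟨heckeGen ⟨ℓ, hℓ⟩, heckeGen_mem_awayPoly hS⟩, ?_⟩
      rw [coe_awayEval, CuspForm.heckeEvalForms_heckeGen_of_not_dvd (ℓ := ⟨ℓ, hℓ⟩) hℓN]
      rfl
    · refine ⟨⟨heckeGen ⟨q, hq⟩, heckeGen_mem_awayPoly hS⟩, ?_⟩
      rw [coe_awayEval, CuspForm.heckeEvalForms_heckeGen_of_dvd (q := ⟨q, hq⟩) hqN]
      rfl
  | algebraMap r =>
    refine ⟨⟨MvPolynomial.C r, Subalgebra.algebraMap_mem (awayPoly S) r⟩, ?_⟩
    rw [coe_awayEval, CuspForm.heckeEvalForms_C]
    exact Subalgebra.coe_algebraMap _ r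
  | add x y _ _ hx hy =>
    obtain ⟨s, hs⟩ := hx
    obtain ⟨t, ht⟩ := hy
    refine ⟨s + t, ?_⟩
    rw [map_add, Subalgebra.coe_add, hs, ht]
  | mul x y _ _ hx hy =>
    obtain ⟨s, hs⟩ := hx
    obtain ⟨t, ht⟩ := hy
    refine ⟨s * t, ?_⟩
    rw [map_mul, Subalgebra.coe_mul, hs, ht]

/-- **Separation.** If `g` is a newform of level `N`, `M` a proper divisor of `N` and `S` a finite
set of primes, there is a Hecke polynomial with variables outside `S` which vanishes on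
`S₂(Γ₀(M))`, but not at the eigenvalues of `g`. -/
theorem exists_separating {g : CuspForm (Gamma0 N) 2} (hg : g.IsNewform) {M : ℕ} [NeZero M]
    (hM : M ∣ N) (hne : M ≠ N) {S : Set ℕ} (hS : S.Finite) :
    ∃ t ∈ awayPoly S, CuspForm.heckeEvalForms M 2 t = 0 ∧
      MvPolynomial.aeval (fun ℓ : Nat.Primes => qCoeff g ℓ) t ≠ 0 := by
  by_contra hcon
  push Not at hcon
  let ev : awayPoly S →+* ℂ :=
    (MvPolynomial.aeval (fun ℓ : Nat.Primes => qCoeff g ℓ) :
      HeckeAlg →ₐ[ℤ] ℂ).toRingHom.comp (awayPoly S).val.toRingHom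
  have hker : RingHom.ker (awayEval M S) ≤ RingHom.ker ev := by
    rintro ⟨t, ht⟩ h0
    rw [RingHom.mem_ker] at h0 ⊢
    have h1 : ((CuspForm.heckeEvalForms M 2 t : CuspForm.heckeAlgebra M 2 ∅) :
        Module.End ℂ (CuspForm (Gamma0 M) 2)) = 0 := by
      rw [← coe_awayEval (N := M) ⟨t, ht⟩, h0]
      exact ZeroMemClass.coe_zero _
    exact hcon t ht (Subtype.ext (h1.trans (ZeroMemClass.coe_zero _).symm))
  let χ : CuspForm.heckeAlgebra M 2 S →+* ℂ :=
    RingHom.liftOfSurjective (awayEval M S) (awayEval_surjective S) ⟨ev, hker⟩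
  have hχ : ∀ t : awayPoly S, χ (awayEval M S t) = ev t := fun t =>
    RingHom.liftOfRightInverse_comp_apply (awayEval M S)
      (Function.surjInv (awayEval_surjective S))
      (Function.rightInverse_surjInv (awayEval_surjective S)) ⟨ev, hker⟩ t
  obtain ⟨f, hf0, hf⟩ := exists_form_of_char S χ
  apply hf0
  -- the integer `D` divisible by all nonzero elements of `S`
  let D : ℕ := ∏ s ∈ hS.toFinset.erase 0, s
  have hD : D ≠ 0 := Finset.prod_ne_zero_iff.mpr fun s hs => (Finset.mem_erase.mp hs).1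
  have hDS : ∀ ℓ : ℕ, ℓ.Prime → ¬ ℓ ∣ D → ℓ ∉ S := fun ℓ hℓ h hS' =>
    h (Finset.dvd_prod_of_mem _ (Finset.mem_erase.mpr ⟨hℓ.ne_zero, hS.mem_toFinset.mpr hS'⟩))
  refine AL.no_proper_level hg hM hne hD f fun ℓ hℓ hℓM hℓD => ?_
  have hℓS := hDS ℓ hℓ hℓD
  have h1 := hf (CuspForm.heckeAlgebra.T hℓ hℓM hℓS)
  rw [← awayEval_heckeGen hℓ hℓM hℓS, hχ, awayEval_heckeGen hℓ hℓM hℓS] at h1
  have h2 : ev ⟨heckeGen ⟨ℓ, hℓ⟩, heckeGen_mem_awayPoly hℓS⟩ = qCoeff g ℓ :=
    MvPolynomial.aeval_X _ _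
  rw [h2] at h1
  exact h1

end Fermat.Agent.H05
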