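import Fermat.Agent.H05.TransferAut
import Fermat.Agent.Descent.Kappa

/-!
# Relations between Hecke operators on `S₂(Γ₀(N))` kill `J₀(N)[m]` up to a bounded factor
-/

set_option autoImplicit false
set_option linter.style.haveILetI false
set_option linter.unusedSectionVars false
set_option maxSynthPendingDepth 3

noncomputable section

namespace Fermat.Agent.H05

open ModularCurve ModularCurve.Period CongruenceSubgroup
open scoped MatrixGroups DirectSum

/-- A finitely generated abelian group is, up to a bounded factor, free. -/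
theorem exists_coords (B : Type*) [AddCommGroup B] [AddGroup.FG B] :
    ∃ (e n : ℕ) (φ : Fin n → (B →+ ℤ)) (c : Fin n → B), 0 < e ∧
      ∀ x : B, e • x = ∑ i, φ i x • c i := by
  classical
  obtain ⟨n, ι, hι, p, hp, f, ⟨E⟩⟩ := AddCommGroup.equiv_free_prod_directSum_zmod B
  let e : ℕ := ∏ i, p i ^ f i
  have he : 0 < e := Finset.prod_pos fun i _ => pow_pos (hp i).pos _
  have hkill : ∀ y : ⨁ i, ZMod (p i ^ f i), e • y = 0 := by
    intro y
    refine DFinsupp.ext fun i => ?_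
    have h1 : (e • y) i = e • y i := rfl
    rw [h1]
    obtain ⟨k, hk⟩ : p i ^ f i ∣ e := Finset.dvd_prod_of_mem _ (Finset.mem_univ i)
    rw [hk, nsmul_eq_mul, Nat.cast_mul, ZMod.natCast_self, zero_mul, zero_mul]
    rfl
  refine ⟨e, n, fun i => (Finsupp.applyAddHom i).comp ((AddMonoidHom.fst _ _).comp
    (E : B →+ (Fin n →₀ ℤ) × ⨁ i, ZMod (p i ^ f i))),
    fun i => E.symm (Finsupp.single i (e : ℤ), 0), he, fun x => ?_⟩
  apply E.injective
  rw [map_sum, map_nsmul]
  have h2 : ∀ i, E (((Finsupp.applyAddHom i).comp ((AddMonoidHom.fst _ _).comp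
      (E : B →+ (Fin n →₀ ℤ) × ⨁ i, ZMod (p i ^ f i)))) x •
        E.symm (Finsupp.single i (e : ℤ), 0)) =
      ((Finsupp.single i ((E x).1 i * (e : ℤ)) : Fin n →₀ ℤ),
        (0 : ⨁ i, ZMod (p i ^ f i))) := by
    intro i
    rw [map_zsmul, AddEquiv.apply_symm_apply, Prod.smul_mk, smul_zero, Finsupp.smul_single,
      smul_eq_mul]
    rfl
  rw [Finset.sum_congr rfl fun i _ => h2 i]
  apply Prod.ext
  · rw [Prod.fst_sum, Prod.smul_fst]
    refine Finsupp.ext fun j => ?_
    rw [Finsupp.finsetSum_apply, Finset.sum_eq_single j]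
    · rw [Finsupp.single_eq_same, Finsupp.smul_apply, nsmul_eq_mul, mul_comm]
    · intro i _ hij
      rw [Finsupp.single_eq_of_ne (Ne.symm hij)]
    · intro h
      exact absurd (Finset.mem_univ j) h
  · rw [Prod.snd_sum, Prod.smul_snd, hkill]
    simp

variable (N : ℕ) [NeZero N]

/-- the subgroup of the abelianization generated by parabolic and elliptic elements. -/
def parEllSub : AddSubgroup (Additive (Abelianization (Gamma0 N))) :=
  AddSubgroup.closure {x | ∃ γ : Gamma0 N, H22.tr2 (γ : SL(2, ℤ)) ^ 2 ≤ 4 ∧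
    x = Additive.ofMul (Abelianization.of γ)}

/-- the class of an element in the quotient. -/
def parEllMk : Additive (Gamma0 N) →+ (Additive (Abelianization (Gamma0 N)) ⧸ parEllSub N) :=
  (QuotientAddGroup.mk' (parEllSub N)).comp (MonoidHom.toAdditive Abelianization.of)

theorem parEllMk_surjective : Function.Surjective (parEllMk N) := by
  refine (QuotientAddGroup.mk'_surjective _).comp ?_
  intro x
  obtain ⟨γ, hγ⟩ := QuotientGroup.mk'_surjective (commutator (Gamma0 N)) x.toMul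
  exact ⟨Additive.ofMul γ, hγ⟩

instance parEll_fg : AddGroup.FG (Additive (Abelianization (Gamma0 N)) ⧸ parEllSub N) := by
  haveI : AddGroup.FG (Additive (Gamma0 N)) := inferInstance
  exact AddGroup.fg_of_surjective (parEllMk_surjective N)

theorem parEllMk_eq_zero {γ : Gamma0 N} (hγ : H22.tr2 (γ : SL(2, ℤ)) ^ 2 ≤ 4) :
    parEllMk N (Additive.ofMul γ) = 0 := by
  refine (QuotientAddGroup.eq_zero_iff _).mpr ?_
  exact AddSubgroup.subset_closure ⟨γ, hγ, rfl⟩

/-- factorization of a homomorphism trivial on parabolic and elliptic elements. -/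
theorem exists_parEll_factor {A : Type*} [AddCommGroup A] (ψ : Additive (Gamma0 N) →+ A)
    (hψ : ∀ γ : Gamma0 N, H22.tr2 (γ : SL(2, ℤ)) ^ 2 ≤ 4 → ψ (Additive.ofMul γ) = 0) :
    ∃ ψ' : (Additive (Abelianization (Gamma0 N)) ⧸ parEllSub N) →+ A,
      ψ = ψ'.comp (parEllMk N) := by
  let ψ₁ : Additive (Abelianization (Gamma0 N)) →+ A :=
    MonoidHom.toAdditiveLeft (Abelianization.lift (AddMonoidHom.toMultiplicativeRight ψ))
  have h1 : ∀ γ : Gamma0 N, ψ₁ (Additive.ofMul (Abelianization.of γ)) = ψ (Additive.ofMul γ) :=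
    fun γ => rfl
  refine ⟨QuotientAddGroup.lift (parEllSub N) ψ₁ ?_, ?_⟩
  · intro x hx
    have h2 : parEllSub N ≤ ψ₁.ker := by
      rw [parEllSub, AddSubgroup.closure_le]
      rintro _ ⟨γ, hγ, rfl⟩
      change ψ₁ _ = 0
      rw [h1, hψ γ hγ]
    exact h2 hx
  · refine AddMonoidHom.ext fun γ => ?_
    rfl

/-- **Bounded exponent**: there is `e > 0` such that for every relation `s` between the Hecke
operators on `S₂(Γ₀(N))`, `e • s` kills every homomorphism from `Γ₀(N)` to an abelian group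
trivial on parabolic and elliptic elements. -/
theorem exists_bound_hom : ∃ e : ℕ, 0 < e ∧ ∀ {A : Type} [AddCommGroup A]
    (ψ : Additive (Gamma0 N) →+ A)
    (_ : ∀ γ : Gamma0 N, H22.tr2 (γ : SL(2, ℤ)) ^ 2 ≤ 4 → ψ (Additive.ofMul γ) = 0)
    (s : HeckeAlg) (_ : CuspForm.heckeEvalForms N 2 s = 0),
    e • H22.heckeAct ℤ N A s ψ = 0 := by
  obtain ⟨e, n, φ, c, he, hc⟩ := exists_coords
    (Additive (Abelianization (Gamma0 N)) ⧸ parEllSub N)
  refine ⟨e, he, fun {A} _ ψ hψ s hs => ?_⟩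
  obtain ⟨ψ', rfl⟩ := exists_parEll_factor N ψ hψ
  have h1 : e • (ψ'.comp (parEllMk N)) =
      ∑ i, ((smulAddHom ℤ A).flip (ψ' (c i))).comp ((φ i).comp (parEllMk N)) := by
    refine AddMonoidHom.ext fun γ => ?_
    rw [AddMonoidHom.finsetSum_apply]
    change e • ψ' (parEllMk N γ) = ∑ i, φ i (parEllMk N γ) • ψ' (c i)
    rw [← map_nsmul, hc, map_sum]
    exact Finset.sum_congr rfl fun i _ => map_zsmul _ _ _
  rw [← map_nsmul, h1, map_sum]
  refine Finset.sum_eq_zero fun i _ => ?_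
  rw [H22.heckeAct_map (R := ℤ) (R' := ℤ), heckeAct_eq_zero_int s hs]
  · exact AddMonoidHom.comp_zero _
  · intro γ hγ
    change φ i (parEllMk N (Additive.ofMul γ)) = 0
    rw [parEllMk_eq_zero N (γ := γ) (by
      have : H22.tr2 (γ : SL(2, ℤ)) ^ 2 = 4 := hγ
      exact this.le), map_zero]

/-- elliptic elements have a fixed point. -/
theorem exists_fix_of_tr2 {γ : SL(2, ℤ)} (hγ : H22.tr2 γ ^ 2 < 4) :
    ∃ τ : UpperHalfPlane, γ • τ = τ := by
  rw [H22.tr2_def] at hγ
  set a : ℤ := γ 0 0 with ha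
  set b : ℤ := γ 0 1 with hb
  set c : ℤ := γ 1 0 with hc
  set d : ℤ := γ 1 1 with hd
  have hdet : a * d - b * c = 1 := by
    have := γ.det_coe
    rwa [Matrix.det_fin_two] at this
  have hc0 : c ≠ 0 := by
    intro h0
    rw [h0, mul_zero, sub_zero] at hdet
    have : (a - d) ^ 2 < 0 := by nlinarith
    exact absurd this (not_lt.mpr (sq_nonneg _))
  have hcR : (c : ℝ) ≠ 0 := by exact_mod_cast hc0
  have hD : (0 : ℝ) < 4 - ((a : ℝ) + d) ^ 2 := by
    have : ((a : ℝ) + d) ^ 2 < 4 := by exact_mod_cast hγ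
    linarith
  set s : ℝ := Real.sqrt (4 - ((a : ℝ) + d) ^ 2) with hs
  have hs0 : 0 < s := Real.sqrt_pos.mpr hD
  have hs2 : s ^ 2 = 4 - ((a : ℝ) + d) ^ 2 := Real.sq_sqrt hD.le
  have habs : (0 : ℝ) < |(c : ℝ)| := abs_pos.mpr hcR
  let τ : UpperHalfPlane := ⟨⟨((a : ℝ) - d) / (2 * c), s / (2 * |(c : ℝ)|)⟩, by positivity⟩
  have hτ : (τ : ℂ) = ((((a : ℝ) - d) / (2 * c) : ℝ) : ℂ) + ((s / (2 * |(c : ℝ)|) : ℝ) : ℂ) * Complex.I :=
    Complex.mk_eq_add_mul_I _ _
  refine ⟨τ, ?_⟩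
  have hquad : (c : ℂ) * τ ^ 2 + ((d : ℂ) - a) * τ - b = 0 := by
    have hcC : (c : ℂ) ≠ 0 := by exact_mod_cast hc0
    have h1 : (c : ℂ) * ((c : ℂ) * τ ^ 2 + ((d : ℂ) - a) * τ - b) = 0 := by
      have h2 : ((c : ℂ) * τ - ((a : ℂ) - d) / 2) ^ 2 = -((s : ℂ) ^ 2 / 4) := by
        have h3 : (c : ℂ) * τ - ((a : ℂ) - d) / 2 =
            (((c : ℝ) / |(c : ℝ)| : ℝ) : ℂ) * ((s : ℂ) / 2) * Complex.I := by
          rw [hτ]
          have : (|(c : ℝ)| : ℝ) ≠ 0 := habs.ne'
          have h5 : ((|(c : ℝ)| : ℝ) : ℂ) ≠ 0 := by exact_mod_cast this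
          push_cast
          field_simp
          ring
        have h4 : ((c : ℝ) / |(c : ℝ)|) ^ 2 = 1 := by
          rw [div_pow, sq_abs, div_self (pow_ne_zero 2 hcR)]
        rw [h3, mul_pow, mul_pow, ← Complex.ofReal_pow, h4, Complex.I_sq]
        push_cast
        ring
      have h5 : (s : ℂ) ^ 2 = 4 - ((a : ℂ) + d) ^ 2 := by
        have := congrArg (fun x : ℝ => (x : ℂ)) hs2
        push_cast at this
        exact this
      have h6 : (a : ℂ) * d - b * c = 1 := by exact_mod_cast hdet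
      rw [h5] at h2
      linear_combination h2 + h6
    exact (mul_eq_zero.mp h1).resolve_left hcC
  apply UpperHalfPlane.ext
  rw [UpperHalfPlane.coe_specialLinearGroup_apply]
  have hden : (c : ℂ) * τ + d ≠ 0 := by
    intro h0
    have h1 := congrArg Complex.im h0
    have h2 : (τ : ℂ).im = s / (2 * |(c : ℝ)|) := rfl
    simp only [Complex.add_im, Complex.mul_im, Complex.intCast_re, Complex.intCast_im, zero_mul,
      add_zero, Complex.zero_im, h2] at h1
    rcases mul_eq_zero.mp h1 with h | h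
    · exact hcR h
    · have : 0 < s / (2 * |(c : ℝ)|) := by positivity
      exact this.ne' h
  change ((algebraMap ℤ ℝ (γ 0 0) : ℝ) * (τ : ℂ) + (algebraMap ℤ ℝ (γ 0 1) : ℝ)) /
    ((algebraMap ℤ ℝ (γ 1 0) : ℝ) * (τ : ℂ) + (algebraMap ℤ ℝ (γ 1 1) : ℝ)) = τ
  simp only [algebraMap_int_eq, eq_intCast, Complex.ofReal_intCast]
  rw [← ha, ← hb, ← hc, ← hd, div_eq_iff hden]
  linear_combination -hquad

section Tor

open H26

variable {N}
variable [Algebra (AlgebraicClosure ℚ) ℂ]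

/-- the character of a torsion point is trivial on parabolic and elliptic elements. -/
theorem kap_parEll {m : ℕ} [hm : NeZero m] (x : Tor N m) (γ : Gamma0 N)
    (hγ : H22.tr2 (γ : SL(2, ℤ)) ^ 2 ≤ 4) : kap x γ = 1 := by
  obtain ⟨f, hf, hfψ⟩ := kap_spec x
  have h1 := (embMF N).strongDvd hf.ne_zero hf.dvd
  rw [embMF_σ] at h1
  rcases hγ.lt_or_eq with h | h
  · obtain ⟨τ, hτ⟩ := exists_fix_of_tr2 h
    exact hfψ.eq_one_of_fix hm.out h1 γ hτ
  · rw [H22.tr2_def] at h
    exact hfψ.eq_one_of_trace_sq hm.out h1 γ h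

/-- **Bounded exponent on `J₀(N)[m]`**: there is `e > 0` such that for all `m` and every relation
`s` between the Hecke operators on `S₂(Γ₀(N))`, `e • s` kills `J₀(N)[m]`. -/
theorem exists_bound_torAct : ∃ e : ℕ, 0 < e ∧ ∀ (m : ℕ) [NeZero m] (x : Tor N m)
    (s : HeckeAlg) (_ : CuspForm.heckeEvalForms N 2 s = 0), e • torAct N m s x = 0 := by
  obtain ⟨e, he, h⟩ := exists_bound_hom N
  refine ⟨e, he, fun m _ x s hs => kappa_injective ?_⟩
  rw [map_nsmul, map_zero, H22.intertwine_heckeAct (torAct N m) (kappa N m) (fun ℓ w => by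
    rw [torAct_heckeGen, kappa_heckeTor])]
  exact h (kappa N m x) (fun γ hγ => kap_parEll x γ hγ) s hs

end Tor

end Fermat.Agent.H05
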