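import Fermat.Agent.H05.ALJac
import Fermat.Agent.Q.Package
import Fermat.Agent.Descent.Transfer2

/-!
# From the toric part to the local structure at `q ∥ N`, and transfer between levels
-/

set_option autoImplicit false
set_option linter.style.haveILetI false
set_option maxSynthPendingDepth 3

noncomputable section

open AlgebraicCurve ModularCurve

namespace Fermat.Agent.H05

local notation "Qb" => AlgebraicClosure ℚ
local notation "Γℚ" => AlgebraicClosure ℚ ≃ₐ[ℚ] AlgebraicClosure ℚ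

/-- inertia at `q` acts unipotently (of length two) on `J₀(N)[p ^ m]`. -/
def UniAt (p N q : ℕ) [NeZero N] : Prop :=
  ∀ (m : ℕ) (A : ValuationSubring (AlgebraicClosure ℚ)), A.LiesOverPrime q →
    ∀ τ ∈ A.inertiaSubgroupIn ℚ, ∀ x : JZero N, (p ^ m) • x = 0 →
      τ • (τ • x - x) = τ • x - x

/-- Frobenius at `q` on the `q`-new part of `J₀(M q)[p ^ m]`. -/
def NewAt (p M q : ℕ) [NeZero M] [NeZero q] (h : Nat.Coprime q M) : Prop :=
  ∀ (m : ℕ) (A : ValuationSubring (AlgebraicClosure ℚ)), A.LiesOverPrime q →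
    ∀ φ : Γℚ, A.IsFrobeniusAt φ q → ∀ x : JZero (M * q), (p ^ m) • x = 0 →
      degPush Qb M q x = 0 → degPush Qb M q (Q.wS M q h • x) = 0 →
      φ • φ • (φ • φ • x - x) = q ^ 2 • (φ • φ • x - x)

/-- The structure of the toric part at `q` of `J₀(M q)[p ^ m]`. -/
def ToricAt (p M q : ℕ) [NeZero M] [Fact q.Prime] (h : Nat.Coprime q M) : Prop :=
  ∀ (m : ℕ) (A : ValuationSubring (AlgebraicClosure ℚ)), A.LiesOverPrime q →
    (∀ τ ∈ A.inertiaSubgroupIn ℚ, ∀ x ∈ Q.TSub A M q (p ^ m) h, τ • x = x) ∧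
    (∀ φ : Γℚ, A.IsFrobeniusAt φ q → ∀ x ∈ Q.TSub A M q (p ^ m) h, φ • φ • x = q ^ 2 • x)

theorem aStar_eq_degPush (M r : ℕ) [NeZero M] [Fact r.Prime] (x : JZero (M * r)) :
    Q.aStar M r x = degPush Qb M r x := by
  obtain ⟨D, rfl⟩ := Pic0.mk_surjective x
  rfl

theorem uniAt_of_toric {p M q : ℕ} [NeZero M] [Fact q.Prime] (h : Nat.Coprime q M)
    (hT : ToricAt p M q h) : UniAt p (M * q) q := by
  intro m A hA τ hτ x hx
  exact (hT m A hA).1 τ hτ _ (Q.inertia_mem_TSub (M := M) (r := q) hA h τ hτ hx)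

theorem newAt_of_toric {p M q : ℕ} (hp : p ≠ 0) [NeZero M] [Fact q.Prime] (h : Nat.Coprime q M)
    (hT : ToricAt p M q h) : NewAt p M q h := by
  intro m A hA φ hφ x hx h1 h2
  apply (hT m A hA).2 φ hφ
  have hpm : p ^ m ≠ 0 := pow_ne_zero m hp
  set w := Q.wS M q h with hw
  have key : ∀ y : JZero (M * q), (p ^ m) • y = 0 → degPush Qb M q y = 0 →
      degPush Qb M q (w • y) = 0 → y + φ • w • y ∈ Q.TSub A M q (p ^ m) h :=
    fun y hy hy1 hy2 => Q.frobenius_mem_TSub (M := M) (r := q) hA h hpm φ hφ hy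
      ((aStar_eq_degPush M q y).trans hy1) ((aStar_eq_degPush M q _).trans hy2)
  have ht1 : (p ^ m) • w • x = 0 := by
    rw [Q.nsmul_wS, hx, smul_zero]
  have hww : w • w • x = x := Q.wS_wS M q h x
  -- `w x + φ x ∈ T`
  have k1 := key (w • x) ht1 h2 (by rw [hww]; exact h1)
  rw [hww] at k1
  -- `φ (w x) + φ φ w w x = φ (w x) + φ φ x ∈ T`
  have ht2 : (p ^ m) • φ • w • x = 0 := by
    have h3 := map_nsmul (DistribSMul.toAddMonoidHom (JZero (M * q)) φ) (p ^ m) (w • x)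
    rw [ht1, map_zero] at h3
    exact h3.symm
  have k2 := key (φ • w • x) ht2 (by rw [degPush_galois, h2, smul_zero]) (by
    rw [← Q.galois_wS, hww, degPush_galois, h1, smul_zero])
  rw [← Q.galois_wS, hww] at k2
  -- `x + φ w x ∈ T`
  have k3 := key x hx h1 h2
  have h4 : φ • φ • x - x = (φ • w • x + φ • φ • x) - (x + φ • w • x) := by abel
  rw [h4]
  exact sub_mem k2 k3

section Transfer

theorem intertwines_inc {N N' : ℕ} [NeZero N] [NeZero N'] (h : N ∣ N') (σ : Γℚ) :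
    SemilinearAut.IntertwinesAlong (inc Qb h).toRingHom
      (arithmeticGalois (modularFunctionFieldFull N) σ)
      (arithmeticGalois (modularFunctionFieldFull N') σ) := by
  intro x
  apply Subtype.ext
  change coeffMap (σ : Qb →+* Qb) ((inc Qb h x : _) : LaurentSeries Qb) =
    ((inc Qb h (arithmeticGalois (modularFunctionFieldFull N) σ • x) : _) : LaurentSeries Qb)
  rw [coe_inc, coe_inc]
  rfl

theorem inc_smul {N N' : ℕ} [NeZero N] [NeZero N'] (h : N ∣ N') (σ : Γℚ)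
    (f : modularFunctionFieldBar N) :
    inc Qb h (arithmeticGalois (modularFunctionFieldFull N) σ • f) =
      arithmeticGalois (modularFunctionFieldFull N') σ • inc Qb h f :=
  (intertwines_inc h σ f).symm

/-- injectivity of the pull back on torsion prime to the degree. -/
theorem eq_zero_of_kum_inc {N N' r : ℕ} [NeZero N] [NeZero N'] (hr : r.Prime) (hrN : ¬ r ∣ N)
    (h : N ∣ N') (hN' : N' = N * r) {p k : ℕ} (hp : p.Prime)
    (hpr : ¬ p ∣ r + 1) {x : JZero N} {f : modularFunctionFieldBar N} (hf : Kum (p ^ k) x f)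
    (h0 : Kum (p ^ k) (0 : JZero N') (inc Qb h f)) : x = 0 := by
  have hm : p ^ k ≠ 0 := pow_ne_zero _ hp.ne_zero
  obtain ⟨v₀, -⟩ := exists_place_infinity_bc Qb N'
  obtain ⟨g, -, hg⟩ := h0.exists_pow_of_zero (deg_eq_one_bc Qb N' v₀) hm
  have h3 : f ^ (r + 1) = normAlong (inc Qb h) g ^ (p ^ k) := by
    rw [← H26.normAlong_pow, ← hg, H26.normAlong_map, finrankAlong_inc_prime Qb hr h hN',
      if_neg hrN]
  obtain ⟨w₀, -⟩ := exists_place_infinity_bc Qb N
  have h1 : (r + 1) • x = 0 :=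
    ((H26.kum_nsmul hf (r + 1)).eq_zero_iff (deg_eq_one_bc Qb N w₀) hm).mpr ⟨_, h3⟩
  have h2 := hf.nsmul_eq_zero
  have hcop : Nat.Coprime (r + 1) (p ^ k) :=
    Nat.Coprime.pow_right _ ((Nat.Prime.coprime_iff_not_dvd hp).mpr hpr).symm
  obtain ⟨a, b, hab⟩ : ∃ a b : ℤ, a * (r + 1 : ℕ) + b * (p ^ k : ℕ) = 1 := by
    refine ⟨Nat.gcdA (r + 1) (p ^ k), Nat.gcdB (r + 1) (p ^ k), ?_⟩
    have := Nat.gcd_eq_gcd_ab (r + 1) (p ^ k)
    rw [Nat.Coprime.gcd_eq_one hcop] at this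
    rw [mul_comm, mul_comm (Nat.gcdB _ _), ← this]
    rfl
  have h3 : (a * (r + 1 : ℕ) + b * (p ^ k : ℕ)) • x = 0 := by
    rw [add_smul, mul_smul, mul_smul, natCast_zsmul, natCast_zsmul, h1, h2, smul_zero, smul_zero,
      add_zero]
  rwa [hab, one_smul] at h3

theorem uniAt_transfer {p N q r : ℕ} [NeZero N] [NeZero r] (hr : r.Prime) (hrN : ¬ r ∣ N)
    (hp : p.Prime) (hpr : ¬ p ∣ r + 1) {N' : ℕ} [NeZero N'] (hN' : N' = N * r)
    (h : UniAt p N' q) : UniAt p N q := by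
  intro m A hA τ hτ x hx
  have hd : N ∣ N' := ⟨r, hN'⟩
  obtain ⟨f, hf⟩ := exists_kum hx
  obtain ⟨x', hx'⟩ := H26.exists_kum_map (pow_ne_zero m hp.ne_zero) (inc Qb hd)
    (inc_isIntegral Qb hd) hf
  have h1 := h m A hA τ hτ x' hx'.nsmul_eq_zero
  have key : ∀ (M : ℕ) [NeZero M] (y : JZero M) (g : modularFunctionFieldBar M),
      Kum (p ^ m) y g → Kum (p ^ m) (τ • (τ • y - y) - (τ • y - y))
        ((arithmeticGalois (modularFunctionFieldFull M) τ •
          (arithmeticGalois (modularFunctionFieldFull M) τ • g * g⁻¹)) *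
          (arithmeticGalois (modularFunctionFieldFull M) τ • g * g⁻¹)⁻¹) := by
    intro M _ y g hg
    have hg1 := H26.kum_sub (hg.smul (arithmeticGalois (modularFunctionFieldFull M) τ)) hg
    exact H26.kum_sub (hg1.smul (arithmeticGalois (modularFunctionFieldFull M) τ)) hg1
  have h2 := key N x f hf
  have h3 := key N' x' _ hx'
  rw [h1, sub_self, ← inc_smul, ← map_inv₀, ← map_mul, ← inc_smul, ← map_inv₀, ← map_mul] at h3
  exact sub_eq_zero.mp (eq_zero_of_kum_inc hr hrN hd hN' hp hpr h2 h3)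

/-- Generation: the field of level `Mℓr` is generated by the fields of level `Mℓ` and `Mr`. -/
theorem gen_inc {M r ℓ M₁ M₂ M' : ℕ} [NeZero M] [NeZero M₁] [NeZero M₂] [NeZero M'] [NeZero ℓ]
    (hr : r.Prime) (hrℓ : ¬ r ∣ ℓ) (h₁ : M₁ = M * ℓ) (h₂ : M₂ = M * r)
    (h' : M' = M * ℓ * r) (hu : M₁ ∣ M') (hv : M₂ ∣ M')
    (S : Subfield (laurentBaseChange Qb (modularFunctionFieldFull M')))
    (hS₁ : ∀ x, inc Qb hu x ∈ S) (hS₂ : ∀ y, inc Qb hv y ∈ S) : S = ⊤ := by
  haveI : Fact r.Prime := ⟨hr⟩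
  subst h₁ h₂ h'
  -- the image of `S` in Laurent series
  let A : IntermediateField Qb (LaurentSeries Qb) :=
    { S.map (laurentBaseChange Qb (modularFunctionFieldFull (M * ℓ * r))).val.toRingHom with
      algebraMap_mem' := fun a => ⟨algebraMap Qb _ a, by
        have := hS₁ (algebraMap Qb _ a)
        rwa [AlgHom.commutes] at this, rfl⟩ }
  have hAmem : ∀ z : laurentBaseChange Qb (modularFunctionFieldFull (M * ℓ * r)),
      (z : LaurentSeries Qb) ∈ A ↔ z ∈ S := by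
    intro z
    constructor
    · rintro ⟨z', hz', he⟩
      have : z' = z := Subtype.ext he
      rwa [← this]
    · intro hz
      exact ⟨z, hz, rfl⟩
  have hA₁ : modularFunctionFieldFullC Qb (M * ℓ) ≤ A := by
    intro x hx
    rw [← laurentBaseChange_full] at hx
    have h1 := (hAmem _).mpr (hS₁ ⟨x, hx⟩)
    rwa [coe_inc] at h1
  have hA₂ : modularFunctionFieldFullC Qb (M * r) ≤ A := by
    intro x hx
    rw [← laurentBaseChange_full] at hx
    have h1 := (hAmem _).mpr (hS₂ ⟨x, hx⟩)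
    rwa [coe_inc] at h1
  obtain ⟨a, M₀, hM₀, hM⟩ := Nat.exists_eq_pow_mul_and_not_dvd (NeZero.ne M) r hr.ne_one
  haveI : NeZero M₀ := ⟨fun h => NeZero.ne M (by rw [hM, h, mul_zero])⟩
  have hrL : (r : Qb) ≠ 0 := by exact_mod_cast hr.ne_zero
  have hj3 : Igusa.jd Qb (r ^ a * r) ∈ A :=
    hA₂ (Igusa.jd_mem_full (by rw [hM]; exact mul_dvd_mul_right (dvd_mul_right _ _) r))
  have hcop : ¬ r ∣ M₀ * ℓ := by
    intro h
    rcases (Nat.Prime.dvd_mul hr).mp h with h | h
    · exact hM₀ h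
    · exact hrℓ h
  have hfull : modularFunctionFieldFullC Qb (M * ℓ * r) ≤ A := by
    have h1 := Igusa.full_le_adj (k := Qb) r a (M₀ * ℓ) hcop hrL
      (by exact_mod_cast NeZero.ne (M₀ * ℓ))
    have h2 : M * ℓ * r = r ^ a * (M₀ * ℓ) * r := by rw [hM]; ring
    have h3 : M * ℓ = r ^ a * (M₀ * ℓ) := by rw [hM]; ring
    have h4 : modularFunctionFieldFullC Qb (M * ℓ * r) =
        modularFunctionFieldFullC Qb (r ^ a * (M₀ * ℓ) * r) := by rw [h2]
    have h5 : modularFunctionFieldFullC Qb (M * ℓ) =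
        modularFunctionFieldFullC Qb (r ^ a * (M₀ * ℓ)) := by rw [h3]
    rw [h4]
    refine h1.trans (Igusa.adj_le (by rw [← h5]; exact hA₁) ?_)
    rwa [Igusa.jd_congr Qb (show r ^ (a + 1) = r ^ a * r by ring)]
  rw [eq_top_iff]
  intro z _
  rw [← hAmem]
  apply hfull
  rw [← laurentBaseChange_full]
  exact z.2

/-- the norm compatibility. -/
theorem inc_normAlong {M q r : ℕ} [NeZero M] [NeZero q] [NeZero r] (hq : q.Prime) (hrq : ¬ q ∣ r)
    (h1 : M ∣ M * r) (h2 : M * q ∣ M * r * q) (f : modularFunctionFieldBar (M * q)) :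
    inc Qb h1 (normAlong (heckeAlphaBar Qb M q) f) =
      normAlong (heckeAlphaBar Qb (M * r) q) (inc Qb h2 f) := by
  refine (normAlong_baseChange (inc Qb h1) (heckeAlphaBar Qb M q)
    (heckeAlphaBar Qb (M * r) q) (inc Qb h2) ?_
    (finiteAlong_alpha Qb M q) (finiteAlong_alpha Qb (M * r) q) ?_ ?_ f).symm
  · rw [heckeAlphaBar_eq, heckeAlphaBar_eq, inc_comp_inc, inc_comp_inc]
  · rw [heckeAlphaBar_eq]
    exact gen_inc hq hrq rfl rfl rfl (dvd_mul_right _ _) h2
  · rw [heckeAlphaBar_eq, heckeAlphaBar_eq,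
      finrankAlong_inc_prime Qb hq (dvd_mul_right (M * r) q) rfl,
      finrankAlong_inc_prime Qb hq (dvd_mul_right M q) rfl]
    have h3 : q ∣ M * r ↔ q ∣ M := by
      constructor
      · intro h
        rcases (Nat.Prime.dvd_mul hq).mp h with h | h
        · exact h
        · exact absurd h hrq
      · exact fun h => h.mul_right r
    simp only [h3]

/-- vanishing of the trace is inherited by the pull back. -/
theorem degPush_inc_eq_zero {M q r : ℕ} [NeZero M] [NeZero q] [NeZero r] (hq : q.Prime)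
    (hrq : ¬ q ∣ r) (h2 : M * q ∣ M * r * q) {m : ℕ} (hm : m ≠ 0)
    {x : JZero (M * q)} {f : modularFunctionFieldBar (M * q)} (hf : Kum m x f)
    (h0 : degPush Qb M q x = 0) {x' : JZero (M * r * q)} (hx' : Kum m x' (inc Qb h2 f)) :
    degPush Qb (M * r) q x' = 0 := by
  have h1 : M ∣ M * r := dvd_mul_right _ _
  have k1 := hf.degPush Qb
  rw [h0] at k1
  obtain ⟨v₀, -⟩ := exists_place_infinity_bc Qb M
  obtain ⟨g, -, hg⟩ := k1.exists_pow_of_zero (deg_eq_one_bc Qb M v₀) hm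
  have k2 := hx'.degPush Qb
  obtain ⟨w₀, -⟩ := exists_place_infinity_bc Qb (M * r)
  refine (k2.eq_zero_iff (deg_eq_one_bc Qb (M * r) w₀) hm).mpr ⟨inc Qb h1 g, ?_⟩
  rw [← inc_normAlong hq hrq h1 h2, hg, map_pow]

theorem newAt_transfer {p M q r : ℕ} [NeZero M] [NeZero q] [NeZero r] (hq : q.Prime)
    (hr : r.Prime) (hrM : ¬ r ∣ M) (hrq : r ≠ q)
    (hp : p.Prime) (hpr : ¬ p ∣ r + 1) (hqM : Nat.Coprime q M) (hqM' : Nat.Coprime q (M * r))
    (h : NewAt p (M * r) q hqM') : NewAt p M q hqM := by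
  intro m A hA φ hφ x hx hx1 hx2
  have hm : p ^ m ≠ 0 := pow_ne_zero m hp.ne_zero
  have hd : M * q ∣ M * r * q := ⟨r, by ring⟩
  have hqr : ¬ q ∣ r := fun h => hrq ((Nat.prime_dvd_prime_iff_eq hq hr).mp h).symm
  have hrN : ¬ r ∣ M * q := by
    intro h
    rcases (Nat.Prime.dvd_mul hr).mp h with h | h
    · exact hrM h
    · exact hrq ((Nat.prime_dvd_prime_iff_eq hr hq).mp h)
  obtain ⟨f, hf⟩ := exists_kum hx
  obtain ⟨x', hx'⟩ := H26.exists_kum_map hm (inc Qb hd) (inc_isIntegral Qb hd) hf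
  have h1 := degPush_inc_eq_zero hq hqr hd hm hf hx1 hx'
  have hwf : Kum (p ^ m) (Q.wS M q hqM • x) (Q.wBar M q hqM f) := hf.smul (Q.wS M q hqM)
  have hwf' : Kum (p ^ m) (Q.wS (M * r) q hqM' • x') (inc Qb hd (Q.wBar M q hqM f)) := by
    have := hx'.smul (Q.wS (M * r) q hqM')
    rw [Q.wS_smul_fun, wBar_inc hqM hqM' hd] at this
    exact this
  have h2 := degPush_inc_eq_zero hq hqr hd hm hwf hx2 hwf'
  have h3 := h m A hA φ hφ x' hx'.nsmul_eq_zero h1 h2
  have key : ∀ (N : ℕ) [NeZero N] (y : JZero N) (g : modularFunctionFieldBar N),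
      Kum (p ^ m) y g → Kum (p ^ m) (φ • φ • (φ • φ • y - y) - q ^ 2 • (φ • φ • y - y))
        ((arithmeticGalois (modularFunctionFieldFull N) φ •
          arithmeticGalois (modularFunctionFieldFull N) φ •
          (arithmeticGalois (modularFunctionFieldFull N) φ •
            arithmeticGalois (modularFunctionFieldFull N) φ • g * g⁻¹)) *
          ((arithmeticGalois (modularFunctionFieldFull N) φ •
            arithmeticGalois (modularFunctionFieldFull N) φ • g * g⁻¹) ^ (q ^ 2))⁻¹) := by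
    intro N _ y g hg
    have hg2 := H26.kum_sub ((hg.smul (arithmeticGalois (modularFunctionFieldFull N) φ)).smul
      (arithmeticGalois (modularFunctionFieldFull N) φ)) hg
    exact H26.kum_sub ((hg2.smul (arithmeticGalois (modularFunctionFieldFull N) φ)).smul
      (arithmeticGalois (modularFunctionFieldFull N) φ)) (H26.kum_nsmul hg2 (q ^ 2))
  have k2 := key (M * q) x f hf
  have k3 := key (M * r * q) x' _ hx'
  rw [h3, sub_self, ← inc_smul, ← inc_smul, ← map_inv₀, ← map_mul, ← inc_smul, ← inc_smul,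
    ← map_pow, ← map_inv₀, ← map_mul] at k3
  exact sub_eq_zero.mp (eq_zero_of_kum_inc hr hrN hd (by ring) hp hpr k2 k3)

end Transfer

/-- Unipotence of inertia at `q ∥ N` from the toric parts at levels divisible by `2` or `3`. -/
theorem uniAt_of_hyp {p q : ℕ} (hp : p.Prime) [hq : Fact q.Prime] (hqp : q ≠ p)
    (hT : ∀ (M : ℕ) [NeZero M] (h : Nat.Coprime q M), H26.Hyp M q → ToricAt p M q h)
    {M : ℕ} [NeZero M] (hqM : Nat.Coprime q M) : UniAt p (M * q) q := by
  have hqM' : ¬ q ∣ M := (Nat.Prime.coprime_iff_not_dvd hq.out).mp hqM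
  rcases H26.exists_aux hq.out hqM' hp hqp with h | ⟨r, hr, hrM, hrq, hpr, h⟩
  · exact uniAt_of_toric hqM (hT M hqM h)
  · haveI : NeZero r := ⟨hr.ne_zero⟩
    have hqM2 : Nat.Coprime q (M * r) := (Nat.Prime.coprime_iff_not_dvd hq.out).mpr h.1
    refine uniAt_transfer hr (fun h' => ?_) hp hpr (N' := M * r * q) (by ring)
      (uniAt_of_toric hqM2 (hT (M * r) hqM2 h))
    rcases (Nat.Prime.dvd_mul hr).mp h' with h' | h'
    · exact hrM h'
    · exact hrq ((Nat.prime_dvd_prime_iff_eq hr hq.out).mp h')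

/-- Frobenius on the `q`-new part from the toric parts at levels divisible by `2` or `3`. -/
theorem newAt_of_hyp {p q : ℕ} (hp : p.Prime) [hq : Fact q.Prime] (hqp : q ≠ p)
    (hT : ∀ (M : ℕ) [NeZero M] (h : Nat.Coprime q M), H26.Hyp M q → ToricAt p M q h)
    {M : ℕ} [NeZero M] (hqM : Nat.Coprime q M) : NewAt p M q hqM := by
  have hqM' : ¬ q ∣ M := (Nat.Prime.coprime_iff_not_dvd hq.out).mp hqM
  rcases H26.exists_aux hq.out hqM' hp hqp with h | ⟨r, hr, hrM, hrq, hpr, h⟩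
  · exact newAt_of_toric hp.ne_zero hqM (hT M hqM h)
  · haveI : NeZero r := ⟨hr.ne_zero⟩
    have hqM2 : Nat.Coprime q (M * r) := (Nat.Prime.coprime_iff_not_dvd hq.out).mpr h.1
    exact newAt_transfer hq.out hr hrM hrq hp hpr hqM hqM2
      (newAt_of_toric hp.ne_zero hqM2 (hT (M * r) hqM2 h))

end Fermat.Agent.H05
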