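import Fermat.Agent.H05.Toric
import Fermat.Agent.H05.NewRel
import Fermat.Agent.H05.Bounded
import Fermat.Agent.H05.Local
import Fermat.Agent.Descent.Input2

/-!
# The inputs `UnipotentInput` and `NewFrobInput` from the geometry of `J₀(N)`
-/

set_option autoImplicit false
set_option linter.style.haveILetI false
set_option maxSynthPendingDepth 3

noncomputable section

open AlgebraicCurve ModularCurve CongruenceSubgroup

namespace Fermat.Agent.H05

open Fermat.Agent.H26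

local notation "Qb" => AlgebraicClosure ℚ
local notation "Γℚ" => AlgebraicClosure ℚ ≃ₐ[ℚ] AlgebraicClosure ℚ

/-- The Eichler–Shimura relation on `J₀(N)[p ^ m]`. -/
def ESAt (p N : ℕ) [NeZero N] : Prop :=
  ∀ (m : ℕ) (ℓ : ℕ) (hℓ : ℓ.Prime), ¬ ℓ ∣ N → ℓ ≠ p →
    ∀ A : ValuationSubring (AlgebraicClosure ℚ), A.LiesOverPrime ℓ →
    ∀ φ : Γℚ, A.IsFrobeniusAt φ ℓ →
    ∀ x : JZero N, (p ^ m) • x = 0 →
      φ • φ • x - heckeOperatorBar N ⟨ℓ, hℓ⟩ (φ • x) + ℓ • x = 0

section Unipotent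

theorem es_forms [Algebra (AlgebraicClosure ℚ) ℂ] {N : ℕ} [NeZero N] {p : ℕ} {S : Set ℕ}
    (hES : ESAt p N) (m : ℕ) [NeZero (p ^ m)] {ℓ : ℕ} (hℓ : ℓ.Prime) (hℓN : ¬ ℓ ∣ N)
    (hℓS : ℓ ∉ S) (hℓp : ℓ ≠ p) (A : ValuationSubring (AlgebraicClosure ℚ))
    (hA : A.LiesOverPrime ℓ) (φ : Γℚ) (hφ : A.IsFrobeniusAt φ ℓ) (w : torForms N (p ^ m)) :
    formsGal N (p ^ m) φ (formsGal N (p ^ m) φ w) -
      H22.formsPartActAway N (torAct N (p ^ m)) S (CuspForm.heckeAlgebra.T hℓ hℓN hℓS)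
        (formsGal N (p ^ m) φ w) + ℓ • w = 0 := by
  refine Subtype.ext (Subtype.ext ?_)
  have h1 := hES m ℓ hℓ hℓN hℓp A hA φ hφ _ (tor_nsmul (w : Tor N (p ^ m)))
  have h2 := H22.formsPartActAway_T (torAct N (p ^ m)) hℓ hℓN hℓS (formsGal N (p ^ m) φ w)
  rw [torAct_heckeGen] at h2
  have h3 := congrArg (fun z : Tor N (p ^ m) => (z : JZero N)) h2
  simp only [Submodule.coe_add, Submodule.coe_sub, AddSubgroup.coe_add, AddSubgroup.coe_sub,
    Submodule.coe_smul, AddSubgroup.coe_nsmul, h3, coe_formsGal]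
  exact h1

theorem unipotentInput_aux [Algebra (AlgebraicClosure ℚ) ℂ] {N : ℕ} [NeZero N] {p : ℕ}
    (hp : p.Prime) (S : Set ℕ) {q : ℕ} (hU : UniAt p N q) (hES : ESAt p N) :
    UnipotentInput p N S q := by
  apply UnipotentInput.of_sq
  intro n
  obtain ⟨m, -, hm⟩ := H22.exists_transport (N := N) S hp n
  have hpm : p ^ m ≠ 0 := pow_ne_zero _ hp.ne_zero
  have : NeZero (p ^ m) := ⟨hpm⟩
  let ζ : ℂˣ := (Complex.isPrimitiveRoot_exp (p ^ m) hpm).isUnit hpm |>.unit
  have hζ : IsPrimitiveRoot ζ (p ^ m) := by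
    have := Complex.isPrimitiveRoot_exp (p ^ m) hpm
    exact IsPrimitiveRoot.coe_units_iff.mp this
  refine ⟨torForms N (p ^ m), inferInstance, H22.formsPartActAway N (torAct N (p ^ m)) S,
    formsGal N (p ^ m), m, fun w => ?_, formsGal_finiteLevel N (p ^ m), ?_, ?_, ?_⟩
  · exact Subtype.ext (Subtype.ext (tor_nsmul (w : Tor N (p ^ m))))
  · refine hm (torAct N (p ^ m)) (zetaHom ζ) (fun k hk => ?_) (kappa N (p ^ m)) kappa_injective
      (fun ℓ w => ?_) (fun ψ hψ => exists_kappa_eq (surjC N hpm) hζ hψ)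
    · exact (hζ.zpow_eq_one_iff_dvd k).mp (Additive.ofMul.injective hk)
    · rw [torAct_heckeGen, kappa_heckeTor]
  · intro ℓ hℓ hℓN hℓS hℓp A hA φ hφ w
    exact es_forms hES m hℓ hℓN hℓS hℓp A hA φ hφ w
  · intro A hA τ hτ w
    refine Subtype.ext (Subtype.ext ?_)
    exact hU m A hA τ hτ _ (tor_nsmul (w : Tor N (p ^ m)))

theorem unipotentInput_of {N : ℕ} [NeZero N] {p : ℕ} (hp : p.Prime) (S : Set ℕ) {q : ℕ}
    (hU : UniAt p N q) (hES : ESAt p N) : UnipotentInput p N S q := by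
  letI : Algebra (AlgebraicClosure ℚ) ℂ :=
    (IsAlgClosed.lift : AlgebraicClosure ℚ →ₐ[ℚ] ℂ).toRingHom.toAlgebra
  exact unipotentInput_aux hp S hU hES

end Unipotent

section Restrict

variable {W : Type*} [AddCommGroup W]

/-- restriction of a ring of endomorphisms to a stable submodule. -/
def restrictRing {A : Type*} [Ring A] (ρ : A →+* Module.End ℤ W) (W' : Submodule ℤ W)
    (h : ∀ a, ∀ w ∈ W', ρ a w ∈ W') : A →+* Module.End ℤ W' where
  toFun a := (ρ a).restrict (h a)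
  map_one' := LinearMap.ext fun w => Subtype.ext <| by
    rw [LinearMap.coe_restrict_apply, map_one]
    rfl
  map_mul' a b := LinearMap.ext fun w => Subtype.ext <| by
    rw [LinearMap.coe_restrict_apply, map_mul]
    rfl
  map_zero' := LinearMap.ext fun w => Subtype.ext <| by
    rw [LinearMap.coe_restrict_apply, map_zero]
    rfl
  map_add' a b := LinearMap.ext fun w => Subtype.ext <| by
    rw [LinearMap.coe_restrict_apply, map_add]
    rfl

theorem coe_restrictRing {A : Type*} [Ring A] (ρ : A →+* Module.End ℤ W) (W' : Submodule ℤ W)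
    (h : ∀ a, ∀ w ∈ W', ρ a w ∈ W') (a : A) (w : W') :
    ((restrictRing ρ W' h a w : W') : W) = ρ a w := rfl

/-- restriction of a group of endomorphisms to a stable submodule. -/
def restrictMon {A : Type*} [Monoid A] (ρ : A →* Module.End ℤ W) (W' : Submodule ℤ W)
    (h : ∀ a, ∀ w ∈ W', ρ a w ∈ W') : A →* Module.End ℤ W' where
  toFun a := (ρ a).restrict (h a)
  map_one' := LinearMap.ext fun w => Subtype.ext <| by
    rw [LinearMap.coe_restrict_apply, map_one]
    rfl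
  map_mul' a b := LinearMap.ext fun w => Subtype.ext <| by
    rw [LinearMap.coe_restrict_apply, map_mul]
    rfl

theorem coe_restrictMon {A : Type*} [Monoid A] (ρ : A →* Module.End ℤ W) (W' : Submodule ℤ W)
    (h : ∀ a, ∀ w ∈ W', ρ a w ∈ W') (a : A) (w : W') :
    ((restrictMon ρ W' h a w : W') : W) = ρ a w := rfl

theorem mul_eq_zero_of_restrict {A : Type*} [Ring A] (ρ : A →+* Module.End ℤ W)
    (W' : Submodule ℤ W) (h : ∀ a, ∀ w ∈ W', ρ a w ∈ W') (x a : A)
    (hx : restrictRing ρ W' h x = 0) (ha : ∀ w, ρ a w ∈ W') : ρ (x * a) = 0 := by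
  refine LinearMap.ext fun w => ?_
  rw [map_mul, Module.End.mul_apply]
  exact congrArg Subtype.val (LinearMap.congr_fun hx ⟨ρ a w, ha w⟩)

theorem finiteLevel_restrictMon {W : Type} [AddCommGroup W] (ρ : Γℚ →* Module.End ℤ W) (W' : Submodule ℤ W)
    (h : ∀ a, ∀ w ∈ W', ρ a w ∈ W') (hρ : GaloisFactorsThroughFiniteLevel ρ) :
    GaloisFactorsThroughFiniteLevel (restrictMon ρ W' h) := by
  obtain ⟨E, hE, hE'⟩ := hρ
  refine ⟨E, hE, fun σ hσ => LinearMap.ext fun w => Subtype.ext ?_⟩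
  rw [coe_restrictMon, hE' σ hσ]
  rfl

theorem es_restrict {A : Type*} [Ring A] (ρ : A →+* Module.End ℤ W) (r : Γℚ →* Module.End ℤ W)
    (W' : Submodule ℤ W) (h : ∀ a, ∀ w ∈ W', ρ a w ∈ W') (h' : ∀ a, ∀ w ∈ W', r a w ∈ W')
    (T : A) (φ : Γℚ) (ℓ : ℕ) (hES : ∀ w : W, r φ (r φ w) - ρ T (r φ w) + ℓ • w = 0) (w : W') :
    restrictMon r W' h' φ (restrictMon r W' h' φ w) -
      restrictRing ρ W' h T (restrictMon r W' h' φ w) + ℓ • w = 0 :=
  Subtype.ext (hES w)

/-- intertwining of Hecke polynomials with variables outside `S`. -/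
theorem awayPoly_intertwine {V V' : Type*} [AddCommGroup V] [AddCommGroup V'] {S : Set ℕ}
    (a : HeckeAlg →+* Module.End ℤ V) (b : HeckeAlg →+* Module.End ℤ V') (Φ : V →+ V')
    (h : ∀ ℓ : Nat.Primes, (ℓ : ℕ) ∉ S → ∀ v, Φ (a (heckeGen ℓ) v) = b (heckeGen ℓ) (Φ v))
    {t : HeckeAlg} (ht : t ∈ awayPoly S) (v : V) : Φ (a t v) = b t (Φ v) := by
  revert v
  refine awayPoly_induction (P := fun t => ∀ v, Φ (a t v) = b t (Φ v)) ?_ ?_ ?_ ?_ ht
  · intro ℓ hℓ v
    exact h ℓ hℓ v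
  · intro c v
    rw [eq_intCast, map_intCast, map_intCast, Module.End.intCast_apply, Module.End.intCast_apply,
      map_zsmul]
  · intro x y hx hy v
    rw [map_add, map_add, LinearMap.add_apply, LinearMap.add_apply, map_add, hx, hy]
  · intro x y hx hy v
    rw [map_mul, map_mul, Module.End.mul_apply, Module.End.mul_apply, hx, hy]

end Restrict

section New

variable (M q : ℕ) [NeZero M] [NeZero q] (m : ℕ)

theorem degPush_mem_tor {x : JZero (M * q)} (hx : x ∈ Tor (M * q) m) :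
    degPush Qb M q x ∈ Tor M m := by
  rw [mem_tor] at hx ⊢
  rw [← map_nsmul, hx, map_zero]

/-- the trace on `J₀(M q)[m]`. -/
def degTor : Tor (M * q) m →+ Tor M m where
  toFun x := ⟨degPush Qb M q x, degPush_mem_tor M q m x.2⟩
  map_zero' := Subtype.ext (map_zero _)
  map_add' x y := Subtype.ext (map_add _ _ _)

theorem coe_degTor (x : Tor (M * q) m) :
    ((degTor M q m x : Tor M m) : JZero M) = degPush Qb M q x := rfl

theorem wS_mem_tor (h : Nat.Coprime q M) {x : JZero (M * q)} (hx : x ∈ Tor (M * q) m) :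
    Q.wS M q h • x ∈ Tor (M * q) m := by
  rw [mem_tor] at hx ⊢
  have h1 := map_nsmul (DistribSMul.toAddMonoidHom (JZero (M * q)) (Q.wS M q h)) m x
  rw [hx, map_zero] at h1
  exact h1.symm

/-- the Atkin–Lehner involution on `J₀(M q)[m]`. -/
def wTor (h : Nat.Coprime q M) : Tor (M * q) m →+ Tor (M * q) m where
  toFun x := ⟨Q.wS M q h • (x : JZero (M * q)), wS_mem_tor M q m h x.2⟩
  map_zero' := Subtype.ext (smul_zero _)
  map_add' x y := Subtype.ext (smul_add _ _ _)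

theorem coe_wTor (h : Nat.Coprime q M) (x : Tor (M * q) m) :
    ((wTor M q m h x : Tor (M * q) m) : JZero (M * q)) = Q.wS M q h • (x : JZero (M * q)) := rfl

variable [Algebra (AlgebraicClosure ℚ) ℂ] [hm : NeZero m]

variable {M q m} in
theorem degTor_torAct (hq : q.Prime) {S : Set ℕ} (hqS : q ∈ S) {t : HeckeAlg}
    (ht : t ∈ awayPoly S) (x : Tor (M * q) m) :
    degTor M q m (torAct (M * q) m t x) = torAct M m t (degTor M q m x) := by
  refine awayPoly_intertwine (torAct (M * q) m) (torAct M m) (degTor M q m) (fun ℓ hℓ v => ?_) ht x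
  haveI : NeZero (ℓ : ℕ) := ⟨ℓ.2.ne_zero⟩
  rw [torAct_heckeGen, torAct_heckeGen]
  apply Subtype.ext
  exact degPush_hecke Qb ℓ.2 hq (fun h => hℓ (h ▸ hqS)) (v : JZero (M * q))

variable {M q m} in
theorem wTor_torAct (hq : q.Prime) (h : Nat.Coprime q M) {S : Set ℕ} (hqS : q ∈ S) {t : HeckeAlg}
    (ht : t ∈ awayPoly S) (x : Tor (M * q) m) :
    wTor M q m h (torAct (M * q) m t x) = torAct (M * q) m t (wTor M q m h x) := by
  refine awayPoly_intertwine (torAct (M * q) m) (torAct (M * q) m) (wTor M q m h)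
    (fun ℓ hℓ v => ?_) ht x
  haveI : NeZero (ℓ : ℕ) := ⟨ℓ.2.ne_zero⟩
  rw [torAct_heckeGen]
  apply Subtype.ext
  have hcop : Nat.Coprime q ℓ := (Nat.coprime_primes hq ℓ.2).mpr fun h' => hℓ (h' ▸ hqS)
  exact (heckeOperatorAlong_wS h hcop (v : JZero (M * q))).symm

/-- The `q`-new part of the forms part of `J₀(M q)[m]`. -/
def newSub (h : Nat.Coprime q M) : Submodule ℤ (torForms (M * q) m) where
  carrier := {w | degTor M q m (w : Tor (M * q) m) = 0 ∧
    degTor M q m (wTor M q m h (w : Tor (M * q) m)) = 0}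
  zero_mem' := ⟨map_zero _, by
    change degTor M q m (wTor M q m h 0) = 0
    rw [map_zero, map_zero]⟩
  add_mem' := by
    rintro x y ⟨hx, hx'⟩ ⟨hy, hy'⟩
    refine ⟨?_, ?_⟩
    · change degTor M q m ((x : Tor (M * q) m) + (y : Tor (M * q) m)) = 0
      rw [map_add, hx, hy, add_zero]
    · change degTor M q m (wTor M q m h ((x : Tor (M * q) m) + (y : Tor (M * q) m))) = 0
      rw [map_add, map_add, hx', hy', add_zero]
  smul_mem' := by
    rintro c x ⟨hx, hx'⟩
    refine ⟨?_, ?_⟩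
    · change degTor M q m (c • (x : Tor (M * q) m)) = 0
      rw [map_zsmul, hx, smul_zero]
    · change degTor M q m (wTor M q m h (c • (x : Tor (M * q) m))) = 0
      rw [map_zsmul, map_zsmul, hx', smul_zero]

variable {M q m}

theorem mem_newSub (h : Nat.Coprime q M) {w : torForms (M * q) m} : w ∈ newSub M q m h ↔
    degTor M q m (w : Tor (M * q) m) = 0 ∧
      degTor M q m (wTor M q m h (w : Tor (M * q) m)) = 0 := Iff.rfl

theorem hecke_mem_newSub (hq : q.Prime) (h : Nat.Coprime q M) {S : Set ℕ} (hqS : q ∈ S)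
    (x : CuspForm.heckeAlgebra (M * q) 2 S) (w : torForms (M * q) m) (hw : w ∈ newSub M q m h) :
    H22.formsPartActAway (M * q) (torAct (M * q) m) S x w ∈ newSub M q m h := by
  obtain ⟨t, rfl⟩ := awayEval_surjective S x
  have h1 := H22.formsPartActAway_apply (torAct (M * q) m) (awayEval (M * q) S t) (t : HeckeAlg)
    (coe_awayEval t).symm w
  rw [mem_newSub] at hw ⊢
  rw [h1, degTor_torAct hq hqS t.2, wTor_torAct hq h hqS t.2, degTor_torAct hq hqS t.2, hw.1, hw.2,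
    map_zero]
  exact ⟨rfl, rfl⟩

theorem galois_mem_newSub (h : Nat.Coprime q M) (σ : Γℚ) (w : torForms (M * q) m)
    (hw : w ∈ newSub M q m h) : formsGal (M * q) m σ w ∈ newSub M q m h := by
  rw [mem_newSub] at hw ⊢
  have h1 : degPush Qb M q ((w : Tor (M * q) m) : JZero (M * q)) = 0 :=
    congrArg (fun z : Tor M m => (z : JZero M)) hw.1
  have h2 : degPush Qb M q (Q.wS M q h • ((w : Tor (M * q) m) : JZero (M * q))) = 0 :=
    congrArg (fun z : Tor M m => (z : JZero M)) hw.2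
  refine ⟨Subtype.ext ?_, Subtype.ext ?_⟩
  · change degPush Qb M q (σ • ((w : Tor (M * q) m) : JZero (M * q))) = 0
    rw [degPush_galois, h1, smul_zero]
  · change degPush Qb M q (Q.wS M q h • σ • ((w : Tor (M * q) m) : JZero (M * q))) = 0
    rw [← Q.galois_wS, degPush_galois, h2, smul_zero]

theorem bound_mem_newSub (hq : q.Prime) (h : Nat.Coprime q M) {S : Set ℕ} (hqS : q ∈ S)
    (t₀ : awayPoly S) {e : ℕ}
    (hbound : ∀ x : Tor M m, e • torAct M m (t₀ : HeckeAlg) x = 0) (w : torForms (M * q) m) :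
    H22.formsPartActAway (M * q) (torAct (M * q) m) S (e * awayEval (M * q) S t₀) w ∈
      newSub M q m h := by
  have h1 := H22.formsPartActAway_apply (torAct (M * q) m) (awayEval (M * q) S t₀)
    (t₀ : HeckeAlg) (coe_awayEval t₀).symm w
  have h2 : H22.formsPartActAway (M * q) (torAct (M * q) m) S (e * awayEval (M * q) S t₀) w =
      e • (H22.formsPartActAway (M * q) (torAct (M * q) m) S (awayEval (M * q) S t₀) w) := by
    rw [map_mul, map_natCast, Module.End.mul_apply, Module.End.natCast_apply]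
  have h3 : ((H22.formsPartActAway (M * q) (torAct (M * q) m) S (e * awayEval (M * q) S t₀) w :
      torForms (M * q) m) : Tor (M * q) m) =
      e • torAct (M * q) m (t₀ : HeckeAlg) (w : Tor (M * q) m) := by
    rw [h2, ← h1]
    rfl
  rw [mem_newSub, h3]
  constructor
  · rw [map_nsmul, degTor_torAct hq hqS t₀.2]
    exact hbound _
  · rw [map_nsmul, map_nsmul, wTor_torAct hq h hqS t₀.2, degTor_torAct hq hqS t₀.2]
    exact hbound _

end New

theorem exists_val_bound {T : Type*} [CommRing T] [IsDomain T] [IsDiscreteValuationRing T]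
    {a : T} (ha : a ≠ 0) : ∃ v : ℕ, ∀ (x : T) (n : ℕ),
      x * a ∈ IsLocalRing.maximalIdeal T ^ (n + v) → x ∈ IsLocalRing.maximalIdeal T ^ n := by
  obtain ⟨ϖ, hϖ⟩ := IsDiscreteValuationRing.exists_irreducible T
  obtain ⟨v, u, hu⟩ := IsDiscreteValuationRing.eq_unit_mul_pow_irreducible ha hϖ
  refine ⟨v, fun x n hx => ?_⟩
  have hm : IsLocalRing.maximalIdeal T = Ideal.span {ϖ} :=
    (IsDiscreteValuationRing.irreducible_iff_uniformizer ϖ).mp hϖ
  rw [hm, Ideal.span_singleton_pow, Ideal.mem_span_singleton] at hx ⊢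
  obtain ⟨c, hc⟩ := hx
  have h0 : ϖ ^ v ≠ 0 := pow_ne_zero v hϖ.ne_zero
  have h1 : x * u = ϖ ^ n * c := by
    apply mul_right_cancel₀ h0
    calc x * u * ϖ ^ v = x * a := by rw [hu]; ring
      _ = ϖ ^ (n + v) * c := hc
      _ = ϖ ^ n * c * ϖ ^ v := by rw [pow_add]; ring
  refine ⟨c * ((u⁻¹ : Tˣ) : T), ?_⟩
  rw [← mul_assoc, ← h1, mul_assoc, Units.mul_inv, mul_one]

section NewFrob

theorem newFrobInput_aux [Algebra (AlgebraicClosure ℚ) ℂ] {M q p : ℕ} [NeZero M] [NeZero q]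
    (hp : p.Prime) (hq : q.Prime) (hqM : Nat.Coprime q M) (S : Set ℕ) (hqS : q ∈ S)
    {T : Type} [CommRing T] [IsDomain T] [IsDiscreteValuationRing T] [CharZero T]
    (hpT : (p : T) ∈ IsLocalRing.maximalIdeal T)
    (π : CuspForm.heckeAlgebra (M * q) 2 S →+* T) (t₀ : awayPoly S)
    (ht₀ : CuspForm.heckeEvalForms M 2 (t₀ : HeckeAlg) = 0)
    (hπ : π (awayEval (M * q) S t₀) ≠ 0)
    (hNew : NewAt p M q hqM) (hES : ESAt p (M * q)) :
    NewFrobInput p (M * q) S q π := by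
  intro n
  obtain ⟨e, he, hbound⟩ := exists_bound_torAct (N := M)
  have he0 : (e : T) ≠ 0 := by exact_mod_cast he.ne'
  obtain ⟨v, hv⟩ := exists_val_bound (mul_ne_zero he0 hπ)
  obtain ⟨m, -, hm⟩ := H22.exists_transport (N := M * q) S hp (n + v)
  have hpm : p ^ m ≠ 0 := pow_ne_zero _ hp.ne_zero
  have : NeZero (p ^ m) := ⟨hpm⟩
  let ζ : ℂˣ := (Complex.isPrimitiveRoot_exp (p ^ m) hpm).isUnit hpm |>.unit
  have hζ : IsPrimitiveRoot ζ (p ^ m) := by
    have := Complex.isPrimitiveRoot_exp (p ^ m) hpm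
    exact IsPrimitiveRoot.coe_units_iff.mp this
  have hfaith : ∀ x : CuspForm.heckeAlgebra (M * q) 2 S,
      H22.formsPartActAway (M * q) (torAct (M * q) (p ^ m)) S x = 0 →
        ∃ s : CuspForm.heckeAlgebra (M * q) 2 S, x = (p ^ (n + v) : ℕ) • s := by
    refine hm (torAct (M * q) (p ^ m)) (zetaHom ζ) (fun k hk => ?_) (kappa (M * q) (p ^ m))
      kappa_injective (fun ℓ w => ?_) (fun ψ hψ => exists_kappa_eq (surjC (M * q) hpm) hζ hψ)
    · exact (hζ.zpow_eq_one_iff_dvd k).mp (Additive.ofMul.injective hk)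
    · rw [torAct_heckeGen, kappa_heckeTor]
  refine ⟨newSub M q (p ^ m) hqM, inferInstance,
    restrictRing (H22.formsPartActAway (M * q) (torAct (M * q) (p ^ m)) S) (newSub M q (p ^ m) hqM)
      (hecke_mem_newSub hq hqM hqS),
    restrictMon (formsGal (M * q) (p ^ m)) (newSub M q (p ^ m) hqM) (galois_mem_newSub hqM), m,
    fun w => ?_, ?_, ?_, ?_, ?_⟩
  · exact Subtype.ext (Subtype.ext (Subtype.ext
      (tor_nsmul ((w : torForms (M * q) (p ^ m)) : Tor (M * q) (p ^ m)))))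
  · exact finiteLevel_restrictMon _ _ _ (formsGal_finiteLevel (M * q) (p ^ m))
  · intro x hx
    have h1 := mul_eq_zero_of_restrict _ _ _ x (e * awayEval (M * q) S t₀) hx
      (bound_mem_newSub hq hqM hqS t₀ fun y => hbound (p ^ m) y _ ht₀)
    obtain ⟨s, hs⟩ := hfaith _ h1
    apply hv
    rw [← map_natCast π, ← map_mul, ← map_mul, hs, nsmul_eq_mul, map_mul, map_natCast,
      Nat.cast_pow]
    exact Ideal.mul_mem_right _ _ (Ideal.pow_mem_pow hpT _)
  · intro ℓ hℓ hℓN hℓS hℓp A hA φ hφ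
    exact es_restrict _ _ _ _ _ _ φ ℓ (es_forms hES m hℓ hℓN hℓS hℓp A hA φ hφ)
  · intro A hA φ hφ w
    refine Subtype.ext (Subtype.ext (Subtype.ext ?_))
    have hw := w.2
    rw [mem_newSub] at hw
    exact hNew m A hA φ hφ _
      (tor_nsmul ((w : torForms (M * q) (p ^ m)) : Tor (M * q) (p ^ m)))
      (congrArg (fun z : Tor M (p ^ m) => (z : JZero M)) hw.1)
      (congrArg (fun z : Tor M (p ^ m) => (z : JZero M)) hw.2)

theorem newFrobInput_of {M q p : ℕ} [NeZero M] [NeZero q]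
    (hp : p.Prime) (hq : q.Prime) (hqM : Nat.Coprime q M) (S : Set ℕ) (hqS : q ∈ S)
    {T : Type} [CommRing T] [IsDomain T] [IsDiscreteValuationRing T] [CharZero T]
    (hpT : (p : T) ∈ IsLocalRing.maximalIdeal T)
    (π : CuspForm.heckeAlgebra (M * q) 2 S →+* T) (t₀ : awayPoly S)
    (ht₀ : CuspForm.heckeEvalForms M 2 (t₀ : HeckeAlg) = 0)
    (hπ : π (awayEval (M * q) S t₀) ≠ 0)
    (hNew : NewAt p M q hqM) (hES : ESAt p (M * q)) :
    NewFrobInput p (M * q) S q π := by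
  letI : Algebra (AlgebraicClosure ℚ) ℂ :=
    (IsAlgClosed.lift : AlgebraicClosure ℚ →ₐ[ℚ] ℂ).toRingHom.toAlgebra
  exact newFrobInput_aux hp hq hqM S hqS hpT π t₀ ht₀ hπ hNew hES

end NewFrob

end Fermat.Agent.H05
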