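import Fermat.Agent.H05.HeckeComm
import Fermat.Agent.Q.Galois

/-!
# The trace map and the Atkin–Lehner involution on `J₀(N)`
-/

set_option autoImplicit false
set_option linter.style.haveILetI false
set_option linter.unusedSectionVars false
set_option maxSynthPendingDepth 3

noncomputable section

open AlgebraicCurve ModularCurve

namespace Fermat.Agent.H05

section Generic

variable {K F F' : Type*} [Field K] [Field F] [Field F'] [Algebra K F] [Algebra K F']

/-- Push-forward on degree zero divisors along an embedding. -/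
def pushDegZero (φ : F →ₐ[K] F') (hφ : φ.toRingHom.IsIntegral) :
    Divisor.degZero (K := K) (F := F') →+ Divisor.degZero (K := K) (F := F) :=
  ((Divisor.pushforwardAlong φ hφ).domRestrict (Divisor.degZero (K := K) (F := F'))).codRestrict _
    (fun D => Divisor.pushforwardAlong_mem_degZero φ hφ D.2)

@[simp]
theorem coe_pushDegZero (φ : F →ₐ[K] F') (hφ : φ.toRingHom.IsIntegral)
    (D : Divisor.degZero (K := K) (F := F')) :
    (pushDegZero φ hφ D : Divisor K F) = Divisor.pushforwardAlong φ hφ (D : Divisor K F') := rfl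

/-- Push-forward on divisor classes along an embedding. -/
def pushPic (φ : F →ₐ[K] F') (hφ : φ.toRingHom.IsIntegral) (hfin : FiniteAlong K φ)
    (hN : NormFormulaAlong K φ hfin) : Pic0 K F' →+ Pic0 K F :=
  QuotientAddGroup.map _ _ (pushDegZero φ hφ) (by
    rintro ⟨D, hD0⟩ hD
    simp only [AddSubgroup.mem_addSubgroupOf] at hD ⊢
    exact Divisor.isPrincipal_pushforwardAlong φ hφ hfin hN hD)

theorem pushPic_mk (φ : F →ₐ[K] F') (hφ : φ.toRingHom.IsIntegral) (hfin : FiniteAlong K φ)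
    (hN : NormFormulaAlong K φ hfin) (D : Divisor.degZero (K := K) (F := F')) :
    pushPic φ hφ hfin hN (Pic0.mk D) = Pic0.mk (pushDegZero φ hφ D) := rfl

theorem pushPic_smul (φ : F →ₐ[K] F') (hφ : φ.toRingHom.IsIntegral) (hfin : FiniteAlong K φ)
    (hN : NormFormulaAlong K φ hfin) {g : SemilinearAut K F} {g' : SemilinearAut K F'}
    (h : SemilinearAut.IntertwinesAlong φ.toRingHom g g') (hd : ∀ w : Place K F', w.deg ≠ 0)
    (x : Pic0 K F') : pushPic φ hφ hfin hN (g' • x) = g • pushPic φ hφ hfin hN x := by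
  obtain ⟨D, rfl⟩ := Pic0.mk_surjective x
  rw [SemilinearAut.pic0_smul_mk, pushPic_mk, pushPic_mk, SemilinearAut.pic0_smul_mk]
  congr 1
  apply Subtype.ext
  rw [coe_pushDegZero, SemilinearAut.coe_degZeroSMulHom, SemilinearAut.coe_degZeroSMulHom,
    coe_pushDegZero]
  exact pushforwardAlong_smul φ hφ h hd _

theorem Kum.pushPic (φ : F →ₐ[K] F') (hφ : φ.toRingHom.IsIntegral) (hfin : FiniteAlong K φ)
    (hN : NormFormulaAlong K φ hfin) {m : ℕ} {y : Pic0 K F'} {g : F'} (h : Kum m y g) :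
    Kum m (pushPic φ hφ hfin hN y) (normAlong φ g) := by
  obtain ⟨hg, D, rfl, hD⟩ := h
  refine ⟨?_, pushDegZero φ hφ D, rfl, fun v => ?_⟩
  · letI := algebraAlong φ
    haveI : Module.Finite F F' := hfin
    exact Algebra.norm_ne_zero_iff.mpr hg
  · rw [coe_pushDegZero]
    have h1 := pushforwardAlong_eq_ord φ hφ hfin hN (m • (D : Divisor K F')) g hg (fun w => by
      rw [← hD]
      simp) v
    rw [← h1, map_nsmul]
    simp

end Generic

section Degeneracy

variable (L : Type*) [Field L] [Algebra ℚ L]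

/-- **The trace** `J₀(M r) → J₀(M)`. -/
def degPush (M r : ℕ) [NeZero M] [NeZero r] :
    Pic0 L (laurentBaseChange L (modularFunctionFieldFull (M * r))) →+
      Pic0 L (laurentBaseChange L (modularFunctionFieldFull M)) :=
  haveI : CharZero L := charZero_of_injective_algebraMap (algebraMap ℚ L).injective
  pushPic (heckeAlphaBar L M r) (heckeAlphaBarIntegral L M r) (finiteAlong_alpha L M r)
    (normFormulaAlong_of _ _)

theorem Kum.degPush {M r : ℕ} [NeZero M] [NeZero r] {m : ℕ}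
    {y : Pic0 L (laurentBaseChange L (modularFunctionFieldFull (M * r)))}
    {g : laurentBaseChange L (modularFunctionFieldFull (M * r))} (h : Kum m y g) :
    Kum m (degPush L M r y) (normAlong (heckeAlphaBar L M r) g) :=
  haveI : CharZero L := charZero_of_injective_algebraMap (algebraMap ℚ L).injective
  h.pushPic (heckeAlphaBar L M r) _ _ _

variable [IsAlgClosed L]

theorem degPush_galois (M r : ℕ) [NeZero M] [NeZero r] (σ : L ≃ₐ[ℚ] L)
    (x : Pic0 L (laurentBaseChange L (modularFunctionFieldFull (M * r)))) :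
    degPush L M r (σ • x) = σ • degPush L M r x := by
  haveI : CharZero L := charZero_of_injective_algebraMap (algebraMap ℚ L).injective
  rw [galois_smul_pic0_def, galois_smul_pic0_def]
  exact pushPic_smul _ _ _ _ (intertwines_alpha L M r σ)
    (fun w => by rw [deg_eq_one_bc]; exact one_ne_zero) x

/-- The trace to level `M` commutes with the Hecke operator `T_ℓ`, `ℓ ≠ r`. -/
theorem degPush_hecke {M r ℓ : ℕ} [NeZero M] [NeZero r] [NeZero ℓ] (hℓ : ℓ.Prime) (hr : r.Prime)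
    (hrℓ : r ≠ ℓ) (x : Pic0 L (laurentBaseChange L (modularFunctionFieldFull (M * r)))) :
    degPush L M r (heckeOperatorAlong L (M * r) ℓ x) =
      heckeOperatorAlong L M ℓ (degPush L M r x) := by
  haveI : CharZero L := charZero_of_injective_algebraMap (algebraMap ℚ L).injective
  have key : ∀ (N : ℕ) [NeZero N] (D : Divisor.degZero (K := L)
      (F := laurentBaseChange L (modularFunctionFieldFull N))),
      ∃ h : heckeDivBar (heckeAlphaBarIntegral L N ℓ) (heckeBetaBarIntegral L N ℓ) (D : _) ∈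
        Divisor.degZero (K := L) (F := laurentBaseChange L (modularFunctionFieldFull N)),
      heckeOperatorAlong L N ℓ (Pic0.mk D) = Pic0.mk ⟨_, h⟩ := by
    intro N _ D
    rw [heckeOperatorAlong_eq (heckeAlphaBarIntegral L N ℓ) (heckeBetaBarIntegral L N ℓ)
      (fundamentalIdentityAlong_of _ _ (finiteAlong_beta L N ℓ)) (finiteAlong_alpha L N ℓ)
      (normFormulaAlong_of _ _)]
    exact ⟨(Pic0.degZeroCorrespondence (heckeBetaBar L N ℓ) (heckeAlphaBar L N ℓ)
      (heckeBetaBarIntegral L N ℓ) (heckeAlphaBarIntegral L N ℓ)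
      (fundamentalIdentityAlong_of _ _ (finiteAlong_beta L N ℓ)) D).2, rfl⟩
  obtain ⟨D, rfl⟩ := Pic0.mk_surjective x
  obtain ⟨h1, e1⟩ := key (M * r) D
  obtain ⟨h2, e2⟩ := key M (pushDegZero (heckeAlphaBar L M r) (heckeAlphaBarIntegral L M r) D)
  rw [e1, degPush, pushPic_mk, pushPic_mk, e2]
  congr 1
  apply Subtype.ext
  rw [coe_pushDegZero]
  change Divisor.pushforwardAlong (heckeAlphaBar L M r) (heckeAlphaBarIntegral L M r)
    (Divisor.pushforwardAlong (heckeAlphaBar L (M * r) ℓ) (heckeAlphaBarIntegral L (M * r) ℓ)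
      (Divisor.pullbackAlong (heckeBetaBar L (M * r) ℓ) (heckeBetaBarIntegral L (M * r) ℓ)
        (D : Divisor L _))) =
    Divisor.pushforwardAlong (heckeAlphaBar L M ℓ) (heckeAlphaBarIntegral L M ℓ)
      (Divisor.pullbackAlong (heckeBetaBar L M ℓ) (heckeBetaBarIntegral L M ℓ)
        (Divisor.pushforwardAlong (heckeAlphaBar L M r) (heckeAlphaBarIntegral L M r)
          (D : Divisor L _)))
  -- base change
  have hM' : M * r * ℓ = M * ℓ * r := by ring
  have hu : M * ℓ ∣ M * r * ℓ := ⟨r, hM'⟩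
  have hv : M * r * ℓ ∣ M * r * ℓ := dvd_rfl
  have hbc := baseChange_formula (heckeBetaBar L M ℓ) (heckeAlphaBar L M r) (inc L hu)
    (heckeBetaBar L (M * r) ℓ) (heckeBetaBarIntegral L M ℓ) (heckeAlphaBarIntegral L M r)
    (inc_isIntegral L hu) (heckeBetaBarIntegral L (M * r) ℓ)
    (comp_comm L (dvd_refl (M * ℓ)) (dvd_mul_right M r) hu hv)
    (finiteAlong_alpha L M r) (finiteAlong_inc L hu)
    (normFormulaAlong_of _ _) (normFormulaAlong_of _ _)
    (gen_prime L hr hℓ hrℓ rfl rfl hM' hu hv)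
    (by
      rw [finrankAlong_inc_prime L hr hu hM', heckeAlphaBar_eq,
        finrankAlong_inc_prime L hr (dvd_mul_right M r) rfl]
      have h3 : r ∣ M * ℓ ↔ r ∣ M := by
        constructor
        · intro h
          rcases (Nat.Prime.dvd_mul hr).mp h with h | h
          · exact h
          · exact absurd ((Nat.prime_dvd_prime_iff_eq hr hℓ).mp h) hrℓ
        · exact fun h => h.mul_right ℓ
      simp only [h3])
    (D : Divisor L _)
  have hd : ∀ w : Place L (laurentBaseChange L (modularFunctionFieldFull (M * r * ℓ))),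
      w.deg ≠ 0 := fun w => by rw [deg_eq_one_bc]; exact one_ne_zero
  rw [hbc]
  have e3 : (heckeAlphaBar L (M * r) ℓ).comp (heckeAlphaBar L M r) =
      (inc L hu).comp (heckeAlphaBar L M ℓ) := by
    rw [heckeAlphaBar_eq, heckeAlphaBar_eq, heckeAlphaBar_eq, inc_comp_inc, inc_comp_inc]
  have i1 : ((inc L hu).comp (heckeAlphaBar L M ℓ)).toRingHom.IsIntegral :=
    RingHom.IsIntegral.trans _ _ (heckeAlphaBarIntegral L M ℓ) (inc_isIntegral L hu)
  have i2 : ((heckeAlphaBar L (M * r) ℓ).comp (heckeAlphaBar L M r)).toRingHom.IsIntegral := by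
    rw [e3]; exact i1
  rw [← pushforwardAlong_comp _ _ _ (inc_isIntegral L hu) i1 hd,
    ← pushforwardAlong_comp _ _ _ (heckeAlphaBarIntegral L (M * r) ℓ) i2 hd]
  exact pushforwardAlong_congr e3 i2 i1 _

end Degeneracy

section ExtGen

variable {F L : Type*} [Field F] [Field L] [Algebra F L]

/-- extensionality on generators, for a field included in another one. -/
theorem apply_eq_of_gen_incl {E E' : IntermediateField F L} (hle : E ≤ E') (S : Set L)
    (hS : E = IntermediateField.adjoin F S) (φ : E' →ₐ[F] L) (ψ : E →ₐ[F] L)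
    (h : ∀ s (hs : s ∈ E) (hs' : s ∈ E'), s ∈ S → φ ⟨s, hs'⟩ = ψ ⟨s, hs⟩)
    (x : L) (hx : x ∈ E) (hx' : x ∈ E') : φ ⟨x, hx'⟩ = ψ ⟨x, hx⟩ := by
  subst hS
  have key : φ.comp (IntermediateField.inclusion hle) = ψ := by
    apply IntermediateField.adjoin_algHom_ext
    intro s hs
    exact h s _ (hle (IntermediateField.subset_adjoin F S hs)) hs
  exact congrArg (fun f : IntermediateField.adjoin F S →ₐ[F] L => f ⟨x, hx⟩) key

/-- extensionality on generators, for a field mapped into another one. -/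
theorem apply_eq_of_gen_map {E E' : IntermediateField F L} (q : L →ₐ[F] L)
    (hq : ∀ x ∈ E, q x ∈ E') (S : Set L)
    (hS : E = IntermediateField.adjoin F S) (φ : E' →ₐ[F] L) (ψ : E →ₐ[F] L)
    (h : ∀ s (hs : s ∈ E) (hs' : q s ∈ E'), s ∈ S → φ ⟨q s, hs'⟩ = q (ψ ⟨s, hs⟩))
    (x : L) (hx : x ∈ E) (hx' : q x ∈ E') : φ ⟨q x, hx'⟩ = q (ψ ⟨x, hx⟩) := by
  subst hS
  let q' : IntermediateField.adjoin F S →ₐ[F] E' :=
    (q.comp (IntermediateField.adjoin F S).val).codRestrict E'.toSubalgebra (fun y => hq y y.2)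
  have key : φ.comp q' = q.comp ψ := by
    apply IntermediateField.adjoin_algHom_ext
    intro s hs
    exact h s _ (hq s (IntermediateField.subset_adjoin F S hs)) hs
  exact congrArg (fun f : IntermediateField.adjoin F S →ₐ[F] L => f ⟨x, hx⟩) key

end ExtGen

section AtkinLehnerFull

open Igusa

variable {K : Type*} [Field K] [Algebra ℚ K] [Algebra.IsAlgebraic ℚ K]
variable {M r ℓ : ℕ} [NeZero M] [NeZero r] [NeZero ℓ]

theorem mul_dvd_aux (M r ℓ : ℕ) : M * r ∣ M * ℓ * r := ⟨ℓ, by ring⟩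

theorem wQ_inc (h : Nat.Coprime r M) (h' : Nat.Coprime r (M * ℓ)) (x : LaurentSeries K)
    (hx : x ∈ modularFunctionFieldFullC K (M * r))
    (hx' : x ∈ modularFunctionFieldFullC K (M * ℓ * r)) :
    (Fermat.Agent.Q.wQ K h' ⟨x, hx'⟩ : LaurentSeries K) =
      (Fermat.Agent.Q.wQ K h ⟨x, hx⟩ : LaurentSeries K) := by
  refine apply_eq_of_gen_incl (full_degeneracyC_le K (mul_dvd_aux M r ℓ))
    (divisorExpansionsC K (M * r)) rfl
    ((modularFunctionFieldFullC K (M * ℓ * r)).val.comp (Fermat.Agent.Q.wHom K h'))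
    ((modularFunctionFieldFullC K (M * r)).val.comp (Fermat.Agent.Q.wHom K h)) ?_ x hx hx'
  intro s hs hs' hsS
  rw [← Fermat.Agent.Q.range_gen] at hsS
  obtain ⟨i, rfl⟩ := hsS
  have e1 : (Fermat.Agent.Q.wQ K h' ⟨jd K (i.1.1 * i.1.2), hs'⟩ : LaurentSeries K) =
      jd K ((Fermat.Agent.Q.sw i).1.1 * (Fermat.Agent.Q.sw i).1.2) :=
    Fermat.Agent.Q.coe_wQ_jd' K h' (e := (Fermat.Agent.Q.sw i).1.1 * (Fermat.Agent.Q.sw i).1.2)
      i.2.1 (i.2.2.mul_right ℓ) rfl rfl _
  have e2 : (Fermat.Agent.Q.wQ K h ⟨jd K (i.1.1 * i.1.2), hs⟩ : LaurentSeries K) =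
      jd K ((Fermat.Agent.Q.sw i).1.1 * (Fermat.Agent.Q.sw i).1.2) :=
    Fermat.Agent.Q.coe_wQ_jd' K h (e := (Fermat.Agent.Q.sw i).1.1 * (Fermat.Agent.Q.sw i).1.2)
      i.2.1 i.2.2 rfl rfl _
  exact e1.trans e2.symm

theorem qExpand_mem_aux {x : LaurentSeries K} (hx : x ∈ modularFunctionFieldFullC K (M * r)) :
    qExpand K ℓ x ∈ modularFunctionFieldFullC K (M * ℓ * r) := by
  have h1 := full_degeneracyC_map_le K (M * r) ℓ ⟨x, hx, rfl⟩
  exact full_degeneracyC_le K (dvd_of_eq (by ring)) h1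

theorem wQ_qExpand (h : Nat.Coprime r M) (h' : Nat.Coprime r (M * ℓ)) (x : LaurentSeries K)
    (hx : x ∈ modularFunctionFieldFullC K (M * r))
    (hx' : qExpand K ℓ x ∈ modularFunctionFieldFullC K (M * ℓ * r)) :
    (Fermat.Agent.Q.wQ K h' ⟨qExpand K ℓ x, hx'⟩ : LaurentSeries K) =
      qExpand K ℓ (Fermat.Agent.Q.wQ K h ⟨x, hx⟩ : LaurentSeries K) := by
  refine apply_eq_of_gen_map (qExpandAlgHomC K ℓ) (fun y hy => qExpand_mem_aux hy)
    (divisorExpansionsC K (M * r)) rfl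
    ((modularFunctionFieldFullC K (M * ℓ * r)).val.comp (Fermat.Agent.Q.wHom K h'))
    ((modularFunctionFieldFullC K (M * r)).val.comp (Fermat.Agent.Q.wHom K h)) ?_ x hx hx'
  intro s hs hs' hsS
  rw [← Fermat.Agent.Q.range_gen] at hsS
  obtain ⟨i, rfl⟩ := hsS
  have e0 : qExpandAlgHomC K ℓ (Fermat.Agent.Q.gen r M K i) = jd K (ℓ * (i.1.1 * i.1.2)) :=
    qExpand_jd K ℓ (i.1.1 * i.1.2)
  have hs'' : jd K (ℓ * (i.1.1 * i.1.2)) ∈ modularFunctionFieldFullC K (M * ℓ * r) := by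
    rw [← e0]; exact hs'
  have e1 : (Fermat.Agent.Q.wQ K h' ⟨jd K (ℓ * (i.1.1 * i.1.2)), hs''⟩ : LaurentSeries K) =
      jd K (ℓ * ((Fermat.Agent.Q.sw i).1.1 * (Fermat.Agent.Q.sw i).1.2)) := by
    refine Fermat.Agent.Q.coe_wQ_jd' K h' (d₁ := i.1.1) (d₂ := i.1.2 * ℓ)
      (e := ℓ * ((Fermat.Agent.Q.sw i).1.1 * (Fermat.Agent.Q.sw i).1.2)) i.2.1
      (mul_dvd_mul_right i.2.2 ℓ) (by ring) ?_ _
    change r / i.1.1 * (i.1.2 * ℓ) = ℓ * (r / i.1.1 * i.1.2)
    ring
  have e2 : qExpandAlgHomC K ℓ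
      (Fermat.Agent.Q.wQ K h ⟨jd K (i.1.1 * i.1.2), hs⟩ : LaurentSeries K) =
      jd K (ℓ * ((Fermat.Agent.Q.sw i).1.1 * (Fermat.Agent.Q.sw i).1.2)) := by
    have e3 : (Fermat.Agent.Q.wQ K h ⟨jd K (i.1.1 * i.1.2), hs⟩ : LaurentSeries K) =
        jd K ((Fermat.Agent.Q.sw i).1.1 * (Fermat.Agent.Q.sw i).1.2) :=
      Fermat.Agent.Q.coe_wQ_jd' K h (e := (Fermat.Agent.Q.sw i).1.1 * (Fermat.Agent.Q.sw i).1.2)
      i.2.1 i.2.2 rfl rfl _
    rw [e3]
    exact qExpand_jd K ℓ _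
  have e4 : (⟨qExpandAlgHomC K ℓ (Fermat.Agent.Q.gen r M K i), hs'⟩ :
      modularFunctionFieldFullC K (M * ℓ * r)) = ⟨jd K (ℓ * (i.1.1 * i.1.2)), hs''⟩ :=
    Subtype.ext e0
  rw [e4]
  exact e1.trans e2.symm

end AtkinLehnerFull

section AtkinLehner

local notation "Qb" => AlgebraicClosure ℚ

variable {M r : ℕ} [NeZero M] [NeZero r]

theorem coe_wBar_of_eq (h : Nat.Coprime r M) (y : modularFunctionFieldBar (M * r))
    (t : LaurentSeries Qb) (ht : t ∈ modularFunctionFieldFullC Qb (M * r))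
    (e : (y : LaurentSeries Qb) = t) :
    (Fermat.Agent.Q.wBar M r h y : LaurentSeries Qb) =
      (Fermat.Agent.Q.wQ Qb h ⟨t, ht⟩ : LaurentSeries Qb) := by
  subst e
  exact Fermat.Agent.Q.coe_wBar M r h y

theorem wBar_inc {ℓ : ℕ} [NeZero ℓ] (h : Nat.Coprime r M)
    (h' : Nat.Coprime r (M * ℓ)) (hinc : M * r ∣ M * ℓ * r)
    (x : modularFunctionFieldBar (M * r)) :
    Fermat.Agent.Q.wBar (M * ℓ) r h' (inc Qb hinc x) =
      inc Qb hinc (Fermat.Agent.Q.wBar M r h x) := by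
  have hx := Fermat.Agent.Q.mem_full_of_bar x.2
  have hx' : (x : LaurentSeries Qb) ∈ modularFunctionFieldFullC Qb (M * ℓ * r) :=
    full_degeneracyC_le Qb hinc hx
  apply Subtype.ext
  have e1 := coe_wBar_of_eq h' (inc Qb hinc x) (x : LaurentSeries Qb) hx' (coe_inc Qb hinc x)
  have e2 := wQ_inc h h' (x : LaurentSeries Qb) hx hx'
  have e3 := coe_wBar_of_eq h x (x : LaurentSeries Qb) hx rfl
  have e4 := coe_inc Qb hinc (Fermat.Agent.Q.wBar M r h x)
  exact (e1.trans e2).trans (e3.symm.trans e4.symm)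

theorem wBar_qe {ℓ : ℕ} [NeZero ℓ] (h : Nat.Coprime r M)
    (h' : Nat.Coprime r (M * ℓ)) (hinc : M * r * ℓ ∣ M * ℓ * r)
    (x : modularFunctionFieldBar (M * r)) :
    Fermat.Agent.Q.wBar (M * ℓ) r h' (qe Qb ℓ hinc x) =
      qe Qb ℓ hinc (Fermat.Agent.Q.wBar M r h x) := by
  have hx := Fermat.Agent.Q.mem_full_of_bar x.2
  have hx' : qExpand Qb ℓ (x : LaurentSeries Qb) ∈ modularFunctionFieldFullC Qb (M * ℓ * r) :=
    qExpand_mem_aux hx
  apply Subtype.ext
  have e1 := coe_wBar_of_eq h' (qe Qb ℓ hinc x) (qExpand Qb ℓ (x : LaurentSeries Qb)) hx'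
    (coe_qe Qb ℓ hinc x)
  have e2 := wQ_qExpand h h' (x : LaurentSeries Qb) hx hx'
  have e3 := congrArg (qExpand Qb ℓ) (coe_wBar_of_eq h x (x : LaurentSeries Qb) hx rfl)
  have e4 := coe_qe Qb ℓ hinc (Fermat.Agent.Q.wBar M r h x)
  exact (e1.trans e2).trans (e3.symm.trans e4.symm)

/-- There is an automorphism of the field of level `M r ℓ` compatible with `w_r`. -/
theorem exists_w_level {N' ℓ : ℕ} [NeZero ℓ] [NeZero N'] (hN' : N' = M * ℓ * r)
    (h : Nat.Coprime r M) (h' : Nat.Coprime r (M * ℓ)) (h1 : M * r ∣ N') (h2 : M * r * ℓ ∣ N') :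
    ∃ g' : SemilinearAut Qb (modularFunctionFieldBar N'),
      SemilinearAut.IntertwinesAlong (inc Qb h1).toRingHom (Fermat.Agent.Q.wS M r h) g' ∧
      SemilinearAut.IntertwinesAlong (qe Qb ℓ h2).toRingHom (Fermat.Agent.Q.wS M r h) g' := by
  subst hN'
  exact ⟨Fermat.Agent.Q.wS (M * ℓ) r h', fun x => wBar_inc h h' h1 x,
    fun x => wBar_qe h h' h2 x⟩

/-- The Atkin–Lehner involution `w_r` on `J₀(M r)` commutes with `T_ℓ`, `ℓ` coprime to `r`. -/
theorem heckeOperatorAlong_wS {ℓ : ℕ} [NeZero ℓ] (h : Nat.Coprime r M) (hℓ : Nat.Coprime r ℓ)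
    (x : JZero (M * r)) :
    heckeOperatorAlong Qb (M * r) ℓ (Fermat.Agent.Q.wS M r h • x) =
      Fermat.Agent.Q.wS M r h • heckeOperatorAlong Qb (M * r) ℓ x := by
  obtain ⟨hα, hβ, hP, hfin, hFI, hN⟩ := heckeInputsAlong Qb (M * r) ℓ
  obtain ⟨g', hg1, hg2⟩ := exists_w_level (M := M) (r := r) (N' := M * r * ℓ) (ℓ := ℓ) (by ring) h
    (Nat.Coprime.mul_right h hℓ) (dvd_mul_right _ _) (dvd_refl _)
  rw [heckeOperatorAlong_eq hα hβ hFI hfin hN]
  exact correspondence_smul (heckeBetaBar Qb (M * r) ℓ) (heckeAlphaBar Qb (M * r) ℓ) hβ hα hFI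
    hfin hN hg2 hg1 (fun w => by rw [deg_eq_one_bc]; exact one_ne_zero) x

end AtkinLehner

end Fermat.Agent.H05
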