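import Fermat.Agent.H05.OrdFinal
import Fermat.Agent.H05.Geom
import Fermat.Agent.Q.Package
import Fermat.Agent.H01.P.GeoHecke

/-!
# The geometric modules for the ordinary condition (S33)
-/

set_option autoImplicit false
set_option linter.style.haveILetI false
set_option maxSynthPendingDepth 3

noncomputable section

open AlgebraicCurve ModularCurve CongruenceSubgroup

namespace Fermat.Agent.H05

open Fermat.Agent.H26 Fermat.Agent.Q Fermat.Agent.Igusa

local notation "kk" => IsLocalRing.ResidueField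
local notation "Qb" => AlgebraicClosure ℚ
local notation "Γℚ" => AlgebraicClosure ℚ ≃ₐ[ℚ] AlgebraicClosure ℚ

section Decomposition

theorem infPow_coeffMap {K : Type*} [Field K] {A : ValuationSubring K} {M m : ℕ}
    {z : LaurentSeries K} (σ : K →+* K) (σ' : kk A →+* kk A)
    (hσ : ∀ x : A, ∃ hx : σ x ∈ A, IsLocalRing.residue A ⟨σ x, hx⟩ = σ' (IsLocalRing.residue A x))
    (h : InfPow A M m z) : InfPow A M m (coeffMap σ z) := by
  obtain ⟨c, hc, u, hu, hu0, h⟩ := h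
  refine ⟨σ c, (map_ne_zero σ).mpr hc, coeffMap σ' u, coeffMap_mem_full σ' M hu, ?_, ?_⟩
  · intro h0
    apply hu0
    apply coeffMap_injective σ' σ'.injective
    rw [h0, map_zero]
  · have h1 := h.coeffMap hσ
    rw [map_mul, map_pow] at h1
    have h3 : coeffMap σ (HahnSeries.C c) = HahnSeries.C (σ c) := by
      rw [← algebraMap_eq_C, coeffMap_algebraMap, algebraMap_eq_C]
    rwa [h3] at h1

/-- `K_∞` is stable under the decomposition group. -/
theorem decomposition_mem_KInf {M r m : ℕ} [NeZero M] [Fact r.Prime] {A : ValuationSubring Qb}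
    (σ : Γℚ) (hσ : σ ∈ A.decompositionSubgroup ℚ) {x : JZero (M * r)} (hx : x ∈ KInf A M r m) :
    σ • x ∈ KInf A M r m := by
  obtain ⟨f, hf, hf'⟩ := hx
  refine ⟨arithmeticGalois (modularFunctionFieldFull (M * r)) σ • f, ?_, ?_⟩
  · rw [galois_smul_pic0_def]
    exact hf.smul _
  · exact infPow_coeffMap (σ : Qb →+* Qb)
      (MulSemiringAction.toRingHom (A.decompositionSubgroup ℚ) (kk A) ⟨σ, hσ⟩)
      (decomposition_residue σ hσ) hf'

end Decomposition

section AwayPart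

variable {W : Type*} [AddCommGroup W] (N : ℕ) [NeZero N] (S : Set ℕ)
  (ρ : HeckeAlg →+* Module.End ℤ W)

/-- The part of a Hecke module killed by the Hecke polynomials away from `S` which vanish on
`S₂(Γ₀(N))`. -/
def awayPart : Submodule ℤ W where
  carrier := {w | ∀ t ∈ awayPoly S, CuspForm.heckeEvalForms N 2 t = 0 → ρ t w = 0}
  zero_mem' := fun t _ _ => map_zero _
  add_mem' {a b} ha hb := fun t hS ht => by rw [map_add, ha t hS ht, hb t hS ht, add_zero]
  smul_mem' c a ha := fun t hS ht => by rw [map_smul, ha t hS ht, smul_zero]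

variable {N S ρ} in
theorem mem_awayPart {w : W} : w ∈ awayPart N S ρ ↔
    ∀ t ∈ awayPoly S, CuspForm.heckeEvalForms N 2 t = 0 → ρ t w = 0 := Iff.rfl

variable {N S} in
theorem act_mem_awayPart (a : awayPoly S) (w : W) (hw : w ∈ awayPart N S ρ) :
    (ρ.comp (awayPoly S).val.toRingHom) a w ∈ awayPart N S ρ := fun s hs hs' => by
  change ρ s (ρ a w) = 0
  rw [← Module.End.mul_apply, ← map_mul, mul_comm, map_mul, Module.End.mul_apply, hw s hs hs',
    map_zero]

/-- the action of the Hecke polynomials away from `S`. -/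
def awayPartPoly : awayPoly S →+* Module.End ℤ (awayPart N S ρ) :=
  restrictRing (ρ.comp (awayPoly S).val.toRingHom) (awayPart N S ρ) (act_mem_awayPart ρ)

theorem coe_awayPartPoly (t : awayPoly S) (w : awayPart N S ρ) :
    ((awayPartPoly N S ρ t w : awayPart N S ρ) : W) = ρ (t : HeckeAlg) (w : W) := rfl

theorem eval_eq_zero_of_awayEval {t : awayPoly S} (h : awayEval N S t = 0) :
    CuspForm.heckeEvalForms N 2 (t : HeckeAlg) = 0 := by
  have h1 := coe_awayEval t (N := N)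
  rw [h, ZeroMemClass.coe_zero] at h1
  apply Subtype.val_injective
  rw [ZeroMemClass.coe_zero]
  exact h1.symm

theorem ker_le_awayPartPoly :
    RingHom.ker (awayEval N S) ≤ RingHom.ker (awayPartPoly N S ρ) := by
  intro t ht
  rw [RingHom.mem_ker] at ht ⊢
  have h1 := eval_eq_zero_of_awayEval N S ht
  refine LinearMap.ext fun w => Subtype.ext ?_
  rw [coe_awayPartPoly]
  exact w.2 t t.2 h1

/-- The action of the Hecke algebra away from `S`. -/
def awayPartAct : CuspForm.heckeAlgebra N 2 S →+* Module.End ℤ (awayPart N S ρ) :=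
  RingHom.liftOfSurjective (awayEval N S) (awayEval_surjective S)
    ⟨awayPartPoly N S ρ, ker_le_awayPartPoly N S ρ⟩

theorem awayPartAct_awayEval (t : awayPoly S) :
    awayPartAct N S ρ (awayEval N S t) = awayPartPoly N S ρ t :=
  RingHom.liftOfSurjective_comp_apply _ _ _ _

theorem coe_awayPartAct (t : awayPoly S) (w : awayPart N S ρ) :
    ((awayPartAct N S ρ (awayEval N S t) w : awayPart N S ρ) : W) = ρ (t : HeckeAlg) (w : W) := by
  rw [awayPartAct_awayEval, coe_awayPartPoly]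

theorem formsPart_le_awayPart : H22.formsPart N ρ ≤ awayPart N S ρ := fun _ hw t _ ht => hw t ht

/-- an operator which vanishes on the away part vanishes on the forms part. -/
theorem formsPartActAway_eq_zero {x : CuspForm.heckeAlgebra N 2 S}
    (hx : awayPartAct N S ρ x = 0) : H22.formsPartActAway N ρ S x = 0 := by
  obtain ⟨t, rfl⟩ := awayEval_surjective S x
  refine LinearMap.ext fun w => Subtype.ext ?_
  have h1 := H22.formsPartActAway_apply ρ (awayEval N S t) (t : HeckeAlg)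
    (coe_awayEval t).symm w
  rw [h1]
  have h2 := congrArg Subtype.val
    (LinearMap.congr_fun hx ⟨(w : W), formsPart_le_awayPart N S ρ w.2⟩)
  rw [coe_awayPartAct] at h2
  exact h2

/-- operators commuting with the Hecke polynomials restrict to the away part. -/
theorem comm_mem_awayPart (f : Module.End ℤ W)
    (hf : ∀ t ∈ awayPoly S, ∀ w, f (ρ t w) = ρ t (f w)) (w : W) (hw : w ∈ awayPart N S ρ) :
    f w ∈ awayPart N S ρ := fun t hS ht => by
  rw [← hf t hS, hw t hS ht, map_zero]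

/-- the restriction of an operator commuting with the Hecke polynomials. -/
def awayRes (f : Module.End ℤ W) (hf : ∀ t ∈ awayPoly S, ∀ w, f (ρ t w) = ρ t (f w)) :
    Module.End ℤ (awayPart N S ρ) :=
  f.restrict (comm_mem_awayPart N S ρ f hf)

theorem coe_awayRes (f : Module.End ℤ W) (hf : ∀ t ∈ awayPoly S, ∀ w, f (ρ t w) = ρ t (f w))
    (w : awayPart N S ρ) : ((awayRes N S ρ f hf w : awayPart N S ρ) : W) = f w := rfl

theorem awayRes_act (f : Module.End ℤ W) (hf : ∀ t ∈ awayPoly S, ∀ w, f (ρ t w) = ρ t (f w))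
    (x : CuspForm.heckeAlgebra N 2 S) (w : awayPart N S ρ) :
    awayRes N S ρ f hf (awayPartAct N S ρ x w) = awayPartAct N S ρ x (awayRes N S ρ f hf w) := by
  obtain ⟨t, rfl⟩ := awayEval_surjective S x
  apply Subtype.ext
  rw [coe_awayPartAct, coe_awayRes, coe_awayPartAct, coe_awayRes, hf t t.2]

end AwayPart

section Concrete

/-- The geometric theorem at `p ∥ N` (GEO). -/
def GeoOrd (p M : ℕ) [NeZero M] [hp : Fact p.Prime] (hpM : Nat.Coprime p M)
    (A : ValuationSubring Qb) : Prop :=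
  ∀ X : AddSubgroup (JZero (M * p)), Finite X → (∀ x ∈ X, x ∈ KInf A M p p) →
    (∀ σ : Γℚ, ∀ x ∈ X, σ • x ∈ X) → (∀ x ∈ X, wS M p hpM • x ∈ X) →
    (∀ x ∈ X, P.aUp M p (aStar M p x) ∈ X) →
    (∀ σ ∈ A.inertiaSubgroupIn ℚ, ∀ a : ℕ, (∀ ζ : Qb, ζ ^ p = 1 → σ ζ = ζ ^ a) →
      ∀ x ∈ X, σ • σ • x - (a + 1) • σ • x + a • x = 0) →
    ∀ σ ∈ A.inertiaSubgroupIn ℚ, ∀ a : ℕ, (∀ ζ : Qb, ζ ^ p = 1 → σ ζ = ζ ^ a) →
      ∀ x ∈ X, σ • x = a • x

variable {M p : ℕ} [NeZero M] [hp : Fact p.Prime] [Algebra (AlgebraicClosure ℚ) ℂ]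

theorem wTor_comm (hpM : Nat.Coprime p M) (m : ℕ) [NeZero m] {S : Set ℕ} (hpS : p ∈ S) :
    ∀ t ∈ awayPoly S, ∀ w, (wTor M p m hpM).toIntLinearMap (torAct (M * p) m t w) =
      torAct (M * p) m t ((wTor M p m hpM).toIntLinearMap w) :=
  fun _ ht w => wTor_torAct hp.out hpM hpS ht w

/-- the operator `a^* a_*` on `J₀(M p)[m]`. -/
def pTor (M p : ℕ) [NeZero M] [Fact p.Prime] (m : ℕ) : Module.End ℤ (Tor (M * p) m) :=
  torRestrict m ((P.aUp M p).comp (aStar M p)).toIntLinearMap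

omit [Algebra (AlgebraicClosure ℚ) ℂ] in
theorem coe_pTor (m : ℕ) (x : Tor (M * p) m) :
    ((pTor M p m x : Tor (M * p) m) : JZero (M * p)) =
      P.aUp M p (aStar M p (x : JZero (M * p))) := rfl

theorem pTor_comm (m : ℕ) [hm : NeZero m] {S : Set ℕ}
    (hNS : ∀ q : ℕ, q.Prime → q ∣ M * p → q ∈ S) :
    ∀ t ∈ awayPoly S, ∀ w, pTor M p m (torAct (M * p) m t w) =
      torAct (M * p) m t (pTor M p m w) := by
  intro t ht w
  refine awayPoly_intertwine (torAct (M * p) m) (torAct (M * p) m) (pTor M p m).toAddMonoidHom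
    (fun ℓ hℓ v => ?_) ht w
  rw [torAct_heckeGen]
  apply Subtype.ext
  have hcop : Nat.Coprime (ℓ : ℕ) (M * p) :=
    (Nat.Prime.coprime_iff_not_dvd ℓ.2).mpr fun h => hℓ (hNS ℓ ℓ.2 h)
  exact P.aP_heckeBar ℓ hcop hm.out (tor_nsmul v)

theorem heckeTor_act (N : ℕ) [NeZero N] (m : ℕ) [NeZero m] (ℓ : Nat.Primes) (t : HeckeAlg)
    (w : Tor N m) : heckeTor N m ℓ (torAct N m t w) = torAct N m t (heckeTor N m ℓ w) := by
  rw [← torAct_heckeGen, ← Module.End.mul_apply, ← map_mul, mul_comm, map_mul,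
    Module.End.mul_apply]

/-- The Galois action on the away part. -/
def awayGal (N : ℕ) [NeZero N] (m : ℕ) [NeZero m] (S : Set ℕ) :
    Γℚ →* Module.End ℤ (awayPart N S (torAct N m)) :=
  restrictMon (torGal N m) (awayPart N S (torAct N m)) fun σ =>
    comm_mem_awayPart N S (torAct N m) (torGal N m σ) fun t _ w => torGal_torAct N m σ t w

theorem coe_awayGal (N : ℕ) [NeZero N] (m : ℕ) [NeZero m] (S : Set ℕ) (σ : Γℚ)
    (w : awayPart N S (torAct N m)) :
    (((awayGal N m S σ w : awayPart N S (torAct N m)) : Tor N m) : JZero N) =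
      σ • (((w : awayPart N S (torAct N m)) : Tor N m) : JZero N) := rfl

theorem torGal_finiteLevel (N : ℕ) [NeZero N] (m : ℕ) [hm : NeZero m] :
    GaloisFactorsThroughFiniteLevel (torGal N m) := by
  have h1 := finite_tor N m
  have h2 : Finite {x : JZero N // m • x = 0} :=
    Finite.of_injective (β := Tor N m) (fun x => ⟨x.1, mem_tor.mpr x.2⟩) fun x y hxy =>
      Subtype.ext (congrArg (fun z : Tor N m => (z : JZero N)) hxy)
  obtain ⟨E, hE, hE'⟩ := exists_fixing_field_finite (modularFunctionFieldFull N) hm.out h2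
  refine ⟨E, hE, fun σ hσ => LinearMap.ext fun x => Subtype.ext ?_⟩
  rw [coe_torGal, hE' σ hσ _ (tor_nsmul x)]
  rfl

theorem awayGal_act (N : ℕ) [NeZero N] (m : ℕ) [NeZero m] (S : Set ℕ) (σ : Γℚ)
    (x : CuspForm.heckeAlgebra N 2 S) (w : awayPart N S (torAct N m)) :
    awayGal N m S σ (awayPartAct N S (torAct N m) x w) =
      awayPartAct N S (torAct N m) x (awayGal N m S σ w) :=
  awayRes_act N S (torAct N m) (torGal N m σ) (fun t _ w => torGal_torAct N m σ t w) x w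

theorem es_away {N : ℕ} [NeZero N] {p : ℕ} {S : Set ℕ}
    (hES : ESAt p N) (m : ℕ) [NeZero (p ^ m)] {ℓ : ℕ} (hℓ : ℓ.Prime) (hℓN : ¬ ℓ ∣ N)
    (hℓS : ℓ ∉ S) (hℓp : ℓ ≠ p) (A : ValuationSubring (AlgebraicClosure ℚ))
    (hA : A.LiesOverPrime ℓ) (φ : Γℚ) (hφ : A.IsFrobeniusAt φ ℓ)
    (w : awayPart N S (torAct N (p ^ m))) :
    awayGal N (p ^ m) S φ (awayGal N (p ^ m) S φ w) -
      awayPartAct N S (torAct N (p ^ m)) (CuspForm.heckeAlgebra.T hℓ hℓN hℓS)
        (awayGal N (p ^ m) S φ w) + ℓ • w = 0 := by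
  refine Subtype.ext (Subtype.ext ?_)
  have h1 := hES m ℓ hℓ hℓN hℓp A hA φ hφ _ (tor_nsmul (w : Tor N (p ^ m)))
  have h2 := coe_awayPartAct N S (torAct N (p ^ m))
    ⟨heckeGen ⟨ℓ, hℓ⟩, heckeGen_mem_awayPoly hℓS⟩ (awayGal N (p ^ m) S φ w)
  rw [awayEval_heckeGen hℓ hℓN hℓS, torAct_heckeGen] at h2
  have h3 := congrArg (fun z : Tor N (p ^ m) => (z : JZero N)) h2
  simp only [Submodule.coe_add, Submodule.coe_sub, AddSubgroup.coe_add, AddSubgroup.coe_sub,
    h3, coe_awayGal]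
  exact h1

/-- The inclusion of the away part in `J₀(N)`. -/
def awayInc (N : ℕ) [NeZero N] (m : ℕ) [NeZero m] (S : Set ℕ) :
    awayPart N S (torAct N m) →+ JZero N :=
  (Tor N m).subtype.comp (awayPart N S (torAct N m)).subtype.toAddMonoidHom

theorem awayInc_injective (N : ℕ) [NeZero N] (m : ℕ) [NeZero m] (S : Set ℕ) :
    Function.Injective (awayInc N m S) := fun _ _ h => Subtype.ext (Subtype.ext h)

theorem awayInc_gal (N : ℕ) [NeZero N] (m : ℕ) [NeZero m] (S : Set ℕ) (σ : Γℚ)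
    (w : awayPart N S (torAct N m)) : awayInc N m S (awayGal N m S σ w) =
      σ • awayInc N m S w := rfl

theorem awayInc_nsmul (N : ℕ) [NeZero N] (m : ℕ) [NeZero m] (S : Set ℕ)
    (w : awayPart N S (torAct N m)) : m • awayInc N m S w = 0 := tor_nsmul (w : Tor N m)

omit [Algebra (AlgebraicClosure ℚ) ℂ] in
theorem mem_KInf_pow_iff (hpM : Nat.Coprime p M) {A : ValuationSubring Qb}
    (hA : A.LiesOverPrime p) {m : ℕ} (hm : m ≠ 0) {x : JZero (M * p)} (hx : p • x = 0) :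
    x ∈ KInf A M p (p ^ m) ↔ x ∈ KInf A M p p := by
  have hpm : p ^ m = p * p ^ (m - 1) := by rw [← pow_succ']; congr 1; omega
  rw [hpm]
  exact mem_KInf_mul_iff hA hpM hp.out.ne_zero (pow_ne_zero _ hp.out.ne_zero) hx

theorem awayInc_res (N : ℕ) [NeZero N] (m : ℕ) [NeZero m] (S : Set ℕ) (f : Module.End ℤ (Tor N m))
    (hf : ∀ t ∈ awayPoly S, ∀ w, f (torAct N m t w) = torAct N m t (f w))
    (w : awayPart N S (torAct N m)) : awayInc N m S (awayRes N S (torAct N m) f hf w) =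
      ((f (w : Tor N m) : Tor N m) : JZero N) := rfl

theorem awayInc_w {S : Set ℕ} (hpM : Nat.Coprime p M) (hpS : p ∈ S) (m : ℕ) [NeZero m]
    (w : awayPart (M * p) S (torAct (M * p) m)) :
    awayInc (M * p) m S (awayRes (M * p) S (torAct (M * p) m)
      (wTor M p m hpM).toIntLinearMap (wTor_comm hpM m hpS) w) =
      wS M p hpM • awayInc (M * p) m S w := by
  rw [awayInc_res]
  exact coe_wTor M p m hpM (w : Tor (M * p) m)

theorem awayInc_P {S : Set ℕ} (hNS : ∀ q : ℕ, q.Prime → q ∣ M * p → q ∈ S) (m : ℕ) [NeZero m]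
    (w : awayPart (M * p) S (torAct (M * p) m)) :
    awayInc (M * p) m S (awayRes (M * p) S (torAct (M * p) m)
      (pTor M p m) (pTor_comm m hNS) w) = P.aUp M p (aStar M p (awayInc (M * p) m S w)) := by
  rw [awayInc_res]
  exact coe_pTor _ _

theorem awayInc_rel (N : ℕ) [NeZero N] (m : ℕ) [NeZero m] (S : Set ℕ) (σ : Γℚ) (a : ℕ)
    (y : awayPart N S (torAct N m))
    (h : awayGal N m S σ (awayGal N m S σ y) - (a + 1) • awayGal N m S σ y + a • y = 0) :
    σ • σ • awayInc N m S y - (a + 1) • σ • awayInc N m S y + a • awayInc N m S y = 0 := by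
  have h1 : awayInc N m S (awayGal N m S σ (awayGal N m S σ y) -
      (a + 1) • awayGal N m S σ y + a • y) = 0 := by
    rw [h]
    exact (awayInc N m S).map_zero
  rw [AddMonoidHom.map_add, AddMonoidHom.map_sub, AddMonoidHom.map_nsmul, AddMonoidHom.map_nsmul,
    awayInc_gal, awayInc_gal] at h1
  exact h1

/-- the module for the ordinary condition. -/
theorem ordModule_geo {S : Set ℕ} (hpM : Nat.Coprime p M) (hpS : p ∈ S)
    (hNS : ∀ q : ℕ, q.Prime → q ∣ M * p → q ∈ S)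
    {A : ValuationSubring Qb} (hA : A.LiesOverPrime p) (hgeo : GeoOrd p M hpM A) (m : ℕ)
    (hm : m ≠ 0) [NeZero (p ^ m)] (X : Submodule ℤ (awayPart (M * p) S (torAct (M * p) (p ^ m))))
    (hX1 : ∀ x ∈ X, p • x = 0)
    (hXK : ∀ x ∈ X, awayInc (M * p) (p ^ m) S x ∈ KInf A M p (p ^ m))
    (hXG : ∀ σ, ∀ x ∈ X, awayGal (M * p) (p ^ m) S σ x ∈ X)
    (hXw : ∀ x ∈ X, awayRes (M * p) S (torAct (M * p) (p ^ m))
      (wTor M p (p ^ m) hpM).toIntLinearMap (wTor_comm hpM (p ^ m) hpS) x ∈ X)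
    (hXU : ∀ x ∈ X, awayRes (M * p) S (torAct (M * p) (p ^ m))
      (pTor M p (p ^ m)) (pTor_comm (p ^ m) hNS) x ∈ X)
    (hXI : ∀ σ ∈ A.inertiaSubgroupIn ℚ, ∀ a : ℕ, (∀ ζ : Qb, ζ ^ p = 1 → σ ζ = ζ ^ a) →
      ∀ x ∈ X, awayGal (M * p) (p ^ m) S σ (awayGal (M * p) (p ^ m) S σ x) -
        (a + 1) • awayGal (M * p) (p ^ m) S σ x + a • x = 0) :
    ∀ σ ∈ A.inertiaSubgroupIn ℚ, ∀ a : ℕ, (∀ ζ : Qb, ζ ^ p = 1 → σ ζ = ζ ^ a) →
      ∀ x ∈ X, awayGal (M * p) (p ^ m) S σ x = a • x := by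
  intro σ hσ a ha x hx
  haveI := finite_tor (M * p) (p ^ m)
  let ι := awayInc (M * p) (p ^ m) S
  let X' : AddSubgroup (JZero (M * p)) := X.toAddSubgroup.map ι
  have key := hgeo X' ?_ ?_ ?_ ?_ ?_ ?_ σ hσ a ha (ι x) ⟨x, hx, rfl⟩
  · apply awayInc_injective
    rw [awayInc_gal, key, map_nsmul]
  · have : Finite X.toAddSubgroup := inferInstanceAs (Finite X)
    exact (Set.Finite.image ι (Set.toFinite (X.toAddSubgroup : Set _))).to_subtype
  · rintro _ ⟨y, hy, rfl⟩
    have h1 := hXK y hy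
    have h2 : p • ι y = 0 := by rw [← map_nsmul, hX1 y hy, map_zero]
    exact (mem_KInf_pow_iff hpM hA hm h2).mp h1
  · rintro τ _ ⟨y, hy, rfl⟩
    exact ⟨_, hXG τ y hy, awayInc_gal (M * p) (p ^ m) S τ y⟩
  · rintro _ ⟨y, hy, rfl⟩
    exact ⟨_, hXw y hy, awayInc_w hpM hpS (p ^ m) y⟩
  · rintro _ ⟨y, hy, rfl⟩
    exact ⟨_, hXU y hy, awayInc_P hNS (p ^ m) y⟩
  · rintro τ hτ b hb _ ⟨y, hy, rfl⟩
    exact awayInc_rel (M * p) (p ^ m) S τ b y (hXI τ hτ b hb y hy)

theorem nonempty_ordModule_aux {S : Set ℕ} (hpM : Nat.Coprime p M) (hpS : p ∈ S)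
    (hNS : ∀ q : ℕ, q.Prime → q ∣ M * p → q ∈ S)
    {A : ValuationSubring Qb} (hA : A.LiesOverPrime p) (hgeo : GeoOrd p M hpM A)
    (hES : ESAt p (M * p)) (n : ℕ) (hn : n ≠ 0) : Nonempty (OrdModule p (M * p) S A n) := by
  obtain ⟨m, hnm, hm⟩ := H22.exists_transport (N := M * p) S hp.out n
  have hm0 : m ≠ 0 := by omega
  have hpm : p ^ m ≠ 0 := pow_ne_zero _ hp.out.ne_zero
  have : NeZero (p ^ m) := ⟨hpm⟩
  let ζ : ℂˣ := (Complex.isPrimitiveRoot_exp (p ^ m) hpm).isUnit hpm |>.unit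
  have hζ : IsPrimitiveRoot ζ (p ^ m) := by
    have := Complex.isPrimitiveRoot_exp (p ^ m) hpm
    exact IsPrimitiveRoot.coe_units_iff.mp this
  have hfaith : ∀ x : CuspForm.heckeAlgebra (M * p) 2 S,
      H22.formsPartActAway (M * p) (torAct (M * p) (p ^ m)) S x = 0 →
        ∃ s : CuspForm.heckeAlgebra (M * p) 2 S, x = (p ^ n : ℕ) • s := by
    refine hm (torAct (M * p) (p ^ m)) (zetaHom ζ) (fun k hk => ?_) (kappa (M * p) (p ^ m))
      kappa_injective (fun ℓ w => ?_) (fun ψ hψ => exists_kappa_eq (surjC (M * p) hpm) hζ hψ)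
    · exact (hζ.zpow_eq_one_iff_dvd k).mp (Additive.ofMul.injective hk)
    · rw [torAct_heckeGen, kappa_heckeTor]
  haveI hfin := finite_tor (M * p) (p ^ m)
  refine ⟨{ W := awayPart (M * p) S (torAct (M * p) (p ^ m))
            grp := inferInstance
            fin := inferInstance
            act := awayPartAct (M * p) S (torAct (M * p) (p ^ m))
            r := awayGal (M * p) (p ^ m) S
            m := m
            K := (KInf A M p (p ^ m)).comap (awayInc (M * p) (p ^ m) S)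
            Ω := {awayRes (M * p) S (torAct (M * p) (p ^ m))
                    (wTor M p (p ^ m) hpM).toIntLinearMap (wTor_comm hpM (p ^ m) hpS),
                  awayRes (M * p) S (torAct (M * p) (p ^ m))
                    (pTor M p (p ^ m)) (pTor_comm (p ^ m) hNS)}
            tors := ?_
            finlev := ?_
            faithful := ?_
            es := ?_
            K1 := ?_
            K2 := ?_
            comm := ?_
            commΩ := ?_
            geo := ?_ }⟩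
  · intro w
    exact Subtype.ext (Subtype.ext (tor_nsmul (w : Tor (M * p) (p ^ m))))
  · exact finiteLevel_restrictMon _ _ _ (torGal_finiteLevel (M * p) (p ^ m))
  · intro t ht
    exact hfaith t (formsPartActAway_eq_zero _ _ _ ht)
  · intro ℓ hℓ hℓN hℓS hℓp B hB φ hφ w
    exact es_away hES m hℓ hℓN hℓS hℓp B hB φ hφ w
  · intro σ hσ w
    change awayInc (M * p) (p ^ m) S (awayGal (M * p) (p ^ m) S σ w - w) ∈ KInf A M p (p ^ m)
    rw [map_sub, awayInc_gal]
    exact inertia_mem_KInf hA hpM σ hσ (awayInc_nsmul _ _ _ w)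
  · intro σ hσ w hw
    change awayInc (M * p) (p ^ m) S (awayGal (M * p) (p ^ m) S σ w) ∈ KInf A M p (p ^ m)
    rw [awayInc_gal]
    exact decomposition_mem_KInf σ hσ hw
  · intro σ t w
    exact awayGal_act (M * p) (p ^ m) S σ t w
  · rintro f hf t w
    rcases hf with rfl | hf
    · exact awayRes_act _ _ _ _ _ t w
    · rw [Set.mem_singleton_iff] at hf
      subst hf
      exact awayRes_act _ _ _ _ _ t w
  · intro X hX1 hXK hXG hXΩ _ hXI
    exact ordModule_geo hpM hpS hNS hA hgeo m hm0 X hX1 hXK hXG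
      (fun x hx => hXΩ _ (Or.inl rfl) x hx) (fun x hx => hXΩ _ (Or.inr rfl) x hx) hXI

end Concrete

section Final

theorem nonempty_ordModule {M p : ℕ} [NeZero M] [hp : Fact p.Prime] {S : Set ℕ}
    (hpM : Nat.Coprime p M) (hpS : p ∈ S)
    (hNS : ∀ q : ℕ, q.Prime → q ∣ M * p → q ∈ S)
    {A : ValuationSubring Qb} (hA : A.LiesOverPrime p) (hgeo : GeoOrd p M hpM A)
    (n : ℕ) (hn : n ≠ 0) : Nonempty (OrdModule p (M * p) S A n) := by
  letI : Algebra (AlgebraicClosure ℚ) ℂ :=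
    (IsAlgClosed.lift : AlgebraicClosure ℚ →ₐ[ℚ] ℂ).toRingHom.toAlgebra
  exact nonempty_ordModule_aux hpM hpS hNS hA hgeo (esAt_of_geom esHyp hp.out (M * p)) n hn

theorem geoOrd {M p : ℕ} [NeZero M] [hp : Fact p.Prime] (hp2 : p ≠ 2) (hpM : Nat.Coprime p M)
    {A : ValuationSubring Qb} (hA : A.LiesOverPrime p) : GeoOrd p M hpM A := by
  intro X hX hK hG hw hP hI σ hσ a ha x hx
  have h3 : 3 ≤ p := by
    have h2 := hp.out.two_le
    omega
  obtain ⟨ζ, hζ⟩ := exists_primitive hp.out 1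
  rw [pow_one] at hζ
  refine P.geo_all hpM h3 hA hζ X hK (fun σ _ => hG σ) hw hP (fun τ hτ b hb y hy => ?_) σ hσ a
    (ha ζ hζ.pow_eq_one) x hx
  refine hI τ hτ b (fun ξ hξ => ?_) y hy
  haveI : NeZero p := ⟨hp.out.ne_zero⟩
  obtain ⟨i, -, rfl⟩ := hζ.eq_pow_of_pow_eq_one hξ
  rw [map_pow, hb, ← pow_mul, ← pow_mul, mul_comm]

/-- The geometric modules at a level exactly divisible by `p`. -/
theorem exists_ordModule {p N : ℕ} [NeZero N] {S : Set ℕ} (hp : p.Prime) (hp2 : p ≠ 2)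
    (hN : p ∣ N ∧ ¬ p ^ 2 ∣ N) (hNS : ∀ q : ℕ, q.Prime → q ∣ N → q ∈ S)
    (A : ValuationSubring Qb) (hA : A.LiesOverPrime p) (n : ℕ) (hn : n ≠ 0) :
    Nonempty (OrdModule p N S A n) := by
  haveI : Fact p.Prime := ⟨hp⟩
  have hpS := hNS p hp hN.1
  obtain ⟨M, hM0, hcop, hM⟩ := exists_factor hp hN.1 hN.2
  haveI : NeZero M := ⟨hM0⟩
  subst hM
  exact nonempty_ordModule hcop hpS hNS hA (geoOrd hp2 hcop hA) n hn

/-- **S33.** -/
theorem s33 {p : ℕ} {N : ℕ} [NeZero N] {S : Finset ℕ}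
    {𝒪 : Type} [CommRing 𝒪] [IsDomain 𝒪] [IsDiscreteValuationRing 𝒪]
    [IsAdicComplete (IsLocalRing.maximalIdeal 𝒪) 𝒪]
    {θ : CuspForm.heckeAlgebra N 2 (↑S : Set ℕ) →+* IsLocalRing.ResidueField 𝒪}
    {T : Type} [CommRing T] [IsLocalRing T] [IsNoetherianRing T]
    [IsAdicComplete (IsLocalRing.maximalIdeal T) T] [Algebra 𝒪 T] [IsLocalHom (algebraMap 𝒪 T)]
    [Module.Finite 𝒪 T] [Module.Free 𝒪 T]
    (hp : p.Prime) (hp2 : p ≠ 2) (hp𝒪 : (p : 𝒪) ∈ IsLocalRing.maximalIdeal 𝒪)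
    (hN : p ∣ N ∧ ¬ p ^ 2 ∣ N)
    (hNS : ∀ q : ℕ, q.Prime → q ∣ N → q ∈ S)
    (H : CuspForm.HeckeGaloisRepDatum N (↑S : Set ℕ) 𝒪 θ T)
    (hres : (GaloisRepAdic.ofResidualGaloisRep H.ρ.residual).IsOrdinaryAt p) :
    H.ρ.IsOrdinaryAt p :=
  isOrdinaryAt_of_modules hp hp2 hp𝒪 (hNS p hp hN.1) hNS H hres
    (exists_ordModule hp hp2 hN fun q hq hqN => by exact_mod_cast hNS q hq hqN)

end Final

end Fermat.Agent.H05
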