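import Fermat.Agent.H18_Places
import Mathlib.RingTheory.Ideal.Norm.RelNorm
import Mathlib.RingTheory.DedekindDomain.IntegralClosure

/-!
# Places above a place versus height one primes of the integral closure
-/

set_option autoImplicit false
set_option linter.style.haveILetI false

noncomputable section

open AlgebraicCurve IsDedekindDomain WithZero IsLocalRing

namespace Fermat.Agent.H05

section Dedekind

variable {K F : Type*} [Field K] [Field F] [Algebra K F]
variable {B : Type*} [CommRing B] [IsDedekindDomain B] [Algebra B F] [IsFractionRing B F]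
  [Algebra K B] [IsScalarTower K B F]

/-- order data of a height one prime -/
def primeOrdData (K F : Type*) [Field K] [Field F] [Algebra K F]
    {B : Type*} [CommRing B] [IsDedekindDomain B] [Algebra B F] [IsFractionRing B F]
    [Algebra K B] [IsScalarTower K B F] (P : HeightOneSpectrum B) : H18.OrdData K F where
  g f := -(log (P.valuation F f))
  mul x y hx hy := by
    rw [map_mul, log_mul ((Valuation.ne_zero_iff _).mpr hx) ((Valuation.ne_zero_iff _).mpr hy)]
    ring
  add x y hx hy hxy := by
    have h := Valuation.map_add (P.valuation F) x y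
    have hx' := (Valuation.ne_zero_iff (P.valuation F)).mpr hx
    have hy' := (Valuation.ne_zero_iff (P.valuation F)).mpr hy
    have hxy' := (Valuation.ne_zero_iff (P.valuation F)).mpr hxy
    rcases le_max_iff.mp h with h | h
    · have := (log_le_log hxy' hx').mpr h
      exact min_le_iff.mpr (Or.inl (by omega))
    · have := (log_le_log hxy' hy').mpr h
      exact min_le_iff.mpr (Or.inr (by omega))
  const a ha := by
    rw [IsScalarTower.algebraMap_apply K B F]
    have h := P.valuation_le_one (K := F) (algebraMap K B a)
    have h0 : P.valuation F (algebraMap B F (algebraMap K B a)) ≠ 0 := by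
      rw [Valuation.ne_zero_iff, ← IsScalarTower.algebraMap_apply K B F]
      simpa using ha
    have := (log_le_log h0 one_ne_zero).mpr h
    rw [log_one] at this
    omega
  nontriv := by
    obtain ⟨π, hπ⟩ := P.valuation_exists_uniformizer F
    refine ⟨π, ?_, ?_⟩
    · rw [← Valuation.ne_zero_iff (P.valuation F), hπ]
      exact exp_ne_zero
    · rw [hπ]
      simp

theorem primeOrdData_exists_one (P : HeightOneSpectrum B) :
    ∃ f, f ≠ 0 ∧ (primeOrdData K F P).g f = 1 := by
  obtain ⟨π, hπ⟩ := P.valuation_exists_uniformizer F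
  refine ⟨π, ?_, ?_⟩
  · rw [← Valuation.ne_zero_iff (P.valuation F), hπ]
    exact exp_ne_zero
  · show -(log (P.valuation F π)) = 1
    rw [hπ]
    simp

theorem primeOrdData_toPlace (P : HeightOneSpectrum B) :
    (primeOrdData K F P).toPlace = Place.ofHeightOneSpectrum (K := K) (F := F) P := by
  apply Place.ext
  ext f
  rw [H18.OrdData.toPlace_toValuationSubring, H18.OrdData.mem_valSubring,
    Place.ofHeightOneSpectrum_toValuationSubring, Valuation.mem_valuationSubring_iff]
  by_cases hf : f = 0
  · subst hf
    simp
  · have hf' := (Valuation.ne_zero_iff (P.valuation F)).mpr hf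
    rw [← log_le_log hf' one_ne_zero, log_one]
    show f = 0 ∨ 0 ≤ -(log (P.valuation F f)) ↔ _
    constructor
    · rintro (h | h)
      · exact absurd h hf
      · omega
    · intro h
      right; omega

theorem ord_ofHeightOneSpectrum (P : HeightOneSpectrum B) {f : F} (hf : f ≠ 0) :
    (Place.ofHeightOneSpectrum (K := K) (F := F) P).ord f = -(log (P.valuation F f)) := by
  rw [← primeOrdData_toPlace]
  exact H18.OrdData.ord_eq_g _ (primeOrdData_exists_one P) hf

theorem ord_ofHeightOneSpectrum_algebraMap (P : HeightOneSpectrum B) {b : B} (hb : b ≠ 0) :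
    (Place.ofHeightOneSpectrum (K := K) (F := F) P).ord (algebraMap B F b) =
      (Associates.mk P.asIdeal).count (Associates.mk (Ideal.span {b})).factors := by
  rw [ord_ofHeightOneSpectrum P ((map_ne_zero_iff _ (IsFractionRing.injective B F)).mpr hb),
    HeightOneSpectrum.valuation_of_algebraMap, HeightOneSpectrum.intValuation_if_neg _ hb]
  simp

theorem algebraMap_mem_ofHeightOneSpectrum (P : HeightOneSpectrum B) (b : B) :
    algebraMap B F b ∈ (Place.ofHeightOneSpectrum (K := K) (F := F) P).toValuationSubring := by
  rw [Place.ofHeightOneSpectrum_toValuationSubring, Valuation.mem_valuationSubring_iff]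
  exact P.valuation_le_one b

theorem mem_asIdeal_iff_ord_pos (P : HeightOneSpectrum B) {b : B} (hb : b ≠ 0) :
    b ∈ P.asIdeal ↔
      0 < (Place.ofHeightOneSpectrum (K := K) (F := F) P).ord (algebraMap B F b) := by
  have hb' : algebraMap B F b ≠ 0 := (map_ne_zero_iff _ (IsFractionRing.injective B F)).mpr hb
  have h1 : P.valuation F (algebraMap B F b) < 1 ↔ b ∈ P.asIdeal :=
    P.valuation_lt_one_iff_mem (K := F) b
  rw [← h1, ord_ofHeightOneSpectrum P hb',
    ← log_lt_log ((Valuation.ne_zero_iff _).mpr hb') one_ne_zero, log_one]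
  omega

theorem ofHeightOneSpectrum_injective :
    Function.Injective (Place.ofHeightOneSpectrum (K := K) (F := F) (R := B)) := by
  intro P Q h
  ext b
  by_cases hb : b = 0
  · subst hb; simp
  · rw [mem_asIdeal_iff_ord_pos (K := K) (F := F) P hb, h, ← mem_asIdeal_iff_ord_pos Q hb]

variable (B) in
/-- the centre on `B` of a place whose ring contains `B` -/
theorem exists_ofHeightOneSpectrum_eq (w : Place K F)
    (hw : ∀ b : B, algebraMap B F b ∈ w.toValuationSubring) :
    ∃ P : HeightOneSpectrum B, Place.ofHeightOneSpectrum (K := K) (F := F) P = w := by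
  let φ : B →+* w.toValuationSubring :=
    (algebraMap B F).codRestrict w.toValuationSubring.toSubring hw
  let P : Ideal B := (maximalIdeal w.toValuationSubring).comap φ
  have hP : P.IsPrime := Ideal.comap_isPrime φ _
  have hmem : ∀ b : B, b ∉ P → algebraMap B F b ≠ 0 ∧ w.ord (algebraMap B F b) = 0 := by
    intro b hb
    have hu : IsUnit (φ b) := by
      by_contra hnu
      exact hb ((mem_maximalIdeal _).mpr hnu)
    refine ⟨?_, ?_⟩
    · intro h0
      have : φ b = 0 := Subtype.ext h0
      rw [this] at hu
      exact not_isUnit_zero hu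
    · exact w.ord_coe_unit hu.unit
  have hP0 : P ≠ ⊥ := by
    intro h0
    apply w.ne_top'
    ext f
    simp only [ValuationSubring.mem_top, iff_true]
    obtain ⟨a, s, hs, rfl⟩ := IsFractionRing.div_surjective (A := B) f
    have hs0 : s ∉ P := by
      rw [h0, Ideal.mem_bot]
      exact nonZeroDivisors.ne_zero hs
    obtain ⟨h1, h2⟩ := hmem s hs0
    rw [div_eq_mul_inv]
    refine mul_mem (hw a) ?_
    rw [H18.mem_iff, w.ord_inv, h2]
    simp
  let Q : HeightOneSpectrum B := ⟨P, hP, hP0⟩
  refine ⟨Q, ?_⟩
  apply Place.ext
  rw [Place.ofHeightOneSpectrum_toValuationSubring,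
    ← HeightOneSpectrum.valuationSubringAtPrime_eq_valuationSubring]
  refine ValuationSubring.eq_of_le_of_ne_top _ ?_ w.ne_top'
  rintro x ⟨a, s, hs, rfl⟩
  have hs' : s ∉ P := hs
  obtain ⟨h1, h2⟩ := hmem s hs'
  refine mul_mem (hw a) ?_
  show (algebraMap B F s)⁻¹ ∈ w.toValuationSubring
  rw [H18.mem_iff, w.ord_inv, h2]
  simp

end Dedekind

end Fermat.Agent.H05
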