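import Fermat.Agent.H05.Inputs
import Fermat.Agent.H25.Density
import Fermat.Agent.H25.S30Reduction
import Fermat.Prelude.Def_CuspForm_Newforms
import Fermat.Prelude.Def_GaloisRep_LocalConditions

/-!
# S30, S31, S34, S35 from the geometry of `J₀(N)`
-/

set_option autoImplicit false
set_option linter.style.haveILetI false
set_option maxSynthPendingDepth 3

noncomputable section

open AlgebraicCurve ModularCurve CongruenceSubgroup

namespace Fermat.Agent.H05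

open Fermat.Agent.H26 Polynomial
open ModularFormClass (qCoeff)

local notation "Qb" => AlgebraicClosure ℚ
local notation "Γℚ" => AlgebraicClosure ℚ ≃ₐ[ℚ] AlgebraicClosure ℚ

/-- Good reduction of `J₀(M)` at `q` at levels divisible by `2` or `3`. -/
def GoodHyp : Prop :=
  ∀ p : ℕ, p.Prime → ∀ (M : ℕ) [NeZero M] (m q : ℕ), q.Prime → Hyp M q → q ≠ p →
    ∀ A : ValuationSubring (AlgebraicClosure ℚ), A.LiesOverPrime q →
    ∀ τ ∈ A.inertiaSubgroupIn ℚ, ∀ x : JZero M, (p ^ m) • x = 0 → τ • x = x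

/-- The Eichler–Shimura relation at levels divisible by `2` or `3`. -/
def ESHyp : Prop :=
  ∀ p : ℕ, p.Prime → ∀ (M : ℕ) [NeZero M] (m ℓ : ℕ) (hℓ : ℓ.Prime), Hyp M ℓ → ℓ ≠ p →
    ∀ A : ValuationSubring (AlgebraicClosure ℚ), A.LiesOverPrime ℓ →
    ∀ φ : AlgebraicClosure ℚ ≃ₐ[ℚ] AlgebraicClosure ℚ, A.IsFrobeniusAt φ ℓ →
    ∀ x : JZero M, (p ^ m) • x = 0 →
      φ • φ • x - heckeOperatorBar M ⟨ℓ, hℓ⟩ (φ • x) + ℓ • x = 0

/-- The structure of the toric part at levels divisible by `2` or `3`. -/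
def ToricHyp : Prop :=
  ∀ p : ℕ, p.Prime → ∀ (q : ℕ) [Fact q.Prime], q ≠ p →
    ∀ (M : ℕ) [NeZero M] (h : Nat.Coprime q M), Hyp M q → ToricAt p M q h

theorem heckeGaloisInput_of_geom (hG : GoodHyp) (hE : ESHyp) {p : ℕ} (hp : p.Prime) (N : ℕ)
    [NeZero N] (S : Set ℕ) : HeckeGaloisInput p N S :=
  heckeGaloisInput_of_hyp hp S (hG p hp) (hE p hp)

theorem esAt_of_geom (hE : ESHyp) {p : ℕ} (hp : p.Prime) (N : ℕ) [NeZero N] : ESAt p N := by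
  intro m ℓ hℓ hℓN hℓp A hA φ hφ x hx
  rcases exists_aux hℓ hℓN hp hℓp with h | ⟨r, hr, hrN, hrℓ, hpr, h⟩
  · exact hE p hp N m ℓ hℓ h hℓp A hA φ hφ x hx
  · haveI : NeZero r := ⟨hr.ne_zero⟩
    exact es_transfer N r hr hrN hp hpr hℓ hrℓ (hE p hp (N * r) m ℓ hℓ h hℓp A hA φ hφ) x hx

theorem exists_factor {N q : ℕ} [NeZero N] (hq : q.Prime) (hqN : q ∣ N) (hq2 : ¬ q ^ 2 ∣ N) :
    ∃ M : ℕ, M ≠ 0 ∧ Nat.Coprime q M ∧ N = M * q := by
  obtain ⟨M, rfl⟩ := hqN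
  refine ⟨M, ?_, ?_, mul_comm _ _⟩
  · rintro rfl
    exact NeZero.ne (q * 0) (mul_zero q)
  · rw [Nat.Prime.coprime_iff_not_dvd hq]
    intro h
    apply hq2
    rw [pow_two]
    exact Nat.mul_dvd_mul_left q h

/-- **S31** from the geometry. -/
theorem s31_of_geom (hG : GoodHyp) (hE : ESHyp)
    {p : ℕ} {N : ℕ} [NeZero N] {S : Finset ℕ}
    {𝒪 : Type} [CommRing 𝒪] [IsDomain 𝒪] [IsDiscreteValuationRing 𝒪]
    [IsAdicComplete (IsLocalRing.maximalIdeal 𝒪) 𝒪]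
    {θ : CuspForm.heckeAlgebra N 2 (↑S : Set ℕ) →+* IsLocalRing.ResidueField 𝒪}
    {T : Type} [CommRing T] [IsLocalRing T] [IsNoetherianRing T]
    [IsAdicComplete (IsLocalRing.maximalIdeal T) T] [Algebra 𝒪 T] [IsLocalHom (algebraMap 𝒪 T)]
    [Module.Finite 𝒪 T] [Module.Free 𝒪 T] (hp : p.Prime)
    (hp𝒪 : (p : 𝒪) ∈ IsLocalRing.maximalIdeal 𝒪) (hpS : p ∈ S)
    (hNS : ∀ q : ℕ, q.Prime → q ∣ N → q ∈ S)
    (H : CuspForm.HeckeGaloisRepDatum N (↑S : Set ℕ) 𝒪 θ T)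
    (q : ℕ) (hq : q.Prime) (hqS : q ∉ S) :
    H.ρ.IsUnramifiedAt q :=
  isUnramifiedAt_of_input H25.weakChebotarev hp (heckeGaloisInput_of_geom hG hE hp N _) hp𝒪 hpS hNS
    H q hq (fun h => hqS (hNS q hq h)) (fun h => hqS (h ▸ hpS))

/-- **S34** from the geometry. -/
theorem s34_of_geom (hE : ESHyp) (hT : ToricHyp)
    {𝒪 : Type} [CommRing 𝒪] [IsDomain 𝒪] [IsDiscreteValuationRing 𝒪]
    [IsAdicComplete (IsLocalRing.maximalIdeal 𝒪) 𝒪]
    {p : ℕ} (hp : p.Prime) (hp𝒪 : (p : 𝒪) ∈ IsLocalRing.maximalIdeal 𝒪)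
    {N : ℕ} [NeZero N] {S : Finset ℕ} (hpS : p ∈ S) (hNS : ∀ q : ℕ, q.Prime → q ∣ N → q ∈ S)
    {θ : CuspForm.heckeAlgebra N 2 (↑S : Set ℕ) →+* IsLocalRing.ResidueField 𝒪}
    {T : Type} [CommRing T] [IsLocalRing T] [IsNoetherianRing T]
    [IsAdicComplete (IsLocalRing.maximalIdeal T) T] [Algebra 𝒪 T] [IsLocalHom (algebraMap 𝒪 T)]
    [Module.Finite 𝒪 T] [Module.Free 𝒪 T]
    (H : CuspForm.HeckeGaloisRepDatum N (↑S : Set ℕ) 𝒪 θ T)
    (q : ℕ) (hq : q.Prime) (hqp : q ≠ p) (hqN : q ∣ N) (hq2 : ¬ q ^ 2 ∣ N) :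
    H.ρ.IsUnipotentOnInertiaAt q := by
  refine isUnipotentOnInertiaAt_of_input H25.weakChebotarev hp hp𝒪 hpS hNS H q hq hqp
    (unipotentInput_of hp _ ?_ (esAt_of_geom hE hp N))
  haveI : Fact q.Prime := ⟨hq⟩
  obtain ⟨M, hM0, hcop, hN⟩ := exists_factor hq hqN hq2
  haveI : NeZero M := ⟨hM0⟩
  have key := uniAt_of_hyp hp hqp (fun M _ h hyp => hT p hp q hqp M h hyp) hcop
  clear H
  subst hN
  exact key

theorem chig_awayEval {M : ℕ} [NeZero M] {g : CuspForm (Gamma0 M) 2} {S : Finset ℕ}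
    (chig : CuspForm.heckeAlgebra M 2 (↑S : Set ℕ) →+* ℂ)
    (hchig : ∀ (ℓ : ℕ) (hℓ : ℓ.Prime) (hℓM : ¬ ℓ ∣ M) (hℓS : ℓ ∉ (↑S : Set ℕ)),
      chig (CuspForm.heckeAlgebra.T hℓ hℓM hℓS) = qCoeff g ℓ)
    (hMS : ∀ q : ℕ, q.Prime → q ∣ M → q ∈ S) (t : awayPoly (↑S : Set ℕ)) :
    chig (awayEval M (↑S : Set ℕ) t) =
      MvPolynomial.aeval (fun ℓ : Nat.Primes => qCoeff g ℓ) (t : HeckeAlg) := by
  obtain ⟨t, ht⟩ := t
  suffices h : ∀ h' : t ∈ awayPoly (↑S : Set ℕ), chig (awayEval M (↑S : Set ℕ) ⟨t, h'⟩) =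
      MvPolynomial.aeval (fun ℓ : Nat.Primes => qCoeff g ℓ) t from h ht
  let P : HeckeAlg → Prop := fun t => t ∈ awayPoly (↑S : Set ℕ) ∧
    ∀ h' : t ∈ awayPoly (↑S : Set ℕ), chig (awayEval M (↑S : Set ℕ) ⟨t, h'⟩) =
      MvPolynomial.aeval (fun ℓ : Nat.Primes => qCoeff g ℓ) t
  refine (awayPoly_induction (P := P) ?_ ?_ ?_ ?_ ht).2
  · intro ℓ hℓ
    refine ⟨heckeGen_mem_awayPoly hℓ, fun h' => ?_⟩
    have hℓM : ¬ (ℓ : ℕ) ∣ M := fun h => hℓ (by exact_mod_cast hMS ℓ ℓ.2 h)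
    have h1 := awayEval_heckeGen (N := M) ℓ.2 hℓM hℓ
    have h2 := hchig ℓ ℓ.2 hℓM hℓ
    rw [← h1] at h2
    have h3 : MvPolynomial.aeval (fun ℓ : Nat.Primes => qCoeff g ℓ) (heckeGen ℓ) = qCoeff g ℓ :=
      MvPolynomial.aeval_X _ _
    rw [h3]
    exact h2
  · intro a
    refine ⟨Subalgebra.algebraMap_mem _ a, fun h' => ?_⟩
    have h1 : (⟨algebraMap ℤ HeckeAlg a, h'⟩ : awayPoly (↑S : Set ℕ)) =
        algebraMap ℤ (awayPoly (↑S : Set ℕ)) a := rfl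
    rw [h1, eq_intCast, map_intCast, map_intCast, AlgHom.commutes]
    rfl
  · rintro x y ⟨hx, hx'⟩ ⟨hy, hy'⟩
    refine ⟨add_mem hx hy, fun h' => ?_⟩
    have h1 : (⟨x + y, h'⟩ : awayPoly (↑S : Set ℕ)) = ⟨x, hx⟩ + ⟨y, hy⟩ := rfl
    rw [h1, map_add, map_add, map_add, hx' hx, hy' hy]
  · rintro x y ⟨hx, hx'⟩ ⟨hy, hy'⟩
    refine ⟨mul_mem hx hy, fun h' => ?_⟩
    have h1 : (⟨x * y, h'⟩ : awayPoly (↑S : Set ℕ)) = ⟨x, hx⟩ * ⟨y, hy⟩ := rfl
    rw [h1, map_mul, map_mul, map_mul, hx' hx, hy' hy]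

theorem iota_ne_zero {M : ℕ} [NeZero M] {S : Set ℕ}
    (chig : CuspForm.heckeAlgebra M 2 S →+* ℂ) {O' : Type} [CommRing O'] [IsDomain O']
    [CharZero O'] (iota : chig.range →+* O') (x : CuspForm.heckeAlgebra M 2 S)
    (hx : chig x ≠ 0) : iota (chig.rangeRestrict x) ≠ 0 := by
  intro h0
  haveI := H16.moduleFinite_heckeAlgebra M 2 S
  have hint : IsIntegral ℤ x := Algebra.IsIntegral.isIntegral x
  have hint2 : IsIntegral ℤ (chig.rangeRestrict x) := by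
    obtain ⟨P, hP, hP'⟩ := hint
    refine ⟨P, hP, ?_⟩
    have h1 := congrArg chig.rangeRestrict hP'
    rw [Polynomial.hom_eval₂, map_zero] at h1
    have h2 : chig.rangeRestrict.comp (algebraMap ℤ (CuspForm.heckeAlgebra M 2 S)) =
        algebraMap ℤ chig.range := RingHom.ext_int _ _
    rwa [h2] at h1
  have hx' : chig.rangeRestrict x ≠ 0 := fun h => hx (congrArg Subtype.val h)
  have h1 := Ideal.comap_ne_bot_of_integral_mem (I := RingHom.ker iota) hx'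
    (RingHom.mem_ker.mpr h0) hint2
  apply h1
  rw [eq_bot_iff]
  intro n hn
  rw [Ideal.mem_comap, RingHom.mem_ker, eq_intCast, map_intCast] at hn
  exact_mod_cast hn

/-- **S35** from the geometry. -/
theorem s35_of_geom (hG : GoodHyp) (hE : ESHyp) (hT : ToricHyp)
    {M : ℕ} [NeZero M] {g : CuspForm (CongruenceSubgroup.Gamma0 M) 2} (hg : g.IsNewform)
    (lam : ℕ) [Fact lam.Prime]
    (S : Finset ℕ)
    (O' : Type) [CommRing O'] [IsDomain O'] [IsDiscreteValuationRing O']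
    [IsAdicComplete (IsLocalRing.maximalIdeal O') O'] [Finite (IsLocalRing.ResidueField O')]
    [CharZero O'] (hlamO' : (lam : O') ∈ IsLocalRing.maximalIdeal O')
    (chig : CuspForm.heckeAlgebra M 2 (↑S : Set ℕ) →+* ℂ)
    (hchig : ∀ (ℓ : ℕ) (hℓ : ℓ.Prime) (hℓM : ¬ ℓ ∣ M) (hℓS : ℓ ∉ (↑S : Set ℕ)),
      chig (CuspForm.heckeAlgebra.T hℓ hℓM hℓS) = ModularFormClass.qCoeff g ℓ)
    (iota : chig.range →+* O')
    (hlamS : lam ∈ S) (hMS : ∀ q : ℕ, q.Prime → q ∣ M → q ∈ S) :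
    ∃ (O'' : Type) (_ : CommRing O'') (_ : IsDomain O'') (_ : IsDiscreteValuationRing O'')
      (_ : IsAdicComplete (IsLocalRing.maximalIdeal O'') O'') (_ : Finite (IsLocalRing.ResidueField O''))
      (_ : CharZero O'') (_ : Algebra O' O'') (_ : Module.Finite O' O'') (_ : IsLocalHom (algebraMap O' O'')),
      Function.Injective (algebraMap O' O'') ∧
      ∃ ρ : GaloisRepAdic O'',
        (∀ (ℓ : ℕ) (hℓ : ℓ.Prime) (hℓM : ¬ ℓ ∣ M) (hℓS : ℓ ∉ (↑S : Set ℕ)),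
          ∀ A : ValuationSubring (AlgebraicClosure ℚ), A.LiesOverPrime ℓ →
            ∀ σ : AlgebraicClosure ℚ ≃ₐ[ℚ] AlgebraicClosure ℚ, A.IsFrobeniusAt σ ℓ →
              LinearMap.charpoly (ρ.ρ σ) =
                X ^ 2 - C (algebraMap O' O'' ((iota.comp chig.rangeRestrict) (CuspForm.heckeAlgebra.T hℓ hℓM hℓS))) * X
                  + C ((ℓ : O''))) ∧
        (∀ q : ℕ, q.Prime → q ≠ lam → q ∣ M → ¬ q ^ 2 ∣ M →
          ∀ A : ValuationSubring (AlgebraicClosure ℚ), A.LiesOverPrime q →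
            ∀ σ : AlgebraicClosure ℚ ≃ₐ[ℚ] AlgebraicClosure ℚ, A.IsFrobeniusAt σ q →
              LinearMap.charpoly (ρ.ρ σ) = X ^ 2 - C ((q : O'') + 1) * X + C ((q : O'')) ∨
              LinearMap.charpoly (ρ.ρ σ) = X ^ 2 + C ((q : O'') + 1) * X + C ((q : O''))) := by
  have hlam : lam.Prime := Fact.out
  obtain ⟨O'', i1, i2, i3, i4, i5, i6, i7, i8, i9, hinj, ρ, hρ, -⟩ := H25.s30_of_input lam M S
    hlamS hMS (heckeGaloisInput_of_geom hG hE hlam M _) O' hlamO'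
    (iota.comp chig.rangeRestrict)
  refine ⟨O'', i1, i2, i3, i4, i5, i6, i7, i8, i9, hinj, ρ, hρ, ?_⟩
  intro q hq hqp hqM hq2 A hA σ hσ
  have hlamO'' : (lam : O'') ∈ IsLocalRing.maximalIdeal O'' := by
    have h1 : algebraMap O' O'' (lam : O') ∈ IsLocalRing.maximalIdeal O'' := by
      rw [IsLocalRing.mem_maximalIdeal] at hlamO' ⊢
      exact map_mem_nonunits_iff (algebraMap O' O'') _ |>.mpr hlamO'
    rwa [map_natCast] at h1
  let π : CuspForm.heckeAlgebra M 2 (↑S : Set ℕ) →+* O'' :=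
    (algebraMap O' O'').comp (iota.comp chig.rangeRestrict)
  refine charpoly_frobenius_of_input H25.weakChebotarev (p := lam) (N := M) hlam hlamS hMS hlamO''
    ρ π hρ q hq hqp ?_ A hA σ hσ
  haveI : Fact q.Prime := ⟨hq⟩
  obtain ⟨M', hM'0, hcop, hM⟩ := exists_factor hq hqM hq2
  haveI : NeZero M' := ⟨hM'0⟩
  have hne : M' ≠ M := by
    rw [hM]
    intro h
    have : M' * 1 = M' * q := by rw [mul_one]; exact h
    exact hq.one_lt.ne (Nat.eq_of_mul_eq_mul_left (Nat.pos_of_ne_zero hM'0) this)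
  obtain ⟨t₀, ht₀S, ht₀, ht₀g⟩ := exists_separating hg (M := M') ⟨q, hM⟩ hne
    (S := (↑S : Set ℕ)) S.finite_toSet
  have hπ : π (awayEval M (↑S : Set ℕ) ⟨t₀, ht₀S⟩) ≠ 0 := by
    intro h0
    refine iota_ne_zero chig iota (awayEval M (↑S : Set ℕ) ⟨t₀, ht₀S⟩) ?_ (hinj ?_)
    · rw [chig_awayEval chig hchig hMS]
      exact ht₀g
    · rw [map_zero]
      exact h0
  have hqS : q ∈ (↑S : Set ℕ) := by exact_mod_cast hMS q hq hqM
  have hNew := newAt_of_hyp hlam hqp (fun M _ h hyp => hT lam hlam q hqp M h hyp) hcop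
  have hES := esAt_of_geom hE hlam M
  clear_value π
  clear hρ ρ hchig hg ht₀g
  subst hM
  exact newFrobInput_of hlam hq hcop _ hqS hlamO'' π ⟨t₀, ht₀S⟩ ht₀ hπ hNew hES

end Fermat.Agent.H05
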