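import Mathlib

/-!
# Abstract endgame for the ordinary condition (S33)
-/

set_option autoImplicit false
set_option linter.style.haveILetI false

noncomputable section

namespace Fermat.Agent.H05

section Abstract

variable {R W G : Type*} [CommRing R] [AddCommGroup W] [Group G]
  (act : R →+* Module.End ℤ W) (r : G →* Module.End ℤ W)

/-- the elements killed by an ideal. -/
def killed (J : Ideal R) : Submodule ℤ W where
  carrier := {w | ∀ t ∈ J, act t w = 0}
  zero_mem' := fun t _ => map_zero _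
  add_mem' := fun hx hy t ht => by rw [map_add, hx t ht, hy t ht, add_zero]
  smul_mem' := fun c x hx t ht => by rw [map_smul, hx t ht, smul_zero]

variable {act} in
theorem mem_killed {J : Ideal R} {w : W} : w ∈ killed act J ↔ ∀ t ∈ J, act t w = 0 := Iff.rfl

/-- A localizing element for a finite module. -/
theorem exists_localizer [Finite W] (P : Ideal R) :
    ∃ (k : ℕ) (u : R), u - 1 ∈ P ∧ ∀ w, act u w ∈ killed act (P ^ k) := by
  letI : Module R W := Module.compHom W act
  have hsmul : ∀ (x : R) (w : W), x • w = act x w := fun x w => rfl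
  haveI : Finite (Submodule R W) :=
    Finite.of_injective (fun N : Submodule R W => (N : Set W)) SetLike.coe_injective
  obtain ⟨i, j, hij, he⟩ := Finite.exists_ne_map_eq_of_infinite
    (fun n : ℕ => P ^ n • (⊤ : Submodule R W))
  wlog hlt : i < j generalizing i j
  · exact this j i hij.symm he.symm (lt_of_le_of_ne (not_lt.mp hlt) hij.symm)
  have hle : P ^ i • (⊤ : Submodule R W) ≤ P • (P ^ i • (⊤ : Submodule R W)) := by
    rw [← Submodule.mul_smul, ← pow_succ']
    have h1 : P ^ i • (⊤ : Submodule R W) = P ^ j • (⊤ : Submodule R W) := he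
    rw [h1]
    exact Submodule.smul_mono_left (Ideal.pow_le_pow_right hlt)
  obtain ⟨u, hu, hu'⟩ := Submodule.exists_sub_one_mem_and_smul_eq_zero_of_fg_of_le_smul P
    (P ^ i • (⊤ : Submodule R W)) (IsNoetherian.noetherian _) hle
  refine ⟨i, u, hu, fun w t ht => ?_⟩
  have h1 := hu' (t • w) (Submodule.smul_mem_smul ht trivial)
  rw [hsmul, hsmul] at h1
  rw [← Module.End.mul_apply, ← map_mul, mul_comm, map_mul, Module.End.mul_apply]
  exact h1

/-- stability of the elements killed by an ideal. -/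
theorem killed_stable {J : Ideal R} (f : Module.End ℤ W) (hf : ∀ x w, f (act x w) = act x (f w))
    {w : W} (hw : w ∈ killed act J) : f w ∈ killed act J := fun t ht => by
  rw [← hf, hw t ht, map_zero]

/-- **Lemma G.** If there is no nonzero stable subgroup killed by `P` inside `K`, then no
operator maps the `P`-primary part of `W` into `K`, except zero. -/
theorem act_eq_zero_of_mem (Ω : Set (Module.End ℤ W)) (hΩ : ∀ f ∈ Ω, ∀ x w, f (act x w) = act x (f w))
    (P : Ideal R) (K : AddSubgroup W)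
    (geo : ∀ X : Submodule ℤ W, (∀ x ∈ X, x ∈ killed act P) → (∀ x ∈ X, x ∈ K) →
      (∀ f ∈ Ω, ∀ x ∈ X, f x ∈ X) → (∀ t, ∀ x ∈ X, act t x ∈ X) → X = ⊥)
    (k : ℕ) (h : R) (hh : ∀ w ∈ killed act (P ^ k), act h w ∈ K) :
    ∀ w ∈ killed act (P ^ k), act h w = 0 := by
  let D' : Submodule ℤ W := (killed act (P ^ k)).map (act h)
  have hDact : ∀ t, ∀ x ∈ D', act t x ∈ D' := by
    rintro t _ ⟨w, hw, rfl⟩
    refine ⟨act t w, fun u hu => ?_, ?_⟩
    · rw [← Module.End.mul_apply, ← map_mul, mul_comm, map_mul, Module.End.mul_apply, hw u hu,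
        map_zero]
    · rw [← Module.End.mul_apply, ← map_mul, mul_comm, map_mul, Module.End.mul_apply]
  have hDΩ : ∀ f ∈ Ω, ∀ x ∈ D', f x ∈ D' := by
    rintro f hf _ ⟨w, hw, rfl⟩
    exact ⟨f w, killed_stable act f (hΩ f hf) hw, (hΩ f hf h w).symm⟩
  have hX : D' ⊓ killed act P = ⊥ := by
    refine geo _ (fun x hx => hx.2) ?_ ?_ ?_
    · rintro _ ⟨⟨w, hw, rfl⟩, -⟩
      exact hh w hw
    · rintro f hf x ⟨hx1, hx2⟩
      exact ⟨hDΩ f hf x hx1, killed_stable act f (hΩ f hf) hx2⟩
    · rintro t x ⟨hx1, hx2⟩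
      refine ⟨hDact t x hx1, fun u hu => ?_⟩
      rw [← Module.End.mul_apply, ← map_mul, mul_comm, map_mul, Module.End.mul_apply, hx2 u hu,
        map_zero]
  have key : ∀ i : ℕ, ∀ x ∈ D', (∀ t ∈ P ^ i, act t x = 0) → x = 0 := by
    intro i
    induction i with
    | zero =>
      intro x _ hx
      have := hx 1 (by rw [pow_zero, Ideal.one_eq_top]; trivial)
      rwa [map_one] at this
    | succ i ih =>
      intro x hxD hx
      refine ih x hxD fun t ht => ?_
      have h1 : act t x ∈ D' ⊓ killed act P := by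
        refine ⟨hDact t x hxD, fun u hu => ?_⟩
        rw [← Module.End.mul_apply, ← map_mul]
        exact hx _ (by rw [pow_succ']; exact Ideal.mul_mem_mul hu ht)
      rw [hX] at h1
      exact h1
  intro w hw
  refine key k (act h w) ⟨w, hw, rfl⟩ fun t ht => ?_
  rw [← Module.End.mul_apply, ← map_mul, mul_comm, map_mul, Module.End.mul_apply, hw t ht,
    map_zero]

/-- The data for the endgame: `s g` acts as `g + c(g) g⁻¹`. -/
structure OrdData (D I : Subgroup G) (K : AddSubgroup W) (q : ℤ) (s : G → R) (c : G → ℤ) :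
    Prop where
  hID : I ≤ D
  tors : ∀ w : W, q • w = 0
  spec : ∀ g w, act (s g) w = r g w + c g • r g⁻¹ w
  cmul : ∀ g h, q ∣ c (g * h) - c g * c h
  K1 : ∀ σ ∈ I, ∀ w, r σ w - w ∈ K
  K2 : ∀ σ ∈ D, ∀ w ∈ K, r σ w ∈ K

variable {act r} {D I : Subgroup G} {K : AddSubgroup W} {q : ℤ} {s : G → R} {c : G → ℤ}

theorem OrdData.csmul (h : OrdData act r D I K q s c) (g g' : G) (w : W) :
    c (g * g') • w = (c g * c g') • w := by
  obtain ⟨d, hd⟩ := h.cmul g g'
  rw [← sub_eq_zero, ← sub_smul, hd, mul_comm, mul_smul, h.tors, smul_zero]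

theorem OrdData.inv_apply (r : G →* Module.End ℤ W) (g : G) (w : W) : r g (r g⁻¹ w) = w := by
  rw [← Module.End.mul_apply, ← map_mul, mul_inv_cancel, map_one]
  rfl

theorem OrdData.inv_apply' (r : G →* Module.End ℤ W) (g : G) (w : W) : r g⁻¹ (r g w) = w := by
  rw [← Module.End.mul_apply, ← map_mul, inv_mul_cancel, map_one]
  rfl

/-- `s τ - 1 - c τ` maps into `K` for `τ` in the inertia group. -/
theorem OrdData.claim1 (h : OrdData act r D I K q s c) {τ : G} (hτ : τ ∈ I) (w : W) :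
    act (s τ - 1 - (c τ : R)) w ∈ K := by
  have h1 : act (s τ - 1 - (c τ : R)) w = (r τ w - w) + c τ • (r τ⁻¹ w - w) := by
    rw [map_sub, map_sub, map_one, map_intCast, LinearMap.sub_apply, LinearMap.sub_apply,
      Module.End.one_apply, Module.End.intCast_apply, h.spec, smul_sub]
    abel
  rw [h1]
  exact K.add_mem (h.K1 τ hτ w) (K.zsmul_mem (h.K1 τ⁻¹ (I.inv_mem hτ) w) _)

/-- The operator `(a - 1) g (a - c(a)) b + adjoint`. -/
def wordOp (s : G → R) (c : G → ℤ) (a g b : G) : R :=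
  s (a * g * a * b) - (c a : R) * s (a * g * b) - s (g * a * b) + (c a : R) * s (g * b)

theorem OrdData.word_apply (h : OrdData act r D I K q s c) (a g b : G) (w : W) :
    act (wordOp s c a g b) w =
      (r a (r g (r a (r b w) - c a • r b w)) - r g (r a (r b w) - c a • r b w)) +
      (c a * c g * c b) • r b⁻¹ (r a⁻¹ (r g⁻¹ (c a • r a⁻¹ w - w)) -
        r g⁻¹ (c a • r a⁻¹ w - w)) := by
  have e1 : act (s (a * g * a * b)) w = r a (r g (r a (r b w))) +
      (c a * c g * c a * c b) • r b⁻¹ (r a⁻¹ (r g⁻¹ (r a⁻¹ w))) := by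
    rw [h.spec, h.csmul, mul_smul, smul_comm, h.csmul, mul_smul, smul_comm (c b), h.csmul]
    simp only [mul_inv_rev, map_mul, Module.End.mul_apply]
    congr 1
    module
  have e2 : act (s (a * g * b)) w = r a (r g (r b w)) +
      (c a * c g * c b) • r b⁻¹ (r g⁻¹ (r a⁻¹ w)) := by
    rw [h.spec, h.csmul, mul_smul, smul_comm, h.csmul]
    simp only [mul_inv_rev, map_mul, Module.End.mul_apply]
    congr 1
    module
  have e3 : act (s (g * a * b)) w = r g (r a (r b w)) +
      (c a * c g * c b) • r b⁻¹ (r a⁻¹ (r g⁻¹ w)) := by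
    rw [h.spec, h.csmul, mul_smul, smul_comm, h.csmul]
    simp only [mul_inv_rev, map_mul, Module.End.mul_apply]
    congr 1
    module
  have e4 : act (s (g * b)) w = r g (r b w) + (c g * c b) • r b⁻¹ (r g⁻¹ w) := by
    rw [h.spec, h.csmul]
    simp only [mul_inv_rev, map_mul, Module.End.mul_apply]
  rw [wordOp, map_add, map_sub, map_sub, map_mul, map_mul, map_intCast, LinearMap.add_apply,
    LinearMap.sub_apply, LinearMap.sub_apply, Module.End.mul_apply, Module.End.mul_apply,
    Module.End.intCast_apply, Module.End.intCast_apply, e1, e2, e3, e4]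
  simp only [map_sub, map_smul, smul_sub, smul_add, smul_smul]
  module

/-- the word operator with `a` in inertia, `b` in the decomposition group maps into `K`. -/
theorem OrdData.claim2 (h : OrdData act r D I K q s c) {a b : G} (ha : a ∈ I) (hb : b ∈ D)
    (g : G) (w : W) : act (wordOp s c a g b) w ∈ K := by
  rw [h.word_apply]
  refine K.add_mem (h.K1 a ha _) (K.zsmul_mem (h.K2 b⁻¹ (D.inv_mem hb) _ ?_) _)
  exact h.K1 a⁻¹ (I.inv_mem ha) _

/-- **No subquotient on which inertia acts through the character.** -/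
theorem OrdData.irr [Finite W] (h : OrdData act r D I K q s c) (P : Ideal R) [hP : P.IsMaximal]
    (a g b : G) (hx : wordOp s c a g b ∉ P) (Y₁ Y₂ : AddSubgroup W) (hY : Y₁ ≤ Y₂)
    (hY₂ : ∀ y ∈ Y₂, y ∈ killed act P) (hs₁ : ∀ g, ∀ y ∈ Y₁, r g y ∈ Y₁)
    (hs₂ : ∀ g, ∀ y ∈ Y₂, r g y ∈ Y₂) (ha : ∀ y ∈ Y₂, r a y - c a • y ∈ Y₁) : Y₂ ≤ Y₁ := by
  set x := wordOp s c a g b with hxdef
  -- `x` maps `Y₂` to `Y₁`
  have h1 : ∀ y ∈ Y₂, act x y ∈ Y₁ := by
    intro y hy
    rw [hxdef, h.word_apply]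
    have h2 : r a (r b y) - c a • r b y ∈ Y₁ := ha _ (hs₂ b y hy)
    have h3 : c a • r a⁻¹ y - y ∈ Y₁ := by
      have h4 := hs₁ a⁻¹ _ (ha y hy)
      rw [map_sub, OrdData.inv_apply', map_smul] at h4
      have h5 := Y₁.neg_mem h4
      rwa [neg_sub] at h5
    refine Y₁.add_mem (Y₁.sub_mem (hs₁ _ _ (hs₁ _ _ h2)) (hs₁ _ _ h2)) (Y₁.zsmul_mem ?_ _)
    exact hs₁ _ _ (Y₁.sub_mem (hs₁ _ _ (hs₁ _ _ h3)) (hs₁ _ _ h3))
  -- `x` is injective on `Y₂`
  obtain ⟨t, ht⟩ : ∃ t, t * x - 1 ∈ P := by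
    have h2 : P ⊔ Ideal.span {x} = ⊤ := by
      apply hP.1.2
      rw [left_lt_sup]
      intro h3
      exact hx (h3 (Ideal.mem_span_singleton_self x))
    have h3 : (1 : R) ∈ P ⊔ Ideal.span {x} := by rw [h2]; trivial
    obtain ⟨u, hu, v, hv, huv⟩ := Submodule.mem_sup.mp h3
    obtain ⟨t, rfl⟩ := Ideal.mem_span_singleton'.mp hv
    refine ⟨t, ?_⟩
    rw [← huv]
    have : t * x - (u + t * x) = -u := by ring
    rw [this]
    exact P.neg_mem hu
  have hinj : ∀ y ∈ Y₂, act x y = 0 → y = 0 := by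
    intro y hy hxy
    have h2 := hY₂ y hy _ ht
    rw [map_sub, map_mul, map_one, LinearMap.sub_apply, Module.End.mul_apply, hxy, map_zero,
      zero_sub, Module.End.one_apply, neg_eq_zero] at h2
    exact h2
  let φ : Y₂ → Y₁ := fun y => ⟨act x y, h1 y y.2⟩
  have hφ : Function.Injective φ := by
    intro y z hyz
    have h2 : act x (y : W) = act x (z : W) := congrArg Subtype.val hyz
    have h3 := hinj ((y : W) - z) (Y₂.sub_mem y.2 z.2) (by rw [map_sub, h2, sub_self])
    exact Subtype.ext (sub_eq_zero.mp h3)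
  have hcard : Nat.card Y₂ ≤ Nat.card Y₁ := Nat.card_le_card_of_injective φ hφ
  have heq : Y₁ = Y₂ := AddSubgroup.eq_of_le_of_card_ge hY hcard
  exact heq.ge

end Abstract

end Fermat.Agent.H05
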