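import Fermat.Agent.H05.Local
import Mathlib.RingTheory.LocalRing.Module

/-!
# Linear algebra for the ordinary condition (S33)
-/

set_option autoImplicit false
set_option linter.style.haveILetI false

noncomputable section

namespace Fermat.Agent.H05

open Polynomial Module

section Line

variable {T V : Type*} [CommRing T] [IsLocalRing T] [AddCommGroup V] [Module T V]
  [Module.Free T V] [Module.Finite T V]

theorem cayley_two (hV : finrank T V = 2) (f : Module.End T V) :
    f * f = LinearMap.trace T V f • f - LinearMap.det f • (1 : Module.End T V) := by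
  have h := f.aeval_self_charpoly
  rw [charpoly_eq_trace_det hV f] at h
  simp only [map_add, map_sub, map_mul, aeval_C, map_pow, aeval_X, Algebra.algebraMap_eq_smul_one,
    smul_mul_assoc, one_mul] at h
  rw [sub_add, sub_eq_zero, pow_two] at h
  exact h

/-- An endomorphism of a free module of rank two with eigenvalues `1` and `d`, `d - 1` a unit,
is diagonalisable. -/
theorem exists_basis_of_trace (hV : finrank T V = 2) (f : Module.End T V) {d : T}
    (hd : IsUnit (d - 1)) (htr : LinearMap.trace T V f = 1 + d) (hdet : LinearMap.det f = d) :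
    ∃ b : Basis (Fin 2) T V, f (b 0) = d • b 0 ∧ f (b 1) = b 1 := by
  classical
  obtain ⟨u, hu⟩ := hd
  have hCH : f * f = (1 + d) • f - d • (1 : Module.End T V) := by
    have := cayley_two hV f
    rwa [htr, hdet] at this
  have hCH' : ∀ x, f (f x) = (1 + d) • f x - d • x := fun x => LinearMap.congr_fun hCH x
  have hud : ((u⁻¹ : Tˣ) : T) * (d - 1) = 1 := by rw [← hu]; exact Units.inv_mul u
  let P : Module.End T V := ((u⁻¹ : Tˣ) : T) • (f - 1)
  have hP : ∀ x, P x = ((u⁻¹ : Tˣ) : T) • (f x - x) := fun x => rfl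
  have hfP : ∀ x, f (P x) = d • P x := by
    intro x
    rw [hP, map_smul, map_sub, hCH', smul_comm d]
    congr 1
    module
  have hPf : ∀ x, f x = d • x → P x = x := by
    intro x hx
    rw [hP, hx, show d • x - x = (d - 1) • x by module, smul_smul, hud, one_smul]
  have hproj : LinearMap.IsProj (LinearMap.range P) P :=
    ⟨fun x => ⟨x, rfl⟩, by
      rintro x ⟨y, rfl⟩
      exact hPf _ (hfP y)⟩
  have hc := hproj.isCompl
  haveI : Module.Projective T (LinearMap.range P) :=
    Module.Projective.of_split (LinearMap.range P).subtype hproj.codRestrict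
      (LinearMap.ext fun x => hproj.codRestrict_apply_cod x)
  haveI : Module.Finite T (LinearMap.range P) := inferInstance
  have hproj' : LinearMap.IsProj (LinearMap.ker P) (1 - P) :=
    ⟨fun x => by
      rw [LinearMap.mem_ker]
      change P (x - P x) = 0
      rw [map_sub, hPf _ (hfP x), sub_self],
     fun x hx => by
      change x - P x = x
      rw [LinearMap.mem_ker.mp hx, sub_zero]⟩
  haveI : Module.Projective T (LinearMap.ker P) :=
    Module.Projective.of_split (LinearMap.ker P).subtype hproj'.codRestrict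
      (LinearMap.ext fun x => hproj'.codRestrict_apply_cod x)
  haveI : Module.Finite T (LinearMap.ker P) :=
    Module.Finite.of_surjective hproj'.codRestrict fun x => ⟨x, hproj'.codRestrict_apply_cod x⟩
  haveI : Module.Free T (LinearMap.range P) := Module.free_of_flat_of_isLocalRing
  haveI : Module.Free T (LinearMap.ker P) := Module.free_of_flat_of_isLocalRing
  have htrP : LinearMap.trace T V P = 1 := by
    change LinearMap.trace T V (((u⁻¹ : Tˣ) : T) • (f - 1)) = 1
    rw [map_smul, map_sub, htr, LinearMap.trace_one, hV, smul_eq_mul]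
    refine Eq.trans ?_ hud
    congr 1
    push_cast
    ring
  have htrP' := hproj.trace
  have hsum : finrank T (LinearMap.range P) + finrank T (LinearMap.ker P) = 2 := by
    rw [← hV, ← Module.finrank_prod]
    exact LinearEquiv.finrank_eq ((LinearMap.range P).prodEquivOfIsCompl (LinearMap.ker P) hc)
  rw [htrP] at htrP'
  have hr1 : finrank T (LinearMap.range P) = 1 := by
    have h3 : finrank T (LinearMap.range P) ≤ 2 := by omega
    interval_cases h : finrank T (LinearMap.range P)
    · simp at htrP'
    · rfl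
    · exfalso
      have : (1 : T) = 2 := htrP'
      have h1 : (1 : T) = 0 := by linear_combination -this
      exact one_ne_zero h1
  have hr2 : finrank T (LinearMap.ker P) = 1 := by omega
  let b₀ : Basis (Fin 1) T (LinearMap.range P) :=
    (Module.finBasis T (LinearMap.range P)).reindex (finCongr hr1)
  let b₁ : Basis (Fin 1) T (LinearMap.ker P) :=
    (Module.finBasis T (LinearMap.ker P)).reindex (finCongr hr2)
  let e := (LinearMap.range P).prodEquivOfIsCompl (LinearMap.ker P) hc
  let b : Basis (Fin 2) T V := ((b₀.prod b₁).map e).reindex finSumFinEquiv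
  refine ⟨b, ?_, ?_⟩
  · have h0 : b 0 = (b₀ 0 : V) := by
      have : (finSumFinEquiv (m := 1) (n := 1)).symm 0 = Sum.inl 0 := by decide
      simp only [b, Basis.reindex_apply, this, Basis.map_apply, Basis.prod_apply]
      simp [e]
    rw [h0]
    obtain ⟨y, hy⟩ := (b₀ 0).2
    rw [← hy]
    exact hfP y
  · have h1 : b 1 = (b₁ 0 : V) := by
      have : (finSumFinEquiv (m := 1) (n := 1)).symm 1 = Sum.inr 0 := by decide
      simp only [b, Basis.reindex_apply, this, Basis.map_apply, Basis.prod_apply]
      simp [e]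
    rw [h1]
    have h2 : P (b₁ 0 : V) = 0 := LinearMap.mem_ker.mp (b₁ 0).2
    rw [hP] at h2
    have h3 : (u : T) • (((u⁻¹ : Tˣ) : T) • (f (b₁ 0 : V) - (b₁ 0 : V))) = 0 := by
      rw [h2, smul_zero]
    rw [smul_smul, Units.mul_inv, one_smul, sub_eq_zero] at h3
    exact h3

/-- The line of an ordinary representation. -/
theorem exists_line {G : Type*} [Group G] (hV : finrank T V = 2) (ρ : G →* Module.End T V)
    (D I : Subgroup G) (hID : I ≤ D) (s : G) (hs : s ∈ I)
    (hunit : IsUnit (LinearMap.det (ρ s) - 1))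
    (hI : ∀ t ∈ I, LinearMap.trace T V (ρ t) = 1 + LinearMap.det (ρ t))
    (hD : ∀ t ∈ D, (ρ s - algebraMap T (Module.End T V) (LinearMap.det (ρ s))) * ρ t *
      (ρ s - 1) = 0) :
    ∃ L : Submodule T V, (∃ b : Basis (Fin 2) T V, L = T ∙ b 0) ∧
      (∀ t ∈ D, ∀ v ∈ L, ρ t v ∈ L) ∧ (∀ t ∈ I, ∀ v : V, ρ t v - v ∈ L) := by
  classical
  set d := LinearMap.det (ρ s) with hd
  obtain ⟨b, hb0, hb1⟩ := exists_basis_of_trace hV (ρ s) hunit (hI s hs) rfl
  obtain ⟨u, hu⟩ := hunit
  have hmem : ∀ v : V, v ∈ (T ∙ b 0) ↔ b.repr v 1 = 0 := by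
    intro v
    rw [Submodule.mem_span_singleton]
    constructor
    · rintro ⟨c, rfl⟩
      rw [map_smul, Basis.repr_self, Finsupp.smul_apply, Finsupp.single_apply,
        if_neg (by decide), smul_zero]
    · intro h
      refine ⟨b.repr v 0, ?_⟩
      have := b.sum_repr v
      rw [Fin.sum_univ_two, h, zero_smul, add_zero] at this
      exact this
  -- the lower left entry vanishes
  have hc : ∀ t ∈ D, b.repr (ρ t (b 0)) 1 = 0 := by
    intro t ht
    have h1 := LinearMap.congr_fun (hD t ht) (b 0)
    rw [Module.End.mul_apply, Module.End.mul_apply, LinearMap.sub_apply, LinearMap.sub_apply,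
      Module.End.one_apply, hb0, LinearMap.zero_apply, Module.algebraMap_end_apply] at h1
    have h2 : d • b 0 - b 0 = (u : T) • b 0 := by rw [hu, sub_smul, one_smul]
    rw [h2, map_smul, map_smul, smul_comm d, ← smul_sub] at h1
    have h3 : ρ s (ρ t (b 0)) - d • ρ t (b 0) = 0 := by
      have h4 := congrArg (fun x => ((u⁻¹ : Tˣ) : T) • x) h1
      simp only [smul_smul, Units.inv_mul, one_smul, smul_zero] at h4
      exact h4
    set x := ρ t (b 0) with hx
    have h5 : x = b.repr x 0 • b 0 + b.repr x 1 • b 1 := by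
      have := b.sum_repr x
      rw [Fin.sum_univ_two] at this
      exact this.symm
    have h6 : ρ s x = (b.repr x 0 * d) • b 0 + b.repr x 1 • b 1 := by
      conv_lhs => rw [h5]
      rw [map_add, map_smul, map_smul, hb0, hb1, smul_smul]
    have h7 := congrArg (fun y => b.repr y 1) h3
    simp only [map_sub, map_smul, Finsupp.sub_apply, Finsupp.smul_apply, map_zero,
      Finsupp.zero_apply, smul_eq_mul] at h7
    rw [h6] at h7
    simp only [map_add, map_smul, Basis.repr_self, Finsupp.add_apply, Finsupp.smul_apply,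
      Finsupp.single_apply, smul_eq_mul, one_ne_zero, if_false, if_true, mul_zero, zero_add,
      mul_one, Fin.zero_eq_one_iff, OfNat.ofNat_ne_one, zero_ne_one] at h7
    have h8 : (u : T) * b.repr x 1 = 0 := by
      rw [hu]
      linear_combination -h7
    exact (Units.mul_right_eq_zero u).mp h8
  refine ⟨T ∙ b 0, ⟨b, rfl⟩, ?_, ?_⟩
  · intro t ht v hv
    obtain ⟨c, rfl⟩ := Submodule.mem_span_singleton.mp hv
    rw [map_smul]
    exact Submodule.smul_mem _ c ((hmem _).mpr (hc t ht))
  · -- matrices
    have htrM : ∀ f : Module.End T V, LinearMap.trace T V f =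
        b.repr (f (b 0)) 0 + b.repr (f (b 1)) 1 := by
      intro f
      rw [LinearMap.trace_eq_matrix_trace T b, Matrix.trace_fin_two, LinearMap.toMatrix_apply,
        LinearMap.toMatrix_apply]
    have hdetM : ∀ f : Module.End T V, LinearMap.det f =
        b.repr (f (b 0)) 0 * b.repr (f (b 1)) 1 - b.repr (f (b 1)) 0 * b.repr (f (b 0)) 1 := by
      intro f
      rw [← LinearMap.det_toMatrix b, Matrix.det_fin_two, LinearMap.toMatrix_apply,
        LinearMap.toMatrix_apply, LinearMap.toMatrix_apply, LinearMap.toMatrix_apply]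
    intro t ht v
    rw [hmem]
    have ht' := hID ht
    have h1 := hI t ht
    have h2 := hI (s * t) (I.mul_mem hs ht)
    have hc1 := hc t ht'
    have hc2 := hc (s * t) (D.mul_mem (hID hs) ht')
    have key : ∀ x : V, b.repr (ρ s x) 0 = d * b.repr x 0 ∧ b.repr (ρ s x) 1 = b.repr x 1 := by
      intro x
      have h5 : x = b.repr x 0 • b 0 + b.repr x 1 • b 1 := by
        have := b.sum_repr x
        rw [Fin.sum_univ_two] at this
        exact this.symm
      have h6 : ρ s x = (b.repr x 0 * d) • b 0 + b.repr x 1 • b 1 := by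
        conv_lhs => rw [h5]
        rw [map_add, map_smul, map_smul, hb0, hb1, smul_smul]
      rw [h6]
      constructor
      · simp [mul_comm]
      · simp
    rw [htrM, hdetM, hc1] at h1
    rw [map_mul, htrM, map_mul, ← hd, hdetM, hc1] at h2
    simp only [Module.End.mul_apply, (key _).1, (key _).2] at h2
    have h3 : (u : T) * (b.repr (ρ t (b 0)) 0) = (u : T) *
        (b.repr (ρ t (b 0)) 0 * b.repr (ρ t (b 1)) 1) := by
      rw [hu]
      linear_combination h2 - h1
    have h4 := u.mul_right_inj.mp h3
    have h5 : b.repr (ρ t (b 1)) 1 = 1 := by linear_combination h1 - h4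
    have hv : v = b.repr v 0 • b 0 + b.repr v 1 • b 1 := by
      have := b.sum_repr v
      rw [Fin.sum_univ_two] at this
      exact this.symm
    have h6 : b.repr (ρ t v) 1 = b.repr v 1 := by
      conv_lhs => rw [hv]
      rw [map_add, map_smul, map_smul, map_add, map_smul, map_smul, Finsupp.add_apply,
        Finsupp.smul_apply, Finsupp.smul_apply, hc1, h5, smul_zero, zero_add, smul_eq_mul, mul_one]
    rw [map_sub, Finsupp.sub_apply, h6, sub_self]

/-- Irreducibility gives elements with a unit "off-diagonal product". -/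
theorem exists_unit_trace {G : Type*} [Group G] (hV : finrank T V = 2) (ρ : G →* Module.End T V)
    (hspan : Submodule.span T (Set.range ρ) = ⊤) (f : Module.End T V) (d : T)
    (hunit : IsUnit (d - 1))
    (htr : LinearMap.trace T V f - (1 + d) ∈ IsLocalRing.maximalIdeal T) :
    ∃ g h : G, IsUnit (LinearMap.trace T V
      ((f - 1) * ρ h * (f - algebraMap T (Module.End T V) d) * ρ g)) := by
  classical
  by_contra hcon
  push Not at hcon
  have hcon' : ∀ g h : G, LinearMap.trace T V
      ((f - 1) * ρ h * (f - algebraMap T (Module.End T V) d) * ρ g) ∈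
        IsLocalRing.maximalIdeal T := fun g h => (IsLocalRing.mem_maximalIdeal _).mpr (hcon g h)
  have h1 : ∀ B C : Module.End T V, LinearMap.trace T V
      ((f - 1) * B * (f - algebraMap T (Module.End T V) d) * C) ∈ IsLocalRing.maximalIdeal T := by
    intro B C
    have hB : B ∈ Submodule.span T (Set.range ρ) := by rw [hspan]; trivial
    have hC : C ∈ Submodule.span T (Set.range ρ) := by rw [hspan]; trivial
    induction hB using Submodule.span_induction with
    | mem B hB =>
      obtain ⟨h, rfl⟩ := hB
      induction hC using Submodule.span_induction with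
      | mem C hC =>
        obtain ⟨g, rfl⟩ := hC
        exact hcon' g h
      | zero => rw [mul_zero, map_zero]; exact zero_mem _
      | add x y _ _ hx hy => rw [mul_add, map_add]; exact add_mem hx hy
      | smul c x _ hx => rw [mul_smul_comm, map_smul]; exact Ideal.mul_mem_left _ _ hx
    | zero => rw [mul_zero, zero_mul, zero_mul, map_zero]; exact zero_mem _
    | add x y _ _ hx hy => rw [mul_add, add_mul, add_mul, map_add]; exact add_mem hx hy
    | smul c x _ hx =>
      rw [mul_smul_comm, smul_mul_assoc, smul_mul_assoc, map_smul]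
      exact Ideal.mul_mem_left _ _ hx
  let b : Basis (Fin 2) T V := (Module.finBasis T V).reindex (finCongr hV)
  set F₁ := LinearMap.toMatrix b b (f - 1) with hF₁
  set F₂ := LinearMap.toMatrix b b (f - algebraMap T (Module.End T V) d) with hF₂
  have h2 : ∀ B C : Matrix (Fin 2) (Fin 2) T, (F₁ * B * F₂ * C).trace ∈
      IsLocalRing.maximalIdeal T := by
    intro B C
    have := h1 (Matrix.toLin b b B) (Matrix.toLin b b C)
    rw [LinearMap.trace_eq_matrix_trace T b, LinearMap.toMatrix_mul, LinearMap.toMatrix_mul,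
      LinearMap.toMatrix_mul, LinearMap.toMatrix_toLin, LinearMap.toMatrix_toLin] at this
    exact this
  have htrF₁ : F₁.trace = LinearMap.trace T V f - 2 := by
    rw [hF₁, ← LinearMap.trace_eq_matrix_trace T b, map_sub, LinearMap.trace_one, hV]
    norm_num
  have htrF₂ : F₂.trace = LinearMap.trace T V f - 2 * d := by
    rw [hF₂, ← LinearMap.trace_eq_matrix_trace T b, map_sub, Algebra.algebraMap_eq_smul_one,
      map_smul, LinearMap.trace_one, hV, smul_eq_mul]
    norm_num
    ring
  have hu1 : ∃ i j, IsUnit (F₁ i j) := by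
    by_contra hc
    push Not at hc
    have h3 : F₁.trace ∈ IsLocalRing.maximalIdeal T := by
      rw [Matrix.trace_fin_two]
      exact add_mem ((IsLocalRing.mem_maximalIdeal _).mpr (hc 0 0))
        ((IsLocalRing.mem_maximalIdeal _).mpr (hc 1 1))
    rw [htrF₁] at h3
    have h4 := sub_mem h3 htr
    have h5 : LinearMap.trace T V f - 2 - (LinearMap.trace T V f - (1 + d)) = d - 1 := by ring
    rw [h5] at h4
    exact (IsLocalRing.mem_maximalIdeal _).mp h4 hunit
  have hu2 : ∃ i j, IsUnit (F₂ i j) := by
    by_contra hc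
    push Not at hc
    have h3 : F₂.trace ∈ IsLocalRing.maximalIdeal T := by
      rw [Matrix.trace_fin_two]
      exact add_mem ((IsLocalRing.mem_maximalIdeal _).mpr (hc 0 0))
        ((IsLocalRing.mem_maximalIdeal _).mpr (hc 1 1))
    rw [htrF₂] at h3
    have h4 := sub_mem htr h3
    have h5 : LinearMap.trace T V f - (1 + d) - (LinearMap.trace T V f - 2 * d) = d - 1 := by ring
    rw [h5] at h4
    exact (IsLocalRing.mem_maximalIdeal _).mp h4 hunit
  obtain ⟨i, j, hij⟩ := hu1
  obtain ⟨k, l, hkl⟩ := hu2
  have h3 := h2 (Matrix.single j k 1) (Matrix.single l i 1)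
  have h4 : (F₁ * Matrix.single j k 1 * F₂ * Matrix.single l i 1).trace = F₁ i j * F₂ k l := by
    clear h3 h2 hcon' hcon h1
    fin_cases i <;> fin_cases j <;> fin_cases k <;> fin_cases l <;>
      simp [Matrix.trace_fin_two, Matrix.mul_apply, Fin.sum_univ_two, Matrix.single_apply]
  rw [h4] at h3
  exact (IsLocalRing.mem_maximalIdeal _).mp h3 (hij.mul hkl)

/-- The trace form is nondegenerate on the image of an absolutely irreducible representation. -/
theorem eq_zero_of_trace {G : Type*} [Group G] (ρ : G →* Module.End T V)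
    (hspan : Submodule.span T (Set.range ρ) = ⊤) (Y : Module.End T V)
    (h : ∀ g, LinearMap.trace T V (ρ g * Y) = 0) : Y = 0 := by
  classical
  have h1 : ∀ x : Module.End T V, LinearMap.trace T V (x * Y) = 0 := by
    intro x
    have hx : x ∈ Submodule.span T (Set.range ρ) := by rw [hspan]; trivial
    induction hx using Submodule.span_induction with
    | mem y hy =>
      obtain ⟨g, rfl⟩ := hy
      exact h g
    | zero => simp
    | add y z _ _ hy hz => rw [add_mul, map_add, hy, hz, add_zero]
    | smul c y _ hy => rw [smul_mul_assoc, map_smul, hy, smul_zero]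
  let e := Module.Free.chooseBasis T V
  apply (LinearMap.toMatrix e e).injective
  apply Matrix.ext_iff_trace_mul_left.mpr
  intro x
  have h2 := h1 (Matrix.toLin e e x)
  rw [LinearMap.trace_eq_matrix_trace T e, LinearMap.toMatrix_mul, LinearMap.toMatrix_toLin] at h2
  rw [h2]
  simp

end Line

section Residual

/-- The residual traces on inertia of an ordinary representation. -/
theorem trace_of_ordinary {k : Type} [Field k] {ρ : GaloisRepAdic k} {p : ℕ}
    (h : ρ.IsOrdinaryAt p) {A : ValuationSubring (AlgebraicClosure ℚ)} (hA : A.LiesOverPrime p)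
    {τ : AlgebraicClosure ℚ ≃ₐ[ℚ] AlgebraicClosure ℚ} (hτ : τ ∈ A.inertiaSubgroupIn ℚ) :
    LinearMap.trace k ρ.V (ρ.ρ τ) = 1 + LinearMap.det (ρ.ρ τ) := by
  obtain ⟨L, ⟨b, rfl⟩, -, h2⟩ := h A hA
  obtain ⟨a, ha⟩ := Submodule.mem_span_singleton.mp (h2 τ hτ (b 0))
  obtain ⟨c, hc⟩ := Submodule.mem_span_singleton.mp (h2 τ hτ (b 1))
  have h3 : ρ.ρ τ (b 0) = (1 + a) • b 0 := by
    rw [add_smul, one_smul, ha]; abel
  have h4 : ρ.ρ τ (b 1) = c • b 0 + b 1 := by
    rw [hc]; abel
  rw [LinearMap.trace_eq_matrix_trace k b, ← LinearMap.det_toMatrix b, Matrix.trace_fin_two,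
    Matrix.det_fin_two, LinearMap.toMatrix_apply, LinearMap.toMatrix_apply,
    LinearMap.toMatrix_apply, LinearMap.toMatrix_apply, h3, h4]
  simp
  ring

theorem residual_ordinary_trace {T : Type} [CommRing T] [IsLocalRing T] (ρ : GaloisRepAdic T)
    {p : ℕ} (hres : (GaloisRepAdic.ofResidualGaloisRep ρ.residual).IsOrdinaryAt p)
    {A : ValuationSubring (AlgebraicClosure ℚ)} (hA : A.LiesOverPrime p)
    {τ : AlgebraicClosure ℚ ≃ₐ[ℚ] AlgebraicClosure ℚ} (hτ : τ ∈ A.inertiaSubgroupIn ℚ) :
    LinearMap.trace T ρ.V (ρ.ρ τ) - (1 + LinearMap.det (ρ.ρ τ)) ∈ IsLocalRing.maximalIdeal T := by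
  have h1 := trace_of_ordinary hres hA hτ
  have h2 : LinearMap.trace (IsLocalRing.ResidueField T) _
      ((ρ.ρ τ).baseChange (IsLocalRing.ResidueField T)) =
      1 + LinearMap.det ((ρ.ρ τ).baseChange (IsLocalRing.ResidueField T)) := h1
  rw [LinearMap.trace_baseChange, LinearMap.det_baseChange,
    IsLocalRing.ResidueField.algebraMap_eq] at h2
  rw [← IsLocalRing.residue_eq_zero_iff, map_sub, map_add, map_one, h2, sub_self]

end Residual

end Fermat.Agent.H05
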