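import Fermat.Agent.H05.OrdAlg
import Fermat.Agent.H05.OrdAbs
import Fermat.Agent.H25.Density
import Fermat.Agent.H16.Separation
import Fermat.Agent.H05_Burnside
import Fermat.Agent.H12.InertiaVal
import Fermat.Agent.H01.P.Varpi

/-!
# The `T`-level theorem for the ordinary condition (S33)
-/

set_option autoImplicit false
set_option linter.style.haveILetI false
set_option maxSynthPendingDepth 3

noncomputable section

namespace Fermat.Agent.H05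

open Polynomial Module

local notation "Qb" => AlgebraicClosure ℚ
local notation "Γℚ" => AlgebraicClosure ℚ ≃ₐ[ℚ] AlgebraicClosure ℚ

/-- The geometric input for ordinarity at `p ∥ N`. -/
structure OrdModule (p N : ℕ) [NeZero N] (S : Set ℕ) (A : ValuationSubring Qb) (n : ℕ) :
    Type 1 where
  W : Type
  [grp : AddCommGroup W]
  [fin : Finite W]
  act : CuspForm.heckeAlgebra N 2 S →+* Module.End ℤ W
  r : Γℚ →* Module.End ℤ W
  m : ℕ
  K : AddSubgroup W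
  Ω : Set (Module.End ℤ W)
  tors : ∀ w : W, (p ^ m) • w = 0
  finlev : GaloisFactorsThroughFiniteLevel r
  faithful : ∀ t : CuspForm.heckeAlgebra N 2 S, act t = 0 → ∃ s, t = (p ^ n) • s
  es : ∀ (ℓ : ℕ) (hℓ : ℓ.Prime) (hℓN : ¬ ℓ ∣ N) (hℓS : ℓ ∉ S), ℓ ≠ p →
      ∀ A : ValuationSubring (AlgebraicClosure ℚ), A.LiesOverPrime ℓ →
      ∀ φ : Γℚ, A.IsFrobeniusAt φ ℓ → ∀ w : W,
        r φ (r φ w) - act (CuspForm.heckeAlgebra.T hℓ hℓN hℓS) (r φ w) + ℓ • w = 0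
  K1 : ∀ σ ∈ A.inertiaSubgroupIn ℚ, ∀ w, r σ w - w ∈ K
  K2 : ∀ σ ∈ A.decompositionSubgroup ℚ, ∀ w ∈ K, r σ w ∈ K
  comm : ∀ σ t w, r σ (act t w) = act t (r σ w)
  commΩ : ∀ f ∈ Ω, ∀ t w, f (act t w) = act t (f w)
  geo : ∀ X : Submodule ℤ W, (∀ x ∈ X, p • x = 0) → (∀ x ∈ X, x ∈ K) →
    (∀ σ, ∀ x ∈ X, r σ x ∈ X) → (∀ f ∈ Ω, ∀ x ∈ X, f x ∈ X) → (∀ t, ∀ x ∈ X, act t x ∈ X) →
    (∀ σ ∈ A.inertiaSubgroupIn ℚ, ∀ a : ℕ, (∀ ζ : Qb, ζ ^ p = 1 → σ ζ = ζ ^ a) →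
      ∀ x ∈ X, r σ (r σ x) - (a + 1) • r σ x + a • x = 0) →
    ∀ σ ∈ A.inertiaSubgroupIn ℚ, ∀ a : ℕ, (∀ ζ : Qb, ζ ^ p = 1 → σ ζ = ζ ^ a) →
      ∀ x ∈ X, r σ x = a • x

attribute [instance] OrdModule.grp OrdModule.fin

theorem isUnit_natCast_sub_one {T : Type*} [CommRing T] [IsLocalRing T] {p : ℕ} (hp : p.Prime)
    (hpT : (p : T) ∈ IsLocalRing.maximalIdeal T) (c : ℕ) (hc : ¬ (p : ℤ) ∣ (c : ℤ) - 1) :
    IsUnit ((c : T) - 1) := by
  by_contra h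
  have h1 : (c : T) - 1 ∈ IsLocalRing.maximalIdeal T := (IsLocalRing.mem_maximalIdeal _).mpr h
  have h2 : IsCoprime (p : ℤ) ((c : ℤ) - 1) :=
    (Nat.prime_iff_prime_int.mp hp).coprime_iff_not_dvd.mpr hc
  obtain ⟨x, y, hxy⟩ := h2
  have h3 : (x : T) * p + y * ((c : T) - 1) = 1 := by
    have := congrArg (Int.cast (R := T)) hxy
    push_cast at this
    exact this
  have h4 : (1 : T) ∈ IsLocalRing.maximalIdeal T := by
    rw [← h3]
    exact add_mem (Ideal.mul_mem_left _ _ hpT) (Ideal.mul_mem_left _ _ h1)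
  exact (Ideal.ne_top_iff_one _).mp (IsLocalRing.maximalIdeal.isMaximal T).ne_top h4

theorem isMaximal_comap {N : ℕ} [NeZero N] {S : Set ℕ} {T : Type*} [CommRing T] [IsLocalRing T]
    {p : ℕ} (hp : p.Prime) (hpT : (p : T) ∈ IsLocalRing.maximalIdeal T)
    (π : CuspForm.heckeAlgebra N 2 S →+* T) :
    ((IsLocalRing.maximalIdeal T).comap π).IsMaximal := by
  haveI := H16.moduleFinite_heckeAlgebra N 2 S
  haveI : ((IsLocalRing.maximalIdeal T).comap π).IsPrime :=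
    Ideal.IsPrime.comap π
  apply Ideal.isMaximal_of_isIntegral_of_isMaximal_comap (R := ℤ)
  have h1 : (((IsLocalRing.maximalIdeal T).comap π).comap
      (algebraMap ℤ (CuspForm.heckeAlgebra N 2 S))) = Ideal.span {(p : ℤ)} := by
    haveI h2 : (((IsLocalRing.maximalIdeal T).comap π).comap
      (algebraMap ℤ (CuspForm.heckeAlgebra N 2 S))).IsPrime := Ideal.IsPrime.comap _
    haveI h3 : (Ideal.span {(p : ℤ)}).IsMaximal :=
      PrincipalIdealRing.isMaximal_of_irreducible (Nat.prime_iff_prime_int.mp hp).irreducible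
    refine (h3.eq_of_le h2.ne_top ?_).symm
    rw [Ideal.span_singleton_le_iff_mem, Ideal.mem_comap, Ideal.mem_comap, eq_intCast,
      map_intCast, Int.cast_natCast]
    exact hpT
  rw [h1]
  exact PrincipalIdealRing.isMaximal_of_irreducible (Nat.prime_iff_prime_int.mp hp).irreducible

theorem exists_primitive {p : ℕ} (hp : p.Prime) (k : ℕ) : ∃ ζ : Qb, IsPrimitiveRoot ζ (p ^ k) := by
  haveI : NeZero ((p ^ k : ℕ) : Qb) := ⟨by exact_mod_cast (pow_pos hp.pos k).ne'⟩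
  exact HasEnoughRootsOfUnity.exists_primitiveRoot Qb (p ^ k)

/-- exponents are well defined modulo the order. -/
theorem dvd_of_pow_eq {ζ : Qb} {n : ℕ} (hn : n ≠ 0) (hζ : IsPrimitiveRoot ζ n) {a b : ℕ}
    (h : ζ ^ a = ζ ^ b) : (n : ℤ) ∣ (a : ℤ) - b := by
  have hζ0 : ζ ≠ 0 := hζ.ne_zero hn
  rw [← hζ.zpow_eq_one_iff_dvd, zpow_sub₀ hζ0, zpow_natCast, zpow_natCast, h,
    div_self (pow_ne_zero _ hζ0)]

section Key

variable {p N : ℕ} [NeZero N] {S : Finset ℕ} {T : Type} [CommRing T] [IsLocalRing T]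

/-- The approximation statement at level `n`. -/
theorem ord_key (hp : p.Prime) (hpS : p ∈ S) (hNS : ∀ q : ℕ, q.Prime → q ∣ N → q ∈ S)
    (hpT : (p : T) ∈ IsLocalRing.maximalIdeal T) (ρ : GaloisRepAdic T)
    (hspan : Submodule.span T (Set.range ρ.ρ) = ⊤)
    (π : CuspForm.heckeAlgebra N 2 (↑S : Set ℕ) →+* T)
    (hfrob : ∀ (ℓ : ℕ) (hℓ : ℓ.Prime) (hℓN : ¬ ℓ ∣ N) (hℓS : ℓ ∉ (↑S : Set ℕ)),
      ∀ A : ValuationSubring (AlgebraicClosure ℚ), A.LiesOverPrime ℓ →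
        ∀ σ : Γℚ, A.IsFrobeniusAt σ ℓ → LinearMap.charpoly (ρ.ρ σ) =
          X ^ 2 - C (π (CuspForm.heckeAlgebra.T hℓ hℓN hℓS)) * X + C ((ℓ : T)))
    (A : ValuationSubring Qb)
    (hres : ∀ τ ∈ A.inertiaSubgroupIn ℚ,
      LinearMap.trace T ρ.V (ρ.ρ τ) - (1 + LinearMap.det (ρ.ρ τ)) ∈ IsLocalRing.maximalIdeal T)
    (σ₀ : Γℚ) (hσ₀ : σ₀ ∈ A.inertiaSubgroupIn ℚ) (hunit : IsUnit (LinearMap.det (ρ.ρ σ₀) - 1))
    (n : ℕ) (hn : n ≠ 0) (M : OrdModule p N (↑S : Set ℕ) A n) :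
    (∀ τ ∈ A.inertiaSubgroupIn ℚ, LinearMap.trace T ρ.V (ρ.ρ τ) -
      (1 + LinearMap.det (ρ.ρ τ)) ∈ IsLocalRing.maximalIdeal T ^ n) ∧
    (∀ τ ∈ A.decompositionSubgroup ℚ, ∀ g, LinearMap.trace T ρ.V ((ρ.ρ σ₀ - 1) * ρ.ρ g *
      (ρ.ρ σ₀ - algebraMap T (Module.End T ρ.V) (LinearMap.det (ρ.ρ σ₀))) * ρ.ρ τ) ∈
        IsLocalRing.maximalIdeal T ^ n) := by
  obtain ⟨ζ, hζ⟩ := exists_primitive hp (M.m + n)
  choose s c hs hc hact hcyc using fun g : Γℚ => exists_hecke_trace_det H25.weakChebotarev hp hpS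
    hNS ρ π hfrob M.act M.r M.finlev M.es n (M.m + n) ζ hζ.pow_eq_one g
  set 𝔪 := IsLocalRing.maximalIdeal T with h𝔪
  have hle : 𝔪 ^ n ≤ 𝔪 := Ideal.pow_le_self hn
  have hpn : p ^ (M.m + n) ≠ 0 := (pow_pos hp.pos _).ne'
  set P : Ideal (CuspForm.heckeAlgebra N 2 (↑S : Set ℕ)) := 𝔪.comap π with hPdef
  haveI hPmax : P.IsMaximal := isMaximal_comap hp hpT π
  -- the abstract data
  have hdata : OrdData M.act M.r (A.decompositionSubgroup ℚ) (A.inertiaSubgroupIn ℚ) M.K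
      ((p ^ M.m : ℕ) : ℤ) s (fun g => (c g : ℤ)) :=
    { hID := fun σ hσ => by
        obtain ⟨τ, -, rfl⟩ := Subgroup.mem_map.mp hσ
        exact τ.2
      tors := fun w => by rw [natCast_zsmul]; exact M.tors w
      spec := fun g w => by rw [hact, natCast_zsmul]
      cmul := fun g h => by
        have h1 : ζ ^ c (g * h) = ζ ^ (c g * c h) := by
          rw [← hcyc, pow_mul, ← hcyc g, ← map_pow, ← hcyc h]
          rfl
        have h2 := dvd_of_pow_eq hpn hζ h1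
        refine dvd_trans ?_ (by exact_mod_cast h2)
        exact_mod_cast pow_dvd_pow p (Nat.le_add_right _ _)
      K1 := M.K1
      K2 := M.K2 }
  -- `p` kills what `P` kills
  have hPp : ∀ x ∈ killed M.act P, p • x = 0 := by
    intro x hx
    have h1 := hx (p : CuspForm.heckeAlgebra N 2 (↑S : Set ℕ)) (by
      rw [hPdef, Ideal.mem_comap, map_natCast]; exact hpT)
    rw [map_natCast, Module.End.natCast_apply] at h1
    exact h1
  -- comparison of exponents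
  have hcomp : ∀ (σ : Γℚ) (a : ℕ), (∀ ζ : Qb, ζ ^ p = 1 → σ ζ = ζ ^ a) →
      (p : ℤ) ∣ (c σ : ℤ) - a := by
    intro σ a ha
    set ξ := ζ ^ p ^ (M.m + n - 1) with hξ
    have hsplit : p ^ (M.m + n) = p ^ (M.m + n - 1) * p := by
      rw [← pow_succ]; congr 1; omega
    have hξp : IsPrimitiveRoot ξ p := hζ.pow (pow_pos hp.pos _) hsplit
    have h1 : ξ ^ c σ = ξ ^ a := by
      rw [← ha ξ hξp.pow_eq_one, hξ, map_pow, hcyc, ← pow_mul, ← pow_mul, mul_comm]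
    exact dvd_of_pow_eq hp.ne_zero hξp h1
  have hcsm : ∀ (σ : Γℚ) (a : ℕ), (∀ ζ : Qb, ζ ^ p = 1 → σ ζ = ζ ^ a) →
      ∀ x ∈ killed M.act P, (c σ) • x = a • x := by
    intro σ a ha x hx
    obtain ⟨d, hd⟩ := hcomp σ a ha
    have h1 : ((c σ : ℤ)) • x = (a : ℤ) • x := by
      rw [← sub_eq_zero, ← sub_smul, hd, mul_comm, mul_smul, natCast_zsmul, hPp x hx, smul_zero]
    rwa [natCast_zsmul, natCast_zsmul] at h1
  -- the word operator which is a unit at `P`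
  obtain ⟨g₀, h₀, hu₀⟩ := exists_unit_trace ρ.finrank_eq ρ.ρ hspan (ρ.ρ σ₀)
    (LinearMap.det (ρ.ρ σ₀)) hunit (hres σ₀ hσ₀)
  have hword : ∀ g b : Γℚ, LinearMap.trace T ρ.V ((ρ.ρ σ₀ - 1) * ρ.ρ g *
      (ρ.ρ σ₀ - algebraMap T (Module.End T ρ.V) (LinearMap.det (ρ.ρ σ₀))) * ρ.ρ b) -
      π (wordOp s (fun g => (c g : ℤ)) σ₀ g b) ∈ 𝔪 ^ n := by
    intro g b
    have e1 : (ρ.ρ σ₀ - 1) * ρ.ρ g *
        (ρ.ρ σ₀ - algebraMap T (Module.End T ρ.V) (LinearMap.det (ρ.ρ σ₀))) * ρ.ρ b =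
        ρ.ρ (σ₀ * g * σ₀ * b) - LinearMap.det (ρ.ρ σ₀) • ρ.ρ (σ₀ * g * b) -
          ρ.ρ (g * σ₀ * b) + LinearMap.det (ρ.ρ σ₀) • ρ.ρ (g * b) := by
      simp only [map_mul, Algebra.algebraMap_eq_smul_one, sub_mul, mul_sub, mul_smul_comm,
        smul_mul_assoc, one_mul, mul_one, mul_assoc, smul_sub]
      abel
    have e3 : π (wordOp s (fun g => (c g : ℤ)) σ₀ g b) = π (s (σ₀ * g * σ₀ * b)) - (c σ₀ : T) *
        π (s (σ₀ * g * b)) - π (s (g * σ₀ * b)) + (c σ₀ : T) * π (s (g * b)) := by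
      rw [wordOp, map_add, map_sub, map_sub, map_mul, map_mul, map_intCast, Int.cast_natCast]
    rw [e1, e3, map_add, map_sub, map_sub, map_smul, map_smul, smul_eq_mul, smul_eq_mul]
    set d := LinearMap.det (ρ.ρ σ₀) with hd
    set t1 := LinearMap.trace T ρ.V (ρ.ρ (σ₀ * g * σ₀ * b))
    set t2 := LinearMap.trace T ρ.V (ρ.ρ (σ₀ * g * b))
    set t3 := LinearMap.trace T ρ.V (ρ.ρ (g * σ₀ * b))
    set t4 := LinearMap.trace T ρ.V (ρ.ρ (g * b))
    have e2 : t1 - d * t2 - t3 + d * t4 - (π (s (σ₀ * g * σ₀ * b)) - (c σ₀ : T) *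
        π (s (σ₀ * g * b)) - π (s (g * σ₀ * b)) + (c σ₀ : T) * π (s (g * b))) =
        (t1 - π (s (σ₀ * g * σ₀ * b))) - d * (t2 - π (s (σ₀ * g * b))) -
        (d - (c σ₀ : T)) * π (s (σ₀ * g * b)) - (t3 - π (s (g * σ₀ * b))) +
        d * (t4 - π (s (g * b))) + (d - (c σ₀ : T)) * π (s (g * b)) := by ring
    rw [e2]
    refine add_mem (add_mem (sub_mem (sub_mem (sub_mem (hs _) ?_) ?_) (hs _)) ?_) ?_
    · exact Ideal.mul_mem_left _ _ (hs _)
    · exact Ideal.mul_mem_right _ _ (hc _)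
    · exact Ideal.mul_mem_left _ _ (hs _)
    · exact Ideal.mul_mem_right _ _ (hc _)
  have hx₀ : wordOp s (fun g => (c g : ℤ)) σ₀ h₀ g₀ ∉ P := by
    intro h
    rw [hPdef, Ideal.mem_comap] at h
    have h1 := add_mem (hle (hword h₀ g₀)) h
    rw [sub_add_cancel] at h1
    exact (IsLocalRing.mem_maximalIdeal _).mp h1 hu₀
  -- inertia on what `P` kills
  have hIP : ∀ σ ∈ A.inertiaSubgroupIn ℚ, s σ - 1 - ((c σ : ℤ) : CuspForm.heckeAlgebra N 2
      (↑S : Set ℕ)) ∈ P := by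
    intro σ hσ
    rw [hPdef, Ideal.mem_comap, map_sub, map_sub, map_one, map_intCast, Int.cast_natCast]
    have h1 : π (s σ) - 1 - (c σ : T) = (LinearMap.trace T ρ.V (ρ.ρ σ) -
        (1 + LinearMap.det (ρ.ρ σ))) - (LinearMap.trace T ρ.V (ρ.ρ σ) - π (s σ)) +
        (LinearMap.det (ρ.ρ σ) - (c σ : T)) := by ring
    rw [h1]
    exact add_mem (sub_mem (hres σ hσ) (hle (hs σ))) (hle (hc σ))
  -- the geometric theorem
  obtain ⟨k, u, hu, hloc⟩ := exists_localizer (act := M.act) P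
  have hG : ∀ h : CuspForm.heckeAlgebra N 2 (↑S : Set ℕ), (∀ w, M.act h w ∈ M.K) →
      π h ∈ 𝔪 ^ n := by
    intro h hh
    let Ω' : Set (Module.End ℤ M.W) := M.Ω ∪ Set.range M.r
    have h0 := act_eq_zero_of_mem (act := M.act) Ω' (by
      rintro f (hf | ⟨σ, rfl⟩)
      · exact M.commΩ f hf
      · exact M.comm σ) P M.K (by
      intro X hXP hXK hXΩ hXt
      have h1 : ∀ ξ : Qb, ξ ^ p = 1 → σ₀ ξ = ξ ^ c σ₀ := by
        intro ξ hξ
        have h2 : ξ ^ p ^ (M.m + n) = 1 := by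
          have : p ^ (M.m + n) = p * p ^ (M.m + n - 1) := by
            rw [← pow_succ']; congr 1; omega
          rw [this, pow_mul, hξ, one_pow]
        haveI : NeZero (p ^ (M.m + n)) := ⟨hpn⟩
        obtain ⟨i, -, rfl⟩ := hζ.eq_pow_of_pow_eq_one h2
        rw [map_pow, hcyc, ← pow_mul, ← pow_mul, mul_comm]
      have hall := M.geo X (fun x hx => hPp x (hXP x hx)) hXK (fun σ => hXΩ _ (Or.inr ⟨σ, rfl⟩))
        (fun f hf => hXΩ f (Or.inl hf)) hXt ?_ σ₀ hσ₀ (c σ₀) h1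
      · have h2 := hdata.irr P σ₀ h₀ g₀ hx₀ ⊥ X.toAddSubgroup bot_le (fun y hy => hXP y hy)
          (fun σ y hy => by
            rw [AddSubgroup.mem_bot] at hy ⊢
            rw [hy, map_zero]) (fun σ => hXΩ _ (Or.inr ⟨σ, rfl⟩)) (fun y hy => by
            rw [AddSubgroup.mem_bot, natCast_zsmul, hall y hy, sub_self])
        rw [eq_bot_iff]
        intro x hx
        exact h2 hx
      · intro σ hσ a ha x hx
        have h1 := hXP x hx _ (hIP σ hσ)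
        rw [map_sub, map_sub, map_one, map_intCast, LinearMap.sub_apply, LinearMap.sub_apply,
          Module.End.one_apply, Module.End.intCast_apply, hact, natCast_zsmul] at h1
        have h2 := congrArg (M.r σ) h1
        rw [map_sub, map_sub, map_add, map_nsmul, map_nsmul, map_zero, OrdData.inv_apply] at h2
        have h3 := hcsm σ a ha x (hXP x hx)
        have h4 := hcsm σ a ha (M.r σ x) (hXP _ (hXΩ _ (Or.inr ⟨σ, rfl⟩) x hx))
        rw [h3, h4] at h2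
        rw [add_smul, one_smul, ← h2]
        abel) k h (fun w _ => hh w)
    have h1 : M.act (h * u) = 0 := by
      ext w
      rw [map_mul, Module.End.mul_apply, LinearMap.zero_apply]
      exact h0 _ (hloc w)
    obtain ⟨t, ht⟩ := M.faithful _ h1
    have h2 : π h * π u ∈ 𝔪 ^ n := by
      rw [← map_mul, ht, nsmul_eq_mul, map_mul, Nat.cast_pow, map_pow, map_natCast]
      exact Ideal.mul_mem_right _ _ (Ideal.pow_mem_pow hpT n)
    have h3 : IsUnit (π u) := by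
      by_contra h4
      have h5 : π u ∈ 𝔪 := (IsLocalRing.mem_maximalIdeal _).mpr h4
      have h6 : π (u - 1) ∈ 𝔪 := hu
      rw [map_sub, map_one] at h6
      have h7 := sub_mem h5 h6
      rw [sub_sub_cancel] at h7
      exact (Ideal.ne_top_iff_one _).mp (IsLocalRing.maximalIdeal.isMaximal T).ne_top h7
    obtain ⟨v, hv⟩ := h3
    have h4 : π h = π h * π u * ((v⁻¹ : Tˣ) : T) := by
      rw [← hv, mul_assoc, Units.mul_inv, mul_one]
    rw [h4]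
    exact Ideal.mul_mem_right _ _ h2
  constructor
  · intro τ hτ
    have h1 := hG _ (hdata.claim1 hτ)
    rw [map_sub, map_sub, map_one, map_intCast, Int.cast_natCast] at h1
    have h2 : LinearMap.trace T ρ.V (ρ.ρ τ) - (1 + LinearMap.det (ρ.ρ τ)) =
        (LinearMap.trace T ρ.V (ρ.ρ τ) - π (s τ)) - (LinearMap.det (ρ.ρ τ) - (c τ : T)) +
        (π (s τ) - 1 - (c τ : T)) := by ring
    rw [h2]
    exact add_mem (sub_mem (hs τ) (hc τ)) h1
  · intro τ hτ g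
    have h1 := hG _ (hdata.claim2 hσ₀ hτ g)
    have h2 := add_mem (hword g τ) h1
    rwa [sub_add_cancel] at h2

end Key

section Exists

/-- The cyclotomic character is nontrivial on inertia at an odd prime. -/
theorem exists_inertia_moves {p : ℕ} (hp : p.Prime) (hp2 : p ≠ 2) {A : ValuationSubring Qb}
    (hA : A.LiesOverPrime p) : ∃ σ ∈ A.inertiaSubgroupIn ℚ, ∃ ζ : Qb, ζ ^ p = 1 ∧ σ ζ ≠ ζ := by
  haveI : Fact p.Prime := ⟨hp⟩
  obtain ⟨ζ, hζ⟩ := exists_primitive hp 1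
  rw [pow_one] at hζ
  by_contra hcon
  push Not at hcon
  obtain ⟨u, hw⟩ := P.exists_varpi hA hζ
  obtain ⟨n, hn⟩ := H12.exists_valuation_eq_zpow hp hA (ζ - 1) hw.ne (fun σ hσ => by
    rw [map_sub, map_one, hcon σ hσ ζ hζ.pow_eq_one])
  have hu : A.valuation u = 1 := by
    refine le_antisymm ((A.valuation_le_one_iff u).mpr hw.u_mem) ?_
    have h1 := (A.valuation_le_one_iff _).mpr hw.u_inv
    rw [map_inv₀] at h1
    have h0 : A.valuation u ≠ 0 := (_root_.map_ne_zero _).mpr hw.u_ne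
    exact (inv_le_one₀ (zero_lt_iff.mpr h0)).mp h1
  have hp1 : A.valuation (p : Qb) < 1 := A.mem_nonunits_iff.mp hA
  have hp0 : A.valuation (p : Qb) ≠ 0 := (_root_.map_ne_zero _).mpr (by exact_mod_cast hp.ne_zero)
  have h1 := congrArg A.valuation hw.p_eq
  rw [map_mul, map_pow, hu, one_mul, hn, ← zpow_natCast, ← zpow_mul] at h1
  have h2 : (A.valuation (p : Qb)) ^ (1 : ℤ) = A.valuation (p : Qb) ^ (n * ((p - 1 : ℕ) : ℤ)) := by
    rw [zpow_one]; exact h1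
  have h3 := zpow_right_injective₀ (zero_lt_iff.mpr hp0) hp1.ne h2
  have h4 : ((p - 1 : ℕ) : ℤ) ∣ 1 := ⟨n, by rw [h3, mul_comm]⟩
  have h5 : p - 1 ∣ 1 := by exact_mod_cast h4
  have h6 := Nat.le_of_dvd one_pos h5
  have h7 := hp.two_le
  omega

end Exists

/-- Ordinarity from the geometric modules, for any representation attached to a Hecke system. -/
theorem isOrdinaryAt_of_ordModules {p N : ℕ} [NeZero N] {S : Finset ℕ}
    {T : Type} [CommRing T] [IsLocalRing T] [hT : IsHausdorff (IsLocalRing.maximalIdeal T) T]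
    (hp : p.Prime) (hp2 : p ≠ 2)
    (hpT : (p : T) ∈ IsLocalRing.maximalIdeal T) (hpS : p ∈ S)
    (hNS : ∀ q : ℕ, q.Prime → q ∣ N → q ∈ S)
    (ρ : GaloisRepAdic T) (habs : ρ.residual.IsAbsolutelyIrreducible)
    (π : CuspForm.heckeAlgebra N 2 (↑S : Set ℕ) →+* T)
    (hfrob : ∀ (ℓ : ℕ) (hℓ : ℓ.Prime) (hℓN : ¬ ℓ ∣ N) (hℓS : ℓ ∉ (↑S : Set ℕ)),
      ∀ A : ValuationSubring (AlgebraicClosure ℚ), A.LiesOverPrime ℓ →
        ∀ σ : Γℚ, A.IsFrobeniusAt σ ℓ → LinearMap.charpoly (ρ.ρ σ) =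
          X ^ 2 - C (π (CuspForm.heckeAlgebra.T hℓ hℓN hℓS)) * X + C ((ℓ : T)))
    (hres : (GaloisRepAdic.ofResidualGaloisRep ρ.residual).IsOrdinaryAt p)
    (hM : ∀ A : ValuationSubring Qb, A.LiesOverPrime p → ∀ n : ℕ, n ≠ 0 →
      Nonempty (OrdModule p N (↑S : Set ℕ) A n)) : ρ.IsOrdinaryAt p := by
  intro A hA
  have hspan := span_range_eq_top_of_residual_absIrr ρ habs
  have hres' := fun τ (hτ : τ ∈ A.inertiaSubgroupIn ℚ) => residual_ordinary_trace ρ hres hA hτ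
  obtain ⟨σ₀, hσ₀, ξ, hξ1, hξ2⟩ := exists_inertia_moves hp hp2 hA
  have hunit : IsUnit (LinearMap.det (ρ.ρ σ₀) - 1) := by
    obtain ⟨M⟩ := hM A hA 1 one_ne_zero
    obtain ⟨ζ, hζ⟩ := exists_primitive hp (M.m + 1)
    obtain ⟨s, c, -, hc, -, hcyc⟩ := exists_hecke_trace_det H25.weakChebotarev hp hpS
      hNS ρ π hfrob M.act M.r M.finlev M.es 1 (M.m + 1) ζ hζ.pow_eq_one σ₀
    rw [pow_one] at hc
    have h1 : IsUnit ((c : T) - 1) := by
      refine isUnit_natCast_sub_one hp hpT c fun hdvd => hξ2 ?_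
      have h2 : ξ ^ p ^ (M.m + 1) = 1 := by
        rw [pow_succ', pow_mul, hξ1, one_pow]
      haveI : NeZero (p ^ (M.m + 1)) := ⟨(pow_pos hp.pos _).ne'⟩
      obtain ⟨i, -, rfl⟩ := hζ.eq_pow_of_pow_eq_one h2
      have h3 : σ₀ (ζ ^ i) = (ζ ^ i) ^ c := by
        rw [map_pow, hcyc, ← pow_mul, ← pow_mul, mul_comm]
      have hζi : ζ ^ i ≠ 0 := pow_ne_zero _ (hζ.ne_zero (pow_pos hp.pos _).ne')
      obtain ⟨d, hd⟩ := hdvd
      rw [h3]
      have h4 : (ζ ^ i) ^ (c : ℤ) = (ζ ^ i) ^ (1 : ℤ) := by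
        have : (c : ℤ) = p * d + 1 := by omega
        rw [this, zpow_add₀ hζi, zpow_mul, zpow_natCast, hξ1, one_zpow, one_mul]
      rwa [zpow_natCast, zpow_one] at h4
    by_contra h2
    have h3 : LinearMap.det (ρ.ρ σ₀) - 1 ∈ IsLocalRing.maximalIdeal T :=
      (IsLocalRing.mem_maximalIdeal _).mpr h2
    have h4 := sub_mem h3 hc
    have h5 : LinearMap.det (ρ.ρ σ₀) - 1 - (LinearMap.det (ρ.ρ σ₀) - (c : T)) =
        (c : T) - 1 := by ring
    rw [h5] at h4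
    exact (IsLocalRing.mem_maximalIdeal _).mp h4 h1
  have key : ∀ n : ℕ,
      (∀ τ ∈ A.inertiaSubgroupIn ℚ, LinearMap.trace T ρ.V (ρ.ρ τ) -
        (1 + LinearMap.det (ρ.ρ τ)) ∈ IsLocalRing.maximalIdeal T ^ n) ∧
      (∀ τ ∈ A.decompositionSubgroup ℚ, ∀ g, LinearMap.trace T ρ.V ((ρ.ρ σ₀ - 1) * ρ.ρ g *
        (ρ.ρ σ₀ - algebraMap T (Module.End T ρ.V) (LinearMap.det (ρ.ρ σ₀))) * ρ.ρ τ) ∈
          IsLocalRing.maximalIdeal T ^ n) := by
    intro n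
    by_cases hn : n = 0
    · subst hn
      rw [pow_zero, Ideal.one_eq_top]
      exact ⟨fun _ _ => trivial, fun _ _ _ => trivial⟩
    · obtain ⟨M⟩ := hM A hA n hn
      exact ord_key hp hpS hNS hpT ρ hspan π hfrob A hres' σ₀ hσ₀ hunit n hn M
  have haus : ∀ x : T, (∀ n : ℕ, x ∈ IsLocalRing.maximalIdeal T ^ n) → x = 0 := by
    intro x hx
    apply IsHausdorff.haus hT
    intro n
    rw [SModEq.zero, smul_eq_mul, Ideal.mul_top]
    exact hx n
  refine exists_line ρ.finrank_eq ρ.ρ (A.decompositionSubgroup ℚ) (A.inertiaSubgroupIn ℚ)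
    (fun σ hσ => by
      obtain ⟨τ, -, rfl⟩ := Subgroup.mem_map.mp hσ
      exact τ.2) σ₀ hσ₀ hunit ?_ ?_
  · intro τ hτ
    rw [← sub_eq_zero]
    exact haus _ fun n => (key n).1 τ hτ
  · intro τ hτ
    apply eq_zero_of_trace ρ.ρ hspan
    intro g
    rw [show ρ.ρ g * ((ρ.ρ σ₀ - algebraMap T (Module.End T ρ.V)
        (LinearMap.det (ρ.ρ σ₀))) * ρ.ρ τ * (ρ.ρ σ₀ - 1)) = (ρ.ρ g *
        (ρ.ρ σ₀ - algebraMap T (Module.End T ρ.V) (LinearMap.det (ρ.ρ σ₀))) * ρ.ρ τ) *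
        (ρ.ρ σ₀ - 1) by simp only [mul_assoc], LinearMap.trace_mul_comm]
    have h1 := haus _ fun n => (key n).2 τ hτ g
    simpa only [mul_assoc] using h1

/-- **S33 from the geometric modules.** -/
theorem isOrdinaryAt_of_modules {p N : ℕ} [NeZero N]
    {S : Finset ℕ} {𝒪 : Type} [CommRing 𝒪] [IsDomain 𝒪] [IsDiscreteValuationRing 𝒪]
    [IsAdicComplete (IsLocalRing.maximalIdeal 𝒪) 𝒪]
    {θ : CuspForm.heckeAlgebra N 2 (↑S : Set ℕ) →+* IsLocalRing.ResidueField 𝒪}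
    {T : Type} [CommRing T] [IsLocalRing T] [IsNoetherianRing T]
    [IsAdicComplete (IsLocalRing.maximalIdeal T) T] [Algebra 𝒪 T] [IsLocalHom (algebraMap 𝒪 T)]
    [Module.Finite 𝒪 T] [Module.Free 𝒪 T] (hp : p.Prime) (hp2 : p ≠ 2)
    (hp𝒪 : (p : 𝒪) ∈ IsLocalRing.maximalIdeal 𝒪) (hpS : p ∈ S)
    (hNS : ∀ q : ℕ, q.Prime → q ∣ N → q ∈ S)
    (H : CuspForm.HeckeGaloisRepDatum N (↑S : Set ℕ) 𝒪 θ T)
    (hres : (GaloisRepAdic.ofResidualGaloisRep H.ρ.residual).IsOrdinaryAt p)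
    (hM : ∀ A : ValuationSubring Qb, A.LiesOverPrime p → ∀ n : ℕ, n ≠ 0 →
      Nonempty (OrdModule p N (↑S : Set ℕ) A n)) : H.ρ.IsOrdinaryAt p := by
  have hpT : (p : T) ∈ IsLocalRing.maximalIdeal T := by
    have h1 : algebraMap 𝒪 T (p : 𝒪) ∈ IsLocalRing.maximalIdeal T := by
      rw [IsLocalRing.mem_maximalIdeal] at hp𝒪 ⊢
      exact map_mem_nonunits_iff (algebraMap 𝒪 T) _ |>.mpr hp𝒪
    rwa [map_natCast] at h1
  exact isOrdinaryAt_of_ordModules hp hp2 hpT hpS hNS H.ρ H.residual_absIrr H.π H.charpoly_frob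
    hres hM

end Fermat.Agent.H05
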